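import Mathlib

/-!
# S44 / PL / Alg : Mathlib-only lemmas for the cover structure `(C0)`   (board #2328, (c3)-(c7))

* `TwoCharts.climb`      (c4)  `u ∈ M0`, `u' ∈ Minf`, `u ≡ u' mod l^n` ⟹ `u ≡ const mod l^n`.
* `TwoCharts.normalize`  (c3)+(c5)  from `y^p z ∈ M0`, `y'^p z ∈ Minf`, `y, y', z ≡ 1 mod l`.
* `wilson_cyclo`         `p = (ζ-1)^(p-1) * (-1 + (ζ-1) s)`.
* `one_add_mul_pow`      `(1 + l η)^p = 1 + l^p (η^p - η) + l^(p+1) c`.
* `exists_G0`            the polynomial `((1 + l Z)^p - 1) / l^p`.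
* `prod_X_sub_C_add`     `∏_{i<p} (X - (g + i)) = X^p - X - (g^p - g)` in characteristic `p`.
* `exists_AS_of_sum_pow` additive Hilbert 90 for a finite field, in the form used in (c7).

PROOFS.
`climb`: induction on `n`.  `n = 0`: `c = 0`.  Step: `l^(n+1) ∣ u - u'`, say `u - u' = l^(n+1) d`.  IH: `u - c = l^n m`.
 `m ∈ M0` (iterate `sat0`; `l^n m = u - c ∈ M0`).  `m' := m - l d`: `l^n m' = u' - c ∈ Minf`, so `m' ∈ Minf`.
 `l ∣ m - m'`; `h0bar` gives `c' ∈ C`, `l ∣ m - c'`.  Then `u - (c + l^n c') = l^n (m - c')`.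
`normalize`: `u := y^p z`, `u' := y'^p z`.  `(1 + t)^p = 1 + t^p + p t g` (`add_pow_prime`-type: `exists_add_pow_prime_eq`), `t = l a`,
 `l^p ∣ p l`: so `l^p ∣ y^p - 1`, `l^p ∣ y'^p - 1`, `l^p ∣ u - u'`.  `climb`: `u = c + l^p m`, `m ∈ M0`, `u' = c + l^p m'`, `m' ∈ Minf`.
 `l ∣ c - 1`.  `e := ev u' = c + l^p ev m'`, `l ∣ e - 1`, `e e' = 1`.  `ξ' := e' (m' - ev m')`, `ξ := e' (m - ev m')`.
-/

set_option autoImplicit false

open Polynomial

namespace Fermat.Agent.S44.PL

section Climb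

variable {O : Type*} [CommRing O]

/-- Two charts `M0`, `Minf` inside the semilocal ring `O`, constants `C`, uniformiser `l`. -/
structure TwoCharts (M0 Minf C : Subring O) (l : O) : Prop where
  C_le0 : C ≤ M0
  C_leinf : C ≤ Minf
  l_mem : l ∈ C
  sat0 : ∀ a, l * a ∈ M0 → a ∈ M0
  satinf : ∀ a, l * a ∈ Minf → a ∈ Minf
  h0bar : ∀ a ∈ M0, ∀ b ∈ Minf, l ∣ a - b → ∃ c ∈ C, l ∣ a - c

variable {M0 Minf C : Subring O} {l : O}

/-- TASK `S44/PL-Climb`. -/
theorem TwoCharts.climb (h : TwoCharts M0 Minf C l) (n : ℕ) {u u' : O} (hu : u ∈ M0)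
    (hu' : u' ∈ Minf) (hd : l ^ n ∣ u - u') : ∃ c ∈ C, l ^ n ∣ u - c := by
  have sat0 : ∀ (n : ℕ) (a : O), l ^ n * a ∈ M0 → a ∈ M0 := by
    intro n
    induction n with
    | zero => intro a ha; simpa using ha
    | succ n ih =>
      intro a ha
      apply ih
      apply h.sat0
      rw [← mul_assoc, ← pow_succ']
      exact ha
  have satinf : ∀ (n : ℕ) (a : O), l ^ n * a ∈ Minf → a ∈ Minf := by
    intro n
    induction n with
    | zero => intro a ha; simpa using ha
    | succ n ih =>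
      intro a ha
      apply ih
      apply h.satinf
      rw [← mul_assoc, ← pow_succ']
      exact ha
  induction n with
  | zero => exact ⟨0, C.zero_mem, by simp⟩
  | succ n ih =>
    obtain ⟨c, hc, m, hm⟩ := ih ((pow_dvd_pow l (Nat.le_succ n)).trans hd)
    obtain ⟨d, hd⟩ := hd
    have hm0 : m ∈ M0 := sat0 n m (hm ▸ M0.sub_mem hu (h.C_le0 hc))
    have hm' : m - l * d ∈ Minf := by
      apply satinf n
      have e : l ^ n * (m - l * d) = u' - c := by
        have e1 : l ^ n * (m - l * d) = l ^ n * m - l ^ (n + 1) * d := by ring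
        rw [e1, ← hm, ← hd]
        ring
      rw [e]
      exact Minf.sub_mem hu' (h.C_leinf hc)
    obtain ⟨c', hc', k, hk⟩ := h.h0bar m hm0 (m - l * d) hm' ⟨d, by ring⟩
    refine ⟨c + l ^ n * c', C.add_mem hc (C.mul_mem (C.pow_mem h.l_mem n) hc'), k, ?_⟩
    have e2 : u - (c + l ^ n * c') = (u - c) - l ^ n * c' := by ring
    rw [e2, hm, ← mul_sub, hk]
    ring

theorem TwoCharts.normalize_sat0 (h : TwoCharts M0 Minf C l) (n : ℕ) {a : O}
    (ha : l ^ n * a ∈ M0) : a ∈ M0 := by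
  induction n with
  | zero => simpa using ha
  | succ n ih =>
    apply ih
    apply h.sat0
    rwa [← mul_assoc, ← pow_succ']

theorem TwoCharts.normalize_satinf (h : TwoCharts M0 Minf C l) (n : ℕ) {a : O}
    (ha : l ^ n * a ∈ Minf) : a ∈ Minf := by
  induction n with
  | zero => simpa using ha
  | succ n ih =>
    apply ih
    apply h.satinf
    rwa [← mul_assoc, ← pow_succ']

theorem normalize_pow_sub_one {p : ℕ} (hp : p.Prime) (hpl : l ^ (p - 1) ∣ (p : O)) {y : O}
    (hy1 : l ∣ y - 1) : l ^ p ∣ y ^ p - 1 := by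
  obtain ⟨a, ha⟩ := hy1
  obtain ⟨q, hq⟩ := hpl
  obtain ⟨r, hr⟩ := exists_add_pow_prime_eq hp 1 (l * a)
  have hy : y = 1 + l * a := by linear_combination ha
  have hlp : l ^ p = l ^ (p - 1) * l := by
    rw [← pow_succ]
    congr 1
    have := hp.one_le
    omega
  refine ⟨a ^ p + q * a * r, ?_⟩
  rw [hy, hr, hq, mul_pow, one_pow, hlp]
  ring

/-- TASK `S44/PL-Normalize`. -/
theorem TwoCharts.normalize (h : TwoCharts M0 Minf C l) (ev : Minf →+* O) (hevC : ∀ x, ev x ∈ C)
    (hev : ∀ (c : O) (hc : c ∈ C), ev ⟨c, h.C_leinf hc⟩ = c)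
    (hunit : ∀ c ∈ C, l ∣ c - 1 → ∃ c' ∈ C, c * c' = 1)
    {p : ℕ} (hp : p.Prime) (hpl : l ^ (p - 1) ∣ (p : O)) {z y y' : O}
    (hy : y ^ p * z ∈ M0) (hy' : y' ^ p * z ∈ Minf)
    (hz1 : l ∣ z - 1) (hy1 : l ∣ y - 1) (hy1' : l ∣ y' - 1) :
    ∃ e ∈ C, ∃ e' ∈ C, e * e' = 1 ∧ ∃ ξ ∈ M0, ∃ ξ' : Minf,
      y ^ p * z = e * (1 + l ^ p * ξ) ∧ y' ^ p * z = e * (1 + l ^ p * (ξ' : O)) ∧ ev ξ' = 0 := by
  have h1 := normalize_pow_sub_one hp hpl hy1
  have h1' := normalize_pow_sub_one hp hpl hy1'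
  have hllp : l ∣ l ^ p := dvd_pow_self l hp.ne_zero
  obtain ⟨d, hd⟩ : l ^ p ∣ y ^ p * z - y' ^ p * z := by
    have e : y ^ p * z - y' ^ p * z = ((y ^ p - 1) - (y' ^ p - 1)) * z := by ring
    rw [e]
    exact Dvd.dvd.mul_right (dvd_sub h1 h1') z
  obtain ⟨c, hc, m, hm⟩ := h.climb p hy hy' ⟨d, hd⟩
  have hmM0 : m ∈ M0 := by
    apply h.normalize_sat0 p
    rw [← hm]
    exact M0.sub_mem hy (h.C_le0 hc)
  have hm'eq : l ^ p * (m - d) = y' ^ p * z - c := by linear_combination hd - hm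
  have hm'M : m - d ∈ Minf := by
    apply h.normalize_satinf p
    rw [hm'eq]
    exact Minf.sub_mem hy' (h.C_leinf hc)
  have hc1 : l ∣ c - 1 := by
    have e : c - 1 = (y ^ p - 1) * z + (z - 1) - (y ^ p * z - c) := by ring
    rw [e]
    exact dvd_sub (dvd_add (Dvd.dvd.mul_right (hllp.trans h1) z) hz1) (hllp.trans ⟨m, hm⟩)
  set mM : Minf := ⟨m - d, hm'M⟩ with hmM
  set t : O := ev mM with ht
  have htC : t ∈ C := hevC mM
  set e : O := c + l ^ p * t with he
  have heC : e ∈ C := C.add_mem hc (C.mul_mem (C.pow_mem h.l_mem p) htC)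
  have he1 : l ∣ e - 1 := by
    have e2 : e - 1 = (c - 1) + l ^ p * t := by rw [he]; ring
    rw [e2]
    exact dvd_add hc1 (Dvd.dvd.mul_right hllp t)
  obtain ⟨e', he'C, hee'⟩ := hunit e heC he1
  refine ⟨e, heC, e', he'C, hee', e' * (m - t),
    M0.mul_mem (h.C_le0 he'C) (M0.sub_mem hmM0 (h.C_le0 htC)),
    ⟨e', h.C_leinf he'C⟩ * (mM - ⟨t, h.C_leinf htC⟩), ?_, ?_, ?_⟩
  · have e3 : e * (1 + l ^ p * (e' * (m - t))) = e + l ^ p * (m - t) * (e * e') := by ring
    rw [e3, hee', he]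
    linear_combination hm
  · have e3 : e * (1 + l ^ p * (e' * ((m - d) - t))) = e + l ^ p * ((m - d) - t) * (e * e') := by
      ring
    show y' ^ p * z = e * (1 + l ^ p * (e' * ((m - d) - t)))
    rw [e3, hee', he]
    linear_combination -hm'eq
  · rw [map_mul, map_sub, hev t htC, ← ht, sub_self, mul_zero]

end Climb

section Cyclo

/-- TASK `S44/PL-Wilson`.  `p = ∏_{i=1}^{p-1} (1 - ζ^i)` (`Polynomial.cyclotomic_eq_prod_X_sub_primitiveRoots`,
`eval_one_cyclotomic_prime`; or `IsPrimitiveRoot.pow_sub_one_eq`-style: `∏_{i<p, i≠0} (X - ζ^i) = ∑ X^i`), `1 - ζ^i = -(ζ-1) (i + (ζ-1) s_i)`,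
`(p-1)! = -1 + p t` (`ZMod.wilsons_lemma`), `(-1)^(p-1) = 1`, `(ζ - 1) ∣ p`. -/
theorem wilson_cyclo {R : Type*} [CommRing R] [IsDomain R] {p : ℕ} (hp : p.Prime) (hp2 : p ≠ 2)
    {ζ : R} (hζ : IsPrimitiveRoot ζ p) :
    ∃ s : R, (p : R) = (ζ - 1) ^ (p - 1) * (-1 + (ζ - 1) * s) := by
  obtain ⟨n', rfl⟩ : ∃ n', p = n' + 1 + 1 := ⟨p - 2, by have := hp.two_le; omega⟩
  have heven : Even (n' + 1) := by
    rcases hp.eq_two_or_odd' with h | h
    · exact absurd h hp2
    · rcases h with ⟨m, hm⟩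
      exact ⟨m, by omega⟩
  have h1 := hζ.prod_pow_sub_one_eq_order
  rw [heven.neg_one_pow, one_mul] at h1
  have h2 : ∀ k : ℕ, ∃ a : R, ζ ^ k - 1 = (ζ - 1) * ((k : R) + (ζ - 1) * a) := by
    intro k
    induction k with
    | zero => exact ⟨0, by simp⟩
    | succ k ih =>
      obtain ⟨a, ha⟩ := ih
      refine ⟨a + k + (ζ - 1) * a, ?_⟩
      push_cast
      rw [pow_succ]
      linear_combination ζ * ha
  choose a ha using h2
  have h3 : ∀ m : ℕ, ∃ b : R, ∏ k ∈ Finset.range m, (((k + 1 : ℕ) : R) + (ζ - 1) * a (k + 1))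
      = (m.factorial : R) + (ζ - 1) * b := by
    intro m
    induction m with
    | zero => exact ⟨0, by simp⟩
    | succ m ih =>
      obtain ⟨b, hb⟩ := ih
      rw [Finset.prod_range_succ, hb, Nat.factorial_succ]
      refine ⟨(m.factorial : R) * a (m + 1) + b * ((m + 1 : ℕ) : R) + (ζ - 1) * b * a (m + 1), ?_⟩
      push_cast
      ring
  obtain ⟨b, hb⟩ := h3 (n' + 1)
  have h4 : ((n' + 1 + 1 : ℕ) : R)
      = (ζ - 1) ^ (n' + 1) * (((n' + 1).factorial : R) + (ζ - 1) * b) := by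
    rw [← hb, ← Finset.card_range (n' + 1), ← Finset.prod_const, Finset.card_range,
      ← Finset.prod_mul_distrib]
    push_cast
    push_cast at h1
    rw [← h1]
    refine Finset.prod_congr rfl fun k _ => ?_
    rw [ha (k + 1)]
    push_cast
    ring
  have h5 : ∃ t : ℤ, ((n' + 1).factorial : ℤ) = -1 + ((n' + 1 + 1 : ℕ) : ℤ) * t := by
    have : Fact (n' + 1 + 1).Prime := ⟨hp⟩
    have hw := ZMod.wilsons_lemma (n' + 1 + 1)
    rw [Nat.add_sub_cancel] at hw
    have h : ((((n' + 1).factorial : ℤ) + 1 : ℤ) : ZMod (n' + 1 + 1)) = 0 := by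
      push_cast
      rw [hw]
      ring
    obtain ⟨t, ht⟩ := (ZMod.intCast_zmod_eq_zero_iff_dvd _ _).1 h
    exact ⟨t, by linarith⟩
  obtain ⟨t, ht⟩ := h5
  have ht' : ((n' + 1).factorial : R) = -1 + ((n' + 1 + 1 : ℕ) : R) * (t : R) := by
    exact_mod_cast congrArg (Int.cast : ℤ → R) ht
  obtain ⟨w, hw⟩ : ∃ w : R, w = ((n' + 1).factorial : R) + (ζ - 1) * b := ⟨_, rfl⟩
  rw [← hw] at h4
  refine ⟨(ζ - 1) ^ n' * w * t + b, ?_⟩
  rw [Nat.add_sub_cancel]
  have hw2 : w = -1 + (ζ - 1) * ((ζ - 1) ^ n' * w * t + b) := by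
    linear_combination hw + ht' + (t : R) * h4
  rw [← hw2]
  exact h4

/-- the integral polynomial `Q = ((1 + X)^p - 1 - X^p) / (p X)`. -/
theorem Alg_exists_Q {p : ℕ} (hp : p.Prime) (hp2 : p ≠ 2) :
    ∃ Q Q₁ : ℤ[X], (1 + X) ^ p = 1 + X ^ p + (p : ℤ[X]) * X * Q ∧ Q = 1 + X * Q₁ ∧
      Q.natDegree ≤ p - 2 ∧ Q₁.natDegree ≤ p - 3 ∧
      (1 + X) ^ (p - 1) = X ^ (p - 1) + Q + X * derivative Q := by
  obtain ⟨Q, hQ⟩ := exists_add_pow_prime_eq hp (1 : ℤ[X]) X
  rw [one_pow, mul_one] at hQ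
  have hp0 : (p : ℤ) ≠ 0 := by exact_mod_cast hp.ne_zero
  have hp0' : (p : ℤ[X]) ≠ 0 := by exact_mod_cast hp.ne_zero
  have hp3 : 3 ≤ p := by
    have := hp.two_le
    omega
  have hcoeff : ∀ n : ℕ, (p.choose (n + 1) : ℤ) = (if n + 1 = p then 1 else 0) + p * Q.coeff n := by
    intro n
    have h1 := congrArg (fun P : ℤ[X] => P.coeff (n + 1)) hQ
    simp only [coeff_one_add_X_pow, coeff_add, coeff_X_pow] at h1
    rw [h1]
    have h2 : ((p : ℤ[X]) * X * Q).coeff (n + 1) = p * Q.coeff n := by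
      rw [← map_natCast C p, mul_assoc, coeff_C_mul, coeff_X_mul]
    have h3 : (1 : ℤ[X]).coeff (n + 1) = 0 := by
      rw [coeff_one]
      simp
    rw [h2, h3, zero_add]
  have hc0 : Q.coeff 0 = 1 := by
    have h1 := hcoeff 0
    rw [zero_add, Nat.choose_one_right, if_neg (by omega), zero_add] at h1
    have h2 : (p : ℤ) * Q.coeff 0 = p * 1 := by rw [← h1, mul_one]
    exact mul_left_cancel₀ hp0 h2
  have hdeg : Q.natDegree ≤ p - 2 := by
    rw [natDegree_le_iff_coeff_eq_zero]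
    intro N hN
    have h1 := hcoeff N
    by_cases hNp : N + 1 = p
    · rw [if_pos hNp, hNp, Nat.choose_self] at h1
      have h2 : (p : ℤ) * Q.coeff N = 0 := by
        push_cast at h1
        linarith
      exact (mul_eq_zero.mp h2).resolve_left hp0
    · rw [if_neg hNp, Nat.choose_eq_zero_of_lt (by omega)] at h1
      have h2 : (p : ℤ) * Q.coeff N = 0 := by
        push_cast at h1
        linarith
      exact (mul_eq_zero.mp h2).resolve_left hp0
  refine ⟨Q, divX Q, hQ, ?_, hdeg, ?_, ?_⟩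
  · have h1 := divX_mul_X_add Q
    rw [hc0] at h1
    rw [map_one] at h1
    conv_lhs => rw [← h1]
    ring
  · rw [natDegree_divX_eq_natDegree_tsub_one]
    omega
  · have h1 := congrArg derivative hQ
    rw [derivative_pow, derivative_add, derivative_add, derivative_add, derivative_one,
      derivative_X, derivative_X_pow, derivative_mul, derivative_mul, derivative_natCast,
      derivative_X, map_natCast C p] at h1
    apply mul_left_cancel₀ hp0'
    linear_combination h1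

/-- the same over any commutative ring. -/
theorem Alg_exists_Q' (R : Type*) [CommRing R] {p : ℕ} (hp : p.Prime) (hp2 : p ≠ 2) :
    ∃ Q Q₁ : R[X], (1 + X) ^ p = 1 + X ^ p + (p : R[X]) * X * Q ∧ Q = 1 + X * Q₁ ∧
      Q.natDegree ≤ p - 2 ∧ Q₁.natDegree ≤ p - 3 ∧
      (1 + X) ^ (p - 1) = X ^ (p - 1) + Q + X * derivative Q := by
  obtain ⟨Q, Q₁, h1, h2, h3, h4, h5⟩ := Alg_exists_Q hp hp2
  refine ⟨Q.map (Int.castRingHom R), Q₁.map (Int.castRingHom R), ?_, ?_,
    natDegree_map_le.trans h3, natDegree_map_le.trans h4, ?_⟩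
  · have := congrArg (Polynomial.map (Int.castRingHom R)) h1
    simpa only [Polynomial.map_add, Polynomial.map_mul, Polynomial.map_pow, Polynomial.map_one,
      Polynomial.map_X, Polynomial.map_natCast] using this
  · have := congrArg (Polynomial.map (Int.castRingHom R)) h2
    simpa only [Polynomial.map_add, Polynomial.map_mul, Polynomial.map_pow, Polynomial.map_one,
      Polynomial.map_X, Polynomial.map_natCast] using this
  · have := congrArg (Polynomial.map (Int.castRingHom R)) h5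
    simpa only [Polynomial.map_add, Polynomial.map_mul, Polynomial.map_pow, Polynomial.map_one,
      Polynomial.map_X, Polynomial.map_natCast, derivative_map] using this

theorem Alg_exists_G0 {R : Type*} [CommRing R] [Nontrivial R] {p : ℕ} (hp : p.Prime) (hp2 : p ≠ 2)
    {l s : R} (hpl : (p : R) = l ^ (p - 1) * (-1 + l * s)) :
    ∃ G₀ H : R[X], G₀.Monic ∧ G₀.natDegree = p ∧ H.natDegree < p ∧
      (1 + C l * X) ^ p = 1 + C (l ^ p) * G₀ ∧ G₀ = X ^ p - X + C l * H ∧
      derivative G₀ * C (l ^ (p - 1)) = C (p : R) * (1 + C l * X) ^ (p - 1) := by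
  obtain ⟨Q, Q₁, h1, h2, h3, h4, h5⟩ := Alg_exists_Q' R hp hp2
  have hp3 : 3 ≤ p := by
    have := hp.two_le
    omega
  obtain ⟨n, rfl⟩ : ∃ n, p = n + 3 := ⟨p - 3, by omega⟩
  have e1 : n + 3 - 1 = n + 2 := rfl
  have e2 : n + 3 - 2 = n + 1 := rfl
  have e3 : n + 3 - 3 = n := rfl
  rw [e1] at hpl h5 ⊢
  rw [e2] at h3
  rw [e3] at h4
  -- substitute `X ↦ l X`
  obtain ⟨q, hq⟩ : ∃ q : R[X], q = Q.comp (C l * X) := ⟨_, rfl⟩
  obtain ⟨q₁, hq₁⟩ : ∃ q₁ : R[X], q₁ = Q₁.comp (C l * X) := ⟨_, rfl⟩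
  obtain ⟨q', hq'⟩ : ∃ q' : R[X], q' = (derivative Q).comp (C l * X) := ⟨_, rfl⟩
  have hY : (C l * X : R[X]).natDegree ≤ 1 := (natDegree_C_mul_le _ _).trans natDegree_X_le
  have hdq : q.natDegree ≤ n + 1 := by
    rw [hq]
    calc (Q.comp (C l * X)).natDegree ≤ Q.natDegree * (C l * X : R[X]).natDegree :=
          natDegree_comp_le
      _ ≤ (n + 1) * 1 := Nat.mul_le_mul h3 hY
      _ = n + 1 := mul_one _
  have hdq₁ : q₁.natDegree ≤ n := by
    rw [hq₁]
    calc (Q₁.comp (C l * X)).natDegree ≤ Q₁.natDegree * (C l * X : R[X]).natDegree :=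
          natDegree_comp_le
      _ ≤ n * 1 := Nat.mul_le_mul h4 hY
      _ = n := mul_one _
  have i1 : (1 + C l * X) ^ (n + 3) =
      1 + (C l * X) ^ (n + 3) + ((n + 3 : ℕ) : R[X]) * (C l * X) * q := by
    have := congrArg (fun P : R[X] => P.comp (C l * X)) h1
    simpa only [add_comp, mul_comp, pow_comp, one_comp, X_comp, natCast_comp, ← hq] using this
  have i2 : q = 1 + (C l * X) * q₁ := by
    have := congrArg (fun P : R[X] => P.comp (C l * X)) h2
    simpa only [add_comp, mul_comp, pow_comp, one_comp, X_comp, natCast_comp, ← hq, ← hq₁]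
      using this
  have i5 : (1 + C l * X) ^ (n + 2) = (C l * X) ^ (n + 2) + q + (C l * X) * q' := by
    have := congrArg (fun P : R[X] => P.comp (C l * X)) h5
    simpa only [add_comp, mul_comp, pow_comp, one_comp, X_comp, natCast_comp, ← hq, ← hq']
      using this
  have hdq' : derivative q = C l * q' := by
    rw [hq, derivative_comp, derivative_C_mul, derivative_X, mul_one, ← hq']
  have hP : ((n + 3 : ℕ) : R[X]) = C l ^ (n + 2) * (-1 + C l * C s) := by
    have := congrArg C hpl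
    simpa only [map_natCast, C_mul, C_pow, C_add, C_neg, C_1] using this
  have hlow : (C (-1 + l * s) * X * q).natDegree ≤ n + 2 := by
    calc (C (-1 + l * s) * X * q).natDegree ≤ (C (-1 + l * s) * X).natDegree + q.natDegree :=
          natDegree_mul_le
      _ ≤ 1 + (n + 1) := Nat.add_le_add ((natDegree_C_mul_le _ _).trans natDegree_X_le) hdq
      _ = n + 2 := by ring
  have hlow' : (C (-1 + l * s) * X * q).degree < ((n + 3 : ℕ) : WithBot ℕ) :=
    lt_of_le_of_lt degree_le_natDegree (by exact_mod_cast Nat.lt_succ_of_le hlow)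
  refine ⟨X ^ (n + 3) + C (-1 + l * s) * X * q, C s * X * q - X * X * q₁,
    monic_X_pow_add hlow', ?_, ?_, ?_, ?_, ?_⟩
  · rw [natDegree_add_eq_left_of_natDegree_lt, natDegree_X_pow]
    rw [natDegree_X_pow]
    omega
  · refine lt_of_le_of_lt (natDegree_sub_le _ _) (max_lt ?_ ?_)
    · calc (C s * X * q).natDegree ≤ (C s * X).natDegree + q.natDegree := natDegree_mul_le
        _ ≤ 1 + (n + 1) := Nat.add_le_add ((natDegree_C_mul_le _ _).trans natDegree_X_le) hdq
        _ < n + 3 := by omega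
    · calc (X * X * q₁).natDegree ≤ (X * X : R[X]).natDegree + q₁.natDegree := natDegree_mul_le
        _ ≤ (1 + 1) + n := Nat.add_le_add
            (natDegree_mul_le.trans (Nat.add_le_add natDegree_X_le natDegree_X_le)) hdq₁
        _ < n + 3 := by omega
  · simp only [C_mul, C_pow, C_add, C_neg, C_1]
    linear_combination i1 + (C l * X * q) * hP
  · simp only [C_mul, C_add, C_neg, C_1]
    linear_combination (-X) * i2
  · rw [derivative_add, derivative_X_pow, derivative_mul, derivative_mul, derivative_C,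
      derivative_X, hdq', e1]
    simp only [C_mul, C_pow, C_add, C_neg, C_1, map_natCast]
    linear_combination (-(q + X * (C l * q'))) * hP + (-((n + 3 : ℕ) : R[X])) * i5

/-- TASK `S44/PL-Binom`. -/
theorem one_add_mul_pow {R : Type*} [CommRing R] {p : ℕ} (hp : p.Prime) (hp2 : p ≠ 2) {l s : R}
    (hpl : (p : R) = l ^ (p - 1) * (-1 + l * s)) (η : R) :
    ∃ c : R, (1 + l * η) ^ p = 1 + l ^ p * (η ^ p - η) + l ^ (p + 1) * c := by
  rcases subsingleton_or_nontrivial R with hR | hR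
  · exact ⟨0, Subsingleton.elim _ _⟩
  obtain ⟨G₀, H, -, -, -, h1, h2, -⟩ := Alg_exists_G0 hp hp2 hpl
  refine ⟨H.eval η, ?_⟩
  have h3 := congrArg (eval η) h1
  rw [h2] at h3
  simp only [eval_pow, eval_add, eval_one, eval_mul, eval_C, eval_X, eval_sub] at h3
  rw [h3]
  ring

/-- TASK `S44/PL-Binom`.  The polynomial `G₀ = ((1 + l Z)^p - 1) / l^p = Z^p - Z + l (…)`. -/
theorem exists_G0 {R : Type*} [CommRing R] [Nontrivial R] {p : ℕ} (hp : p.Prime) (hp2 : p ≠ 2)
    {l s : R} (hpl : (p : R) = l ^ (p - 1) * (-1 + l * s)) :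
    ∃ G₀ H : R[X], G₀.Monic ∧ G₀.natDegree = p ∧ H.natDegree < p ∧
      (1 + C l * X) ^ p = 1 + C (l ^ p) * G₀ ∧ G₀ = X ^ p - X + C l * H ∧
      derivative G₀ * C (l ^ (p - 1)) = C (p : R) * (1 + C l * X) ^ (p - 1) :=
  Alg_exists_G0 hp hp2 hpl

theorem Alg_prod_zmod {p : ℕ} [Fact p.Prime] :
    ∏ i ∈ Finset.range p, (X - C ((i : ℕ) : ZMod p)) = X ^ p - X := by
  have hp : p.Prime := Fact.out
  have h1 : (∏ a : ZMod p, (X - C a)) = X ^ p - X := by
    have hroots := FiniteField.roots_X_pow_card_sub_X (ZMod p)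
    rw [ZMod.card] at hroots
    have hmonic : (X ^ p - X : (ZMod p)[X]).Monic := by
      apply monic_X_pow_sub
      rw [degree_X]
      exact_mod_cast hp.one_lt
    have := prod_multiset_X_sub_C_of_monic_of_roots_card_eq hmonic (by
      rw [hroots, FiniteField.X_pow_card_sub_X_natDegree_eq _ hp.one_lt]
      simp [ZMod.card])
    rw [hroots] at this
    exact this
  rw [← h1]
  refine Finset.prod_bij (fun i _ => (i : ZMod p)) (fun _ _ => Finset.mem_univ _) ?_ ?_
    (fun _ _ => rfl)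
  · intro a ha b hb hab
    rw [ZMod.natCast_eq_natCast_iff'] at hab
    rwa [Nat.mod_eq_of_lt (Finset.mem_range.mp ha), Nat.mod_eq_of_lt (Finset.mem_range.mp hb)] at hab
  · intro b _
    exact ⟨b.val, Finset.mem_range.mpr (ZMod.val_lt b), ZMod.natCast_zmod_val b⟩

/-- TASK `S44/PL-Binom`.  (`FiniteField.X_pow_card_sub_X`-type identity for `ZMod p`, then substitute `X - g`.) -/
theorem prod_X_sub_C_add {R : Type*} [CommRing R] {p : ℕ} (hp : p.Prime) [CharP R p] (g : R) :
    ∏ i ∈ Finset.range p, (X - C (g + (i : R))) = X ^ p - X - C (g ^ p - g) := by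
  have : Fact p.Prime := ⟨hp⟩
  have h1 := congrArg (Polynomial.map (ZMod.castHom (dvd_refl p) R)) (Alg_prod_zmod (p := p))
  rw [Polynomial.map_prod] at h1
  simp only [Polynomial.map_sub, Polynomial.map_X, map_natCast, Polynomial.map_natCast,
    Polynomial.map_pow] at h1
  have h2 := congrArg (fun P : R[X] => P.comp (X - C g)) h1
  simp only [prod_comp, sub_comp, X_comp, natCast_comp, pow_comp] at h2
  have h3 : (X - C g : R[X]) ^ p = X ^ p - C (g ^ p) := by
    rw [sub_pow_char, C_pow]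
  rw [h3] at h2
  calc ∏ i ∈ Finset.range p, (X - C (g + (i : R)))
      = ∏ i ∈ Finset.range p, (X - C g - (i : R[X])) :=
        Finset.prod_congr rfl (fun i _ => by rw [C_add, map_natCast C]; ring)
    _ = X ^ p - X - C (g ^ p - g) := by rw [h2, C_sub]; ring

end Cyclo

section Finite

theorem AS_card_le {k : Type*} [Field k] (P : k[X]) (hP : P ≠ 0) (S : Set k)
    (hS : ∀ x ∈ S, P.eval x = 0) : S.ncard ≤ P.natDegree := by
  classical
  have hsub : S ⊆ (P.roots.toFinset : Set k) := fun x hx => by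
    simp only [Finset.mem_coe, Multiset.mem_toFinset]
    exact (mem_roots hP).mpr (hS x hx)
  calc S.ncard ≤ (P.roots.toFinset : Set k).ncard :=
        Set.ncard_le_ncard hsub (Finset.finite_toSet _)
    _ = P.roots.toFinset.card := Set.ncard_coe_finset _
    _ ≤ Multiset.card P.roots := Multiset.toFinset_card_le _
    _ ≤ P.natDegree := P.card_roots'

/-- TASK `S44/PL-AS`.  `T := ∑_{i<n} a^(p^i)`; `a^(p^n) = a`, so the sum is `2 T`, `T = 0`.  `℘ c = c^p - c` is additive with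
kernel of size `≤ p` (roots of `X^p - X`), so `#im ℘ ≥ p^(n-1)`; `im ℘ ⊆ {T = 0}`, which has `≤ p^(n-1)` elements (roots of a polynomial of
degree `p^(n-1)`).  Hence equality. -/
theorem exists_AS_of_sum_pow {k : Type*} [Field k] [Finite k] {p n : ℕ} (hp : p.Prime) (hp2 : p ≠ 2)
    [CharP k p] (hcard : Nat.card k = p ^ n) (a : k)
    (h : ∑ i ∈ Finset.range (2 * n), a ^ (p ^ i) = 0) : ∃ c : k, c ^ p - c = a := by
  classical
  have : Fact p.Prime := ⟨hp⟩
  have : Fintype k := Fintype.ofFinite k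
  have hpow : ∀ x : k, x ^ (p ^ n) = x := by
    intro x
    rw [← hcard, Nat.card_eq_fintype_card]
    exact FiniteField.pow_card x
  have hn : 0 < n := by
    rcases Nat.eq_zero_or_pos n with rfl | h0
    · rw [pow_zero] at hcard
      have := Finite.one_lt_card (α := k)
      omega
    · exact h0
  -- `T a = 0`
  have hT : ∑ i ∈ Finset.range n, a ^ (p ^ i) = 0 := by
    rw [two_mul, Finset.sum_range_add] at h
    have h1 : ∑ i ∈ Finset.range n, a ^ (p ^ (n + i)) = ∑ i ∈ Finset.range n, a ^ (p ^ i) := by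
      refine Finset.sum_congr rfl fun i _ => ?_
      rw [pow_add, pow_mul, hpow]
    rw [h1, ← two_mul] at h
    have h2 : (2 : k) ≠ 0 := by
      intro h0
      have : ((2 : ℕ) : k) = 0 := by exact_mod_cast h0
      rw [CharP.cast_eq_zero_iff k p] at this
      exact hp2 ((Nat.prime_dvd_prime_iff_eq hp Nat.prime_two).mp this)
    exact (mul_eq_zero.mp h).resolve_left h2
  -- the Artin-Schreier map
  let ℘ : k →+ k :=
    { toFun := fun c => c ^ p - c
      map_zero' := by simp [hp.ne_zero]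
      map_add' := fun x y => by rw [add_pow_char]; ring }
  -- kernel
  have hker : Nat.card ℘.ker ≤ p := by
    have hP : (X ^ p - X : k[X]) ≠ 0 := FiniteField.X_pow_card_sub_X_ne_zero k hp.one_lt
    have h1 := AS_card_le (X ^ p - X : k[X]) hP (℘.ker : Set k) (by
      intro x hx
      have : x ^ p - x = 0 := hx
      simpa using this)
    rw [FiniteField.X_pow_card_sub_X_natDegree_eq k hp.one_lt] at h1
    rwa [← _root_.Nat.card_coe_set_eq] at h1
  have hidx : Nat.card ℘.ker * Nat.card ℘.range = p ^ n := by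
    rw [← AddSubgroup.index_ker, AddSubgroup.card_mul_index, hcard]
  have hrange : p ^ (n - 1) ≤ Nat.card ℘.range := by
    have h1 : p ^ n = p * p ^ (n - 1) := by
      rw [← pow_succ']
      congr 1
      omega
    have h2 : p * p ^ (n - 1) ≤ p * Nat.card ℘.range := by
      rw [← h1, ← hidx]
      exact Nat.mul_le_mul_right _ hker
    exact Nat.le_of_mul_le_mul_left h2 hp.pos
  -- the trace-zero set
  let PT : k[X] := ∑ i ∈ Finset.range n, X ^ (p ^ i)
  have hPT0 : PT ≠ 0 := by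
    intro h0
    have h1 : PT.coeff 1 = 1 := by
      simp only [PT, finsetSum_coeff, coeff_X_pow]
      rw [Finset.sum_eq_single 0]
      · simp
      · intro i _ hi
        rw [if_neg]
        intro h2
        exact hi (by
          have := Nat.pow_right_injective hp.two_le (h2.symm.trans (pow_zero p).symm)
          exact this)
      · intro h2
        exact absurd (Finset.mem_range.mpr hn) h2
    rw [h0, coeff_zero] at h1
    exact zero_ne_one h1
  have hPTdeg : PT.natDegree ≤ p ^ (n - 1) := by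
    refine natDegree_sum_le_of_forall_le _ _ fun i hi => ?_
    rw [natDegree_X_pow]
    exact Nat.pow_le_pow_right hp.pos (by have := Finset.mem_range.mp hi; omega)
  have hZ : {x : k | ∑ i ∈ Finset.range n, x ^ (p ^ i) = 0}.ncard ≤ p ^ (n - 1) := by
    refine (AS_card_le PT hPT0 _ ?_).trans hPTdeg
    intro x hx
    simpa [PT, eval_finsetSum] using hx
  have hsub : (℘.range : Set k) ⊆ {x : k | ∑ i ∈ Finset.range n, x ^ (p ^ i) = 0} := by
    rintro _ ⟨c, rfl⟩
    change ∑ i ∈ Finset.range n, (c ^ p - c) ^ (p ^ i) = 0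
    have h1 : ∀ i, (c ^ p - c) ^ (p ^ i) = c ^ (p ^ (i + 1)) - c ^ (p ^ i) := by
      intro i
      rw [sub_pow_char_pow, ← pow_mul, ← pow_succ']
    simp only [h1]
    rw [Finset.sum_range_sub (fun i => c ^ (p ^ i)), hpow]
    simp
  have heq : (℘.range : Set k) = {x : k | ∑ i ∈ Finset.range n, x ^ (p ^ i) = 0} := by
    refine Set.eq_of_subset_of_ncard_le hsub ?_ (Set.toFinite _)
    rw [← _root_.Nat.card_coe_set_eq (℘.range : Set k)]
    exact hZ.trans hrange
  have ha : a ∈ (℘.range : Set k) := by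
    rw [heq]
    exact hT
  obtain ⟨c, hc⟩ := ha
  exact ⟨c, hc⟩

end Finite

end Fermat.Agent.S44.PL
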