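import Fermat.Agent.SS.GM2.RedK
import Fermat.Agent.S33.Calc.Ops
import Fermat.Agent.S33.Good.FieldAux
import Fermat.Agent.S44.PL.Alg

/-!
# S44 / PL / Gauss : Gauss calculus in `K((q))` for the relation `SS.GM2.RedK r`   (board #2328 (c6), #2712)

`A` a DVR with uniformiser `π`, `K = Frac A`, `r : A → k` surjective (residue map), `char k = p`.
`RedK r x a` : `x ∈ K((q))` is Gauss-integral with reduction `a ∈ k((q))`.      `lam := C π ∈ K((q))`.

TASKS (project S44): `S44/PL-GaussA` (`RedK.C_mul`, `RedK.of_zero`, `RedK.const`, `RedK.pivot`), `S44/PL-GaussB` (`normSer_one_add`),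
`S44/PL-GaussC` (`as_of_pow_one`), `S44/PL-GaussD` (`as_of_pow`).
All the `S33/Calc/Red.lean` lemmas (`Red0.zero`, `Red0.const`, `Red0.pivot`, …) are the same statements for `r = residue`: COPY their proofs
(`RedK` and `Red0` have the same shape), using `Crux.GM.exists_eq_C_mul_of_red_eq_zero`, `SS.GM2.exists_pow_mul` for general `r`.
-/

set_option autoImplicit false
set_option linter.unusedSectionVars false

open ModularCurve

namespace Fermat.Agent.S44.PL

open Fermat.Agent.SS.GM2 Fermat.Agent.ES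

variable {A K k : Type} [CommRing A] [IsDomain A] [IsDiscreteValuationRing A] [Field K]
  [Algebra A K] [IsFractionRing A K] [Field k] {r : A →+* k} {π : A}

/-- `C π ∈ K((q))`. -/
noncomputable abbrev lam (K : Type) [Field K] [Algebra A K] (π : A) : LaurentSeries K :=
  HahnSeries.C (algebraMap A K π)

/-! ### TASK `S44/PL-GaussA` -/

theorem GaussA_ker (hr : Function.Surjective r) : RingHom.ker r = IsLocalRing.maximalIdeal A :=
  IsLocalRing.eq_maximalIdeal (RingHom.ker_isMaximal_of_surjective r hr)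

theorem GaussA_r_pi (hr : Function.Surjective r) (hπ : Irreducible π) : r π = 0 := by
  have : π ∈ RingHom.ker r := by
    rw [GaussA_ker hr, IsLocalRing.mem_maximalIdeal]
    exact hπ.not_isUnit
  exact this

theorem GaussA_isUnit (hr : Function.Surjective r) {c : A} (hc : r c ≠ 0) : IsUnit c := by
  by_contra hu
  have : c ∈ RingHom.ker r := by
    rw [GaussA_ker hr, IsLocalRing.mem_maximalIdeal]
    exact hu
  exact hc this

theorem GaussA_map_ne_zero {y : LaurentSeries A} (h : coeffMap r y ≠ 0) :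
    coeffMap (algebraMap A K) y ≠ 0 := by
  intro h0
  have : y = 0 := Fermat.Agent.S28.Build.coeffMap_injective _ (IsFractionRing.injective A K)
    (by rw [h0, map_zero])
  exact h (by rw [this, map_zero])

/-- `π x` reduces to `0`. -/
theorem RedK.lam_mul (hr : Function.Surjective r) (hπ : Irreducible π) {x : LaurentSeries K}
    {a : LaurentSeries k} (h : RedK r x a) : RedK r (lam K π * x) 0 := by
  have h1 := (RedK.of_C (K := K) (r := r) π).mul h
  rwa [GaussA_r_pi hr hπ, map_zero, zero_mul] at h1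

/-- (`S33.Calc.Red0.zero`) -/
theorem RedK.of_zero (hr : Function.Surjective r) (hπ : Irreducible π) {x : LaurentSeries K}
    (h : RedK r x 0) : ∃ (y : LaurentSeries K) (b : LaurentSeries k), RedK r y b ∧ x = lam K π * y := by
  obtain ⟨y₁, y₂, h0, h1, h2⟩ := h
  rw [zero_mul] at h2
  obtain ⟨y₁', rfl⟩ := Fermat.Agent.Crux.GM.exists_eq_C_mul_of_red_eq_zero r hr hπ h2
  have h3 : coeffMap (algebraMap A K) y₂ ≠ 0 := GaussA_map_ne_zero h0
  refine ⟨coeffMap (algebraMap A K) y₁' / coeffMap (algebraMap A K) y₂,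
    coeffMap r y₁' / coeffMap r y₂,
    ⟨y₁', y₂, h0, div_mul_cancel₀ _ h3, (div_mul_cancel₀ _ h0).symm⟩, ?_⟩
  rw [map_mul, Fermat.Agent.S28.Build.coeffMap_C] at h1
  rw [mul_div_assoc', ← h1, mul_div_cancel_right₀ _ h3]

/-- (`S33.Calc.Red0.const`) a Gauss-integral constant lies in `A`. -/
theorem RedK.const (hr : Function.Surjective r) (hπ : Irreducible π) {c : K} {a : LaurentSeries k}
    (h : RedK r (HahnSeries.C c) a) : ∃ c₀ : A, algebraMap A K c₀ = c ∧ a = HahnSeries.C (r c₀) := by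
  obtain ⟨y₁, y₂, h0, h1, h2⟩ := h
  obtain ⟨n, hn⟩ : ∃ n, (coeffMap r y₂).coeff n ≠ 0 := by
    by_contra hcon
    push Not at hcon
    exact h0 (HahnSeries.ext (funext hcon))
  rw [coeffMap_coeff] at hn
  obtain ⟨u, hu⟩ := GaussA_isUnit hr hn
  have e := congrArg (fun s => s.coeff n) h1
  simp only [HahnSeries.C_mul_eq_smul, HahnSeries.coeff_smul, smul_eq_mul, coeffMap_coeff] at e
  have hd : algebraMap A K (y₁.coeff n * (u⁻¹ : Aˣ)) = c := by
    have hu1 : algebraMap A K (y₂.coeff n) * algebraMap A K ((u⁻¹ : Aˣ) : A) = 1 := by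
      rw [← hu, ← map_mul, Units.mul_inv, map_one]
    rw [map_mul, ← e, mul_assoc, hu1, mul_one]
  refine ⟨y₁.coeff n * (u⁻¹ : Aˣ), hd, ?_⟩
  have e1 : HahnSeries.C (y₁.coeff n * (u⁻¹ : Aˣ)) * y₂ = y₁ := by
    apply Fermat.Agent.S28.Build.coeffMap_injective _ (IsFractionRing.injective A K)
    rw [map_mul, Fermat.Agent.S28.Build.coeffMap_C, hd, h1]
  have e2 := congrArg (coeffMap r) e1
  rw [map_mul, Fermat.Agent.S28.Build.coeffMap_C, h2] at e2
  exact (mul_right_cancel₀ h0 e2).symm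

/-- (`S33.pivot_fullC`: `S33.fullC_le_fracField` + `SS.GM2.exists_pow_mul` for numerator and denominator.) -/
theorem RedK.pivot (hr : Function.Surjective r) (hπ : Irreducible π) {N : ℕ} {x : LaurentSeries K}
    (hx : x ∈ modularFunctionFieldFullC K N) (hx0 : x ≠ 0) :
    ∃ (n : ℤ) (u : LaurentSeries K) (s : LaurentSeries k), s ≠ 0 ∧ RedK r u s ∧ x = lam K π ^ n * u := by
  obtain ⟨y₁, y₂, h2, h⟩ := Fermat.Agent.S33.fullC_le_fracField (R := A) hx
  have h2' : coeffMap (algebraMap A K) y₂ ≠ 0 := fun h0 =>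
    h2 (Fermat.Agent.S28.Build.coeffMap_injective _ (IsFractionRing.injective A K)
      (by rw [h0, map_zero]))
  have h1 : y₁ ≠ 0 := by
    rintro rfl
    rw [map_zero] at h
    exact mul_ne_zero hx0 h2' h
  obtain ⟨n₁, z₁, rfl, hz₁⟩ := exists_pow_mul hπ hr y₁ h1
  obtain ⟨n₂, z₂, rfl, hz₂⟩ := exists_pow_mul hπ hr y₂ h2
  have h3 : coeffMap (algebraMap A K) z₂ ≠ 0 := GaussA_map_ne_zero hz₂
  have hC : (lam K π : LaurentSeries K) ≠ 0 := by
    rw [Ne, map_eq_zero_iff _ HahnSeries.C_injective,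
      map_eq_zero_iff _ (IsFractionRing.injective A K)]
    exact hπ.ne_zero
  refine ⟨(n₁ : ℤ) - n₂, coeffMap (algebraMap A K) z₁ / coeffMap (algebraMap A K) z₂,
    coeffMap r z₁ / coeffMap r z₂, div_ne_zero hz₁ hz₂,
    ⟨z₁, z₂, hz₂, div_mul_cancel₀ _ h3, (div_mul_cancel₀ _ hz₂).symm⟩, ?_⟩
  rw [map_mul, map_mul, map_pow, map_pow, Fermat.Agent.S28.Build.coeffMap_C] at h
  rw [zpow_sub₀ hC, zpow_natCast, zpow_natCast]
  field_simp
  linear_combination h

/-! ### TASK `S44/PL-GaussB` -/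

/-- **(TP)**  Copy of `S33.Calc.Red0.normSer_expand` (`j = p`): `normSer (1 + π^p x) = 1 + π^(p²) x' + p π^p B`, and `π^(p+1) ∣ π^(p²), p π^p`
(`π ∣ p` because `r p = 0`; `p + 1 ≤ p²`). -/
theorem normSer_one_add {p : ℕ} [NeZero p] (hp : p.Prime) (hr : Function.Surjective r)
    (hπ : Irreducible π) (hrp : r p = 0) {ζ : A} (hζ : IsPrimitiveRoot ζ p)
    {x : LaurentSeries K} {a : LaurentSeries k} (h : RedK r x a) :
    ∃ (b : LaurentSeries K) (b' : LaurentSeries k), RedK r b b' ∧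
      normSer p (1 + lam K π ^ p * x) = 1 + lam K π ^ (p + 1) * b := by
  obtain ⟨y₁, y₂, h0, h1, h2⟩ := h
  have hfact : Fact p.Prime := ⟨hp⟩
  have hchar : CharP k p := (CharP.charP_iff_prime_eq_zero hp).mpr (by rw [← map_natCast r, hrp])
  have hι : Function.Injective (algebraMap A K) := IsFractionRing.injective A K
  have hζK : IsPrimitiveRoot (algebraMap A K ζ) p := hζ.map_of_injective hι
  -- `π ∣ p`
  have hker : RingHom.ker r = IsLocalRing.maximalIdeal A :=
    IsLocalRing.eq_maximalIdeal (RingHom.ker_isMaximal_of_surjective r hr)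
  obtain ⟨t, ht⟩ : π ∣ (p : A) := by
    have h3 : (p : A) ∈ RingHom.ker r := hrp
    rw [hker, hπ.maximalIdeal_eq, Ideal.mem_span_singleton] at h3
    exact h3
  obtain ⟨B₀, hB₀⟩ := Fermat.Agent.S33.Calc.normSer_add_mul p hp hζ (π ^ p) y₂ y₁
  -- the exponent bookkeeping
  obtain ⟨e, he⟩ : ∃ e : ℕ, p * p = (p + 1) + e := by
    refine ⟨p * p - (p + 1), ?_⟩
    have h2p := hp.two_le
    have : p + 1 ≤ p * p := by nlinarith
    omega
  set G : LaurentSeries A :=
    HahnSeries.C (π ^ e) * normSer p y₁ + HahnSeries.C t * B₀ with hG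
  have hB₁ : normSer p (y₂ + HahnSeries.C (π ^ p) * y₁)
      = normSer p y₂ + HahnSeries.C (π ^ (p + 1)) * G := by
    have e1 : (HahnSeries.C ((π ^ p) ^ p) : LaurentSeries A)
        = HahnSeries.C (π ^ (p + 1)) * HahnSeries.C (π ^ e) := by
      rw [← map_mul, ← pow_mul, he, pow_add]
    have e2 : (p : LaurentSeries A) * HahnSeries.C (π ^ p)
        = HahnSeries.C (π ^ (p + 1)) * HahnSeries.C t := by
      have e3 : (p : LaurentSeries A) = HahnSeries.C (p : A) := (map_natCast _ p).symm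
      rw [e3, ← map_mul, ← map_mul, ht, pow_succ]
      congr 1
      ring
    rw [hB₀, e1, e2, hG]
    ring
  -- the reduction of the denominator
  have hN₂r : coeffMap r (normSer p y₂) ≠ 0 := by
    rw [Fermat.Agent.S33.Calc.coeffMap_normSer_of_char p r hζ]
    exact Fermat.Agent.S33.Calc.Ops_coeffMap_ne_zero _ (frobenius k p).injective h0
  have hN₂ : normSer p y₂ ≠ 0 := by
    intro h
    rw [h, map_zero] at hN₂r
    exact hN₂r rfl
  have hN₂K : coeffMap (algebraMap A K) (normSer p y₂) ≠ 0 :=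
    Fermat.Agent.S33.Calc.Ops_coeffMap_ne_zero _ hι hN₂
  have hmain : normSer p (1 + lam K π ^ p * x) * coeffMap (algebraMap A K) (normSer p y₂)
      = coeffMap (algebraMap A K) (normSer p y₂)
        + lam K π ^ (p + 1) * coeffMap (algebraMap A K) G := by
    rw [Fermat.Agent.S33.Calc.coeffMap_normSer p (algebraMap A K) hι hζ y₂, ← normSer_mul p hζK]
    have h3 : (1 + lam K π ^ p * x) * coeffMap (algebraMap A K) y₂
        = coeffMap (algebraMap A K) (y₂ + HahnSeries.C (π ^ p) * y₁) := by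
      rw [map_add, map_mul, Fermat.Agent.S33.Calc.Ops_coeffMap_C, map_pow, map_pow, ← h1]
      ring
    rw [h3, ← Fermat.Agent.S33.Calc.coeffMap_normSer p (algebraMap A K) hι hζ, hB₁, map_add,
      map_mul, Fermat.Agent.S33.Calc.Ops_coeffMap_C, map_pow, map_pow,
      Fermat.Agent.S33.Calc.coeffMap_normSer p (algebraMap A K) hι hζ y₂]
  refine ⟨coeffMap (algebraMap A K) G / coeffMap (algebraMap A K) (normSer p y₂),
    coeffMap r G / coeffMap r (normSer p y₂), ?_, ?_⟩
  · exact ⟨G, normSer p y₂, hN₂r, div_mul_cancel₀ _ hN₂K, (div_mul_cancel₀ _ hN₂r).symm⟩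
  · rw [eq_div_of_mul_eq hN₂K hmain]
    field_simp

/-! ### TASK `S44/PL-GaussC` -/

/-- `h^p = 1 + π^p x` ⟹ `h = 1 + π η`, `x̄ = η̄^p - η̄`.
Proof.  `h = π^n u`, `ū ≠ 0`: `π^(pn) u^p ≡ 1`, so `n = 0` (if `n > 0` the left side reduces to `0`; if `n < 0`, `u^p = π^(-pn) (…)` reduces to `0`).
`h̄^p = 1`, so `(h̄ - 1)^p = 0` (`sub_pow_char` / `CharP`, `char k((q)) = p`), `h̄ = 1`, `h - 1 = π η` (`RedK.of_zero`).
Work in the subring `G = {x | ∃ a, RedK r x a}` of `K((q))`: `PL.wilson_cyclo` in `A`, `PL.one_add_mul_pow` in `G`: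
`(1 + π η)^p = 1 + π^p (η^p - η) + π^(p+1) c`, `c ∈ G`.  Cancel `π^p`: `x = η^p - η + π c`; `RedK.unique`. -/
theorem as_of_pow_one {p : ℕ} (hp : p.Prime) (hp2 : p ≠ 2) (hr : Function.Surjective r)
    (hπ : Irreducible π) (hrp : r p = 0) {ζ : A} (hζ : IsPrimitiveRoot ζ p) (hπζ : π = ζ - 1)
    {h x : LaurentSeries K} {a : LaurentSeries k}
    (hpiv : ∃ (n : ℤ) (u : LaurentSeries K) (s : LaurentSeries k), s ≠ 0 ∧ RedK r u s ∧ h = lam K π ^ n * u)
    (hx : RedK r x a) (heq : h ^ p = 1 + lam K π ^ p * x) :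
    ∃ (η : LaurentSeries K) (η' : LaurentSeries k), h = 1 + lam K π * η ∧ RedK r η η' ∧
      a = η' ^ p - η' := by
  classical
  obtain ⟨n, u, s, hs0, hu, hh⟩ := hpiv
  have hrπ : r π = 0 := Fermat.Agent.Crux.GM.map_irreducible_eq_zero r π hr hπ
  have hL : RedK r (lam K π) 0 := by
    have := RedK.of_C (K := K) (r := r) π
    rwa [hrπ, map_zero] at this
  have hL0 : lam K π ≠ 0 := by
    rw [lam, Ne, map_eq_zero, map_eq_zero_iff _ (IsFractionRing.injective A K)]
    exact hπ.ne_zero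
  have hLpow : ∀ m : ℕ, RedK r (lam K π ^ (m + 1)) 0 := by
    intro m
    have := hL.pow (m + 1)
    rwa [zero_pow (Nat.succ_ne_zero m)] at this
  obtain ⟨q, rfl⟩ : ∃ q, p = q + 1 := ⟨p - 1, by have := hp.pos; omega⟩
  -- the right hand side reduces to `1`
  have hrhs : RedK r (h ^ (q + 1)) 1 := by
    rw [heq]
    have := RedK.one.add ((hLpow q).mul hx)
    rwa [zero_mul, add_zero] at this
  -- `n = 0`
  have hn : n = 0 := by
    rcases lt_trichotomy n 0 with hneg | h0 | hpos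
    · exfalso
      obtain ⟨m, hm⟩ : ∃ m : ℕ, n = -((m : ℤ) + 1) := ⟨(-n - 1).toNat, by omega⟩
      have hu' : u = lam K π ^ (m + 1) * h := by
        rw [hh, hm, ← mul_assoc, ← zpow_natCast, ← zpow_add₀ hL0]
        push_cast
        rw [add_neg_cancel, zpow_zero, one_mul]
      have h1 : RedK r (u ^ (q + 1)) 0 := by
        rw [hu', mul_pow]
        have := ((hLpow m).pow (q + 1)).mul hrhs
        rwa [zero_pow (Nat.succ_ne_zero q), zero_mul] at this
      exact pow_ne_zero _ hs0 ((hu.pow (q + 1)).unique h1)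
    · exact h0
    · exfalso
      obtain ⟨m, hm⟩ : ∃ m : ℕ, n = (m : ℤ) + 1 := ⟨(n - 1).toNat, by omega⟩
      have hh' : h = lam K π ^ (m + 1) * u := by
        rw [hh, hm, ← zpow_natCast]
        push_cast
        rfl
      have h1 : RedK r (h ^ (q + 1)) 0 := by
        have := ((hLpow m).mul hu).pow (q + 1)
        rwa [zero_mul, zero_pow (Nat.succ_ne_zero q), ← hh'] at this
      exact one_ne_zero (hrhs.unique h1)
  rw [hn, zpow_zero, one_mul] at hh
  subst hh
  -- `s = 1`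
  have : Fact (q + 1).Prime := ⟨hp⟩
  have hchar : CharP k (q + 1) := by
    have : ((q + 1 : ℕ) : k) = 0 := by rw [← map_natCast r, hrp]
    exact (CharP.charP_iff_prime_eq_zero hp).mpr this
  have : CharP (LaurentSeries k) (q + 1) :=
    charP_of_injective_ringHom (f := (HahnSeries.C : k →+* LaurentSeries k))
      HahnSeries.C_injective (q + 1)
  have hsp : s ^ (q + 1) = 1 := (hu.pow (q + 1)).unique hrhs
  have hs1 : s = 1 := by
    have : (s - 1) ^ (q + 1) = 0 := by rw [sub_pow_char, hsp, one_pow, sub_self]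
    exact sub_eq_zero.mp (pow_eq_zero_iff (Nat.succ_ne_zero q) |>.mp this)
  have hu1 : RedK r (h - 1) 0 := by
    have := hu.sub RedK.one
    rwa [hs1, sub_self] at this
  obtain ⟨η, η', hη, hhη⟩ := RedK.of_zero hr hπ hu1
  have hh1 : h = 1 + lam K π * η := by rw [← hhη]; ring
  refine ⟨η, η', hh1, hη, ?_⟩
  -- the binomial expansion, in `A[X]`
  obtain ⟨s₀, hs₀⟩ := wilson_cyclo hp hp2 hζ
  rw [← hπζ] at hs₀
  have hpl : (((q + 1 : ℕ) : Polynomial A)) = (Polynomial.C π) ^ (q + 1 - 1)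
      * (-1 + Polynomial.C π * Polynomial.C s₀) := by
    have := congrArg (Polynomial.C : A →+* Polynomial A) hs₀
    simpa only [map_natCast, map_mul, map_pow, map_add, map_neg, map_one] using this
  obtain ⟨c, hc⟩ := one_add_mul_pow hp hp2 hpl Polynomial.X
  have hev := congrArg (evK A η) hc
  have hevC : evK A η (Polynomial.C π) = lam K π := by simp [evK]
  have hevX : evK A η Polynomial.X = η := by simp [evK]
  simp only [map_add, map_mul, map_pow, map_sub, map_one, hevC, hevX] at hev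
  have hcred := hη.map_evK c
  have hx' : x = η ^ (q + 1) - η + lam K π * evK A η c := by
    have h2 : lam K π ^ (q + 1) * x
        = lam K π ^ (q + 1) * (η ^ (q + 1) - η + lam K π * evK A η c) := by
      have h3 : (1 : LaurentSeries K) + lam K π ^ (q + 1) * x
          = 1 + lam K π ^ (q + 1) * (η ^ (q + 1) - η) + lam K π ^ (q + 1 + 1) * evK A η c := by
        rw [← heq, hh1, hev]
      linear_combination h3
    exact mul_left_cancel₀ (pow_ne_zero _ hL0) h2
  have hfin := ((hη.pow (q + 1)).sub hη).add (hL.mul hcred)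
  rw [← hx', zero_mul, add_zero] at hfin
  exact hx.unique hfin

/-! ### TASK `S44/PL-GaussD` -/

/-- helper for `as_of_pow`: `(1 + π η)^p = 1 + π^p y`, `ȳ = η̄^p - η̄`. -/
theorem as_of_pow_expand {p : ℕ} (hp : p.Prime) (hp2 : p ≠ 2) (hr : Function.Surjective r)
    (hπ : Irreducible π) {ζ : A} (hζ : IsPrimitiveRoot ζ p) (hπζ : π = ζ - 1)
    {η : LaurentSeries K} {η' : LaurentSeries k} (hη : RedK r η η') :
    ∃ y : LaurentSeries K, RedK r y (η' ^ p - η') ∧
      (1 + lam K π * η) ^ p = 1 + lam K π ^ p * y := by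
  classical
  let G : Subring (LaurentSeries K) :=
    { carrier := {x | ∃ a, RedK r x a}
      mul_mem' := fun ⟨_, ha⟩ ⟨_, hb⟩ => ⟨_, ha.mul hb⟩
      one_mem' := ⟨_, RedK.one⟩
      add_mem' := fun ⟨_, ha⟩ ⟨_, hb⟩ => ⟨_, ha.add hb⟩
      zero_mem' := ⟨_, RedK.zero⟩
      neg_mem' := fun ⟨_, ha⟩ => ⟨_, ha.neg⟩ }
  obtain ⟨s, hs⟩ := wilson_cyclo hp hp2 hζ
  rw [← hπζ] at hs
  let l : G := ⟨lam K π, _, RedK.of_C π⟩
  let s' : G := ⟨HahnSeries.C (algebraMap A K s), _, RedK.of_C s⟩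
  have hpl : (p : G) = l ^ (p - 1) * (-1 + l * s') := by
    apply Subtype.ext
    have := congrArg (fun t => HahnSeries.C (algebraMap A K t) : A → LaurentSeries K) hs
    simp only [map_natCast, map_mul, map_pow, map_add, map_neg, map_one] at this
    push_cast
    exact this
  obtain ⟨c, hc⟩ := one_add_mul_pow hp hp2 hpl ⟨η, _, hη⟩
  obtain ⟨c', hc'⟩ := c.2
  refine ⟨η ^ p - η + lam K π * c, ?_, ?_⟩
  · have := ((hη.pow p).sub hη).add (RedK.lam_mul hr hπ hc')
    rwa [add_zero] at this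
  · have := congrArg Subtype.val hc
    push_cast at this
    rw [this]
    ring

/-- `c h^p = 1 + π^p x` ⟹ `h = d (1 + π η)`, `x̄ = ā + η̄^p - η̄`.
Proof.  `h = π^n u`, `c₁ := c π^(pn)`: `C c₁ = (1 + π^p x) u^(-p)` is Gauss-integral with nonzero reduction, so `c₁ ∈ A` (`RedK.const`), `r c₁ ≠ 0`,
`ū^p = C (r c₁)⁻¹`.  `k` is finite, hence perfect: `(r c₁)⁻¹ = e^p`, `e = r d₀`, `d₀ ∈ A` a unit; `(ū - C e)^p = 0`, `ū = C e`.
`u / d₀ = 1 + π η` (`RedK.of_zero`), `d := π^n d₀`.  `c₃ := c₁ d₀^p ∈ A`: `C c₃ (1 + π η)^p = 1 + π^p x`, and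
`(1 + π η)^p = 1 + π^p y`, `y = η^p - η + π c'` Gauss-integral.  So `C (c₃ - 1) = π^p (x - C c₃ y)`, `(c₃ - 1)/π^p ∈ A` (`RedK.const`), `=: a_w`;
`x = C a_w + (1 + π^p a_w) y`, reduce. -/
theorem as_of_pow [Finite k] {p : ℕ} (hp : p.Prime) (hp2 : p ≠ 2) (hr : Function.Surjective r)
    (hπ : Irreducible π) (hrp : r p = 0) {ζ : A} (hζ : IsPrimitiveRoot ζ p) (hπζ : π = ζ - 1)
    {h x : LaurentSeries K} {a : LaurentSeries k} {c : K}
    (hpiv : ∃ (n : ℤ) (u : LaurentSeries K) (s : LaurentSeries k), s ≠ 0 ∧ RedK r u s ∧ h = lam K π ^ n * u)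
    (hx : RedK r x a) (heq : HahnSeries.C c * h ^ p = 1 + lam K π ^ p * x) :
    ∃ (d : K) (η : LaurentSeries K) (η' : LaurentSeries k) (a' : k), d ≠ 0 ∧
      h = HahnSeries.C d * (1 + lam K π * η) ∧ RedK r η η' ∧
      a = HahnSeries.C a' + (η' ^ p - η') := by
  classical
  obtain ⟨n, u, s, hs0, hu, hh⟩ := hpiv
  have : Fact p.Prime := ⟨hp⟩
  have hπ0 : algebraMap A K π ≠ 0 := by
    intro h0
    exact hπ.ne_zero ((IsFractionRing.injective A K) (by rw [h0, map_zero]))
  have hlam0 : lam K π ≠ 0 := by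
    intro h0
    exact hπ0 (HahnSeries.C_injective (h0.trans (map_zero _).symm))
  have hlam : RedK r (lam K π) 0 := by
    have := RedK.lam_mul hr hπ (RedK.one (K := K) (r := r))
    rwa [mul_one] at this
  have hlamp : ∀ {y : LaurentSeries K} {b : LaurentSeries k}, RedK r y b →
      RedK r (lam K π ^ p * y) 0 := by
    intro y b hy
    have := (hlam.pow p).mul hy
    rwa [zero_pow hp.ne_zero, zero_mul] at this
  have h1 : RedK r (1 + lam K π ^ p * x) 1 := by
    have := RedK.one.add (hlamp hx)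
    rwa [add_zero] at this
  have hlamz : ∀ m : ℤ, lam K π ^ m = HahnSeries.C ((algebraMap A K π) ^ m) :=
    fun m => (map_zpow₀ _ _ _).symm
  have hu0 : u ≠ 0 := by
    rintro rfl
    exact hs0 (hu.unique RedK.zero)
  have e1 : HahnSeries.C (c * (algebraMap A K π) ^ (n * (p : ℤ))) * u ^ p
      = 1 + lam K π ^ p * x := by
    rw [← heq, hh, mul_pow, map_mul, ← hlamz, zpow_mul, zpow_natCast]
    ring
  have e2 : HahnSeries.C (c * (algebraMap A K π) ^ (n * (p : ℤ)))
      = (1 + lam K π ^ p * x) * (u ^ p)⁻¹ := by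
    rw [← e1, mul_inv_cancel_right₀ (pow_ne_zero p hu0)]
  have hsp0 : s ^ p ≠ 0 := pow_ne_zero p hs0
  have h2 : RedK r (HahnSeries.C (c * (algebraMap A K π) ^ (n * (p : ℤ)))) (1 * (s ^ p)⁻¹) := by
    rw [e2]
    exact h1.mul ((hu.pow p).inv hsp0)
  obtain ⟨c₀, hc₀, hc₀'⟩ := RedK.const hr hπ h2
  rw [one_mul] at hc₀'
  have hrc₀ : r c₀ ≠ 0 := by
    intro h0
    rw [h0, map_zero] at hc₀'
    exact inv_ne_zero hsp0 hc₀'
  have hchar : CharP k p := by
    have : (p : k) = 0 := by rw [← map_natCast r, hrp]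
    exact (CharP.charP_iff_prime_eq_zero hp).mpr this
  have hcharL : CharP (LaurentSeries k) p :=
    charP_of_injective_ringHom (HahnSeries.C_injective (Γ := ℤ) (R := k)) p
  obtain ⟨e, he⟩ : ∃ e : k, e ^ p = (r c₀)⁻¹ := surjective_frobenius k p _
  obtain ⟨d₀, rfl⟩ := hr e
  have hrd₀ : r d₀ ≠ 0 := by
    intro h0
    rw [h0, zero_pow hp.ne_zero] at he
    exact inv_ne_zero hrc₀ he.symm
  have hd₀ : algebraMap A K d₀ ≠ 0 := by
    intro h0
    have : d₀ = 0 := (IsFractionRing.injective A K) (by rw [h0, map_zero])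
    exact hrd₀ (by rw [this, map_zero])
  have hCd₀ : (HahnSeries.C (algebraMap A K d₀) : LaurentSeries K) ≠ 0 := by
    intro h0
    exact hd₀ (HahnSeries.C_injective (h0.trans (map_zero _).symm))
  have hCe : (HahnSeries.C (r d₀) : LaurentSeries k) ≠ 0 := by
    intro h0
    exact hrd₀ (HahnSeries.C_injective (h0.trans (map_zero _).symm))
  have hs : s = HahnSeries.C (r d₀) := by
    have h3 : (s - HahnSeries.C (r d₀)) ^ p = 0 := by
      rw [sub_pow_char, ← map_pow, he, map_inv₀, ← hc₀', inv_inv, sub_self]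
    exact sub_eq_zero.mp (pow_eq_zero_iff hp.ne_zero |>.mp h3)
  have h4 : RedK r (u / HahnSeries.C (algebraMap A K d₀) - 1) 0 := by
    have := (hu.div (RedK.of_C (K := K) (r := r) d₀) hCe).sub RedK.one
    rwa [hs, div_self hCe, sub_self] at this
  obtain ⟨η, η', hη, hηe⟩ := RedK.of_zero hr hπ h4
  have hu' : u = HahnSeries.C (algebraMap A K d₀) * (1 + lam K π * η) := by
    rw [← hηe]
    field_simp
    ring
  obtain ⟨y, hy, hye⟩ := as_of_pow_expand hp hp2 hr hπ hζ hπζ hη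
  have hrc₃ : r (c₀ * d₀ ^ p) = 1 := by
    rw [map_mul, map_pow, he, mul_inv_cancel₀ hrc₀]
  have e3 : HahnSeries.C (algebraMap A K (c₀ * d₀ ^ p)) * (1 + lam K π ^ p * y)
      = 1 + lam K π ^ p * x := by
    rw [← e1, ← hc₀, ← hye, hu', mul_pow, map_mul, map_mul, map_pow, map_pow]
    ring
  have e4 : HahnSeries.C ((algebraMap A K (c₀ * d₀ ^ p) - 1) / (algebraMap A K π) ^ p)
      = x - HahnSeries.C (algebraMap A K (c₀ * d₀ ^ p)) * y := by
    rw [map_div₀, map_sub, map_one, map_pow, div_eq_iff (pow_ne_zero p hlam0)]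
    linear_combination e3
  have h5 : RedK r (HahnSeries.C ((algebraMap A K (c₀ * d₀ ^ p) - 1) / (algebraMap A K π) ^ p))
      (a - HahnSeries.C (r (c₀ * d₀ ^ p)) * (η' ^ p - η')) := by
    rw [e4]
    exact hx.sub ((RedK.of_C _).mul hy)
  obtain ⟨aw, -, haw⟩ := RedK.const hr hπ h5
  rw [hrc₃, map_one, one_mul] at haw
  refine ⟨(algebraMap A K π) ^ n * algebraMap A K d₀, η, η', r aw,
    mul_ne_zero (zpow_ne_zero n hπ0) hd₀, ?_, hη, ?_⟩
  · rw [hh, hu', map_mul, ← hlamz, mul_assoc]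
  · rw [← haw]
    ring

end Fermat.Agent.S44.PL
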