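import Fermat.Agent.S44.PL.Ctx
import Fermat.Agent.S44.PL.Gauss
import Fermat.Agent.Crux.GM.Root

/-!
# S44 / PL / Root : honest integrality of `z' = (t - 1)/π`, `t^p = 1 + π^p ξ'`      (requests #2793 helper35, #2833 helper91)

* `coeff_mem_of_mul_pow_mem`  ("`A[[q]]` is integrally closed in its fraction field", elementary form);
* `Ctx.coeff_mem_of_intX_inv` : the `q`-expansion of an element of `M_∞` has all its coefficients in `A`;
* `hensel_series`             : `q`-adic Hensel, in the form "a root in `K[[q]]` of an étale equation over `A[[q]]` lies in `A[[q]]`";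
* `Ctx.exists_root_series`    : `∃ z ∈ q A[[q]]`, `(1 + π z)^p = 1 + π^p ξ'`.

TASKS `S44/PL-Normal` (`coeff_mem_of_mul_pow_mem`), `S44/PL-CoeffMem` (`Ctx.coeff_mem_of_intX_inv`), `S44/PL-Hensel` (`hensel_series`),
`S44/PL-RootSeries` (`Ctx.exists_root_series`, `Ctx.exists_redK_z`).
-/

set_option autoImplicit false
set_option linter.unusedSectionVars false
set_option linter.style.haveILetI false

open Polynomial ModularCurve

namespace Fermat.Agent.S44.PL

open Fermat.Agent.Crux.G Fermat.Agent.SS.G2 Fermat.Agent.SS.GM2 Fermat.Agent.Wild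
open Fermat.Agent.S28 (V J evAt)
open Fermat.Agent.Crux.GM (castS)
open Fermat.Agent.ES (normSer)

variable {M p : ℕ} [NeZero M] [NeZero p]
variable {A K k : Type} [CommRing A] [IsDomain A] [IsDiscreteValuationRing A] [Field K]
  [CharZero K] [Algebra A K] [IsFractionRing A K] [Field k] [Finite k]
  {r : A →+* k} {π : A}
variable {F : Type} [Field F] [Algebra A F] {Φ : F →+* LaurentSeries K} {w : F →+* F}
variable {E : Type} [Field E] [CharZero E] [Algebra A E] [Algebra E F] [IsScalarTower A E F]
  [FiniteDimensional E F]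
variable {X : E} {ζ : A}

/-- DVR: `β x^m ∈ A` for all `m`, `β ≠ 0` ⟹ `x ∈ A`. -/
theorem Normal_mem_of_mul_pow {β x : K} (hβ : β ≠ 0)
    (h : ∀ m : ℕ, β * x ^ m ∈ (algebraMap A K).range) : x ∈ (algebraMap A K).range := by
  by_contra hx
  have hinj : Function.Injective (algebraMap A K) := IsFractionRing.injective A K
  have hx0 : x ≠ 0 := by
    rintro rfl
    exact hx ⟨0, map_zero _⟩
  rcases ValuationRing.isInteger_or_isInteger A x with h1 | ⟨a, ha⟩
  · exact hx h1
  have ha0 : a ≠ 0 := by
    rintro rfl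
    rw [map_zero] at ha
    exact inv_ne_zero hx0 ha.symm
  have hau : ¬ IsUnit a := by
    intro hu
    obtain ⟨a', ha'⟩ := hu.exists_right_inv
    apply hx
    refine ⟨a', ?_⟩
    have h2 := congrArg (algebraMap A K) ha'
    rw [map_mul, map_one, ha] at h2
    field_simp at h2
    exact h2
  obtain ⟨n, d, hd, hnd⟩ := IsFractionRing.div_surjective (A := A) β
  have hd0 : algebraMap A K d ≠ 0 := by
    rw [Ne, map_eq_zero_iff _ hinj]
    exact nonZeroDivisors.ne_zero hd
  have hn0 : n ≠ 0 := by
    rintro rfl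
    rw [map_zero, zero_div] at hnd
    exact hβ hnd.symm
  obtain ⟨m, hm⟩ := FiniteMultiplicity.of_not_isUnit hau hn0
  apply hm
  obtain ⟨c, hc⟩ := h (m + 1)
  refine ⟨d * c, hinj ?_⟩
  rw [map_mul, map_mul, map_pow, ha, hc, ← hnd, inv_pow]
  field_simp

/-- a series all of whose coefficients are in `A`. -/
theorem Normal_exists_lift (f : LaurentSeries K) (h : ∀ n, f.coeff n ∈ (algebraMap A K).range) :
    ∃ g : LaurentSeries A, coeffMap (algebraMap A K) g = f := by
  have hinj : Function.Injective (algebraMap A K) := IsFractionRing.injective A K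
  choose c hc using h
  have hsupp : Function.support c = f.support := by
    ext n
    rw [Function.mem_support, HahnSeries.mem_support, ← hc n, Ne, Ne, map_eq_zero_iff _ hinj]
  refine ⟨⟨c, by rw [hsupp]; exact f.isPWO_support⟩, ?_⟩
  ext n
  rw [coeffMap_coeff]
  exact hc n

/-- truncation below `j`. -/
noncomputable def NormalTr (f : LaurentSeries K) (j : ℤ) : LaurentSeries K :=
  ⟨fun n => if n < j then f.coeff n else 0, f.isPWO_support.mono (by
    intro n hn
    rw [Function.mem_support] at hn
    rw [HahnSeries.mem_support]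
    intro h0
    apply hn
    split_ifs
    · exact h0
    · rfl)⟩

theorem NormalTr_coeff (f : LaurentSeries K) (j n : ℤ) :
    (NormalTr f j).coeff n = if n < j then f.coeff n else 0 := rfl

/-- TASK `S44/PL-Normal`.  Suppose not; let `j ≥ 0` be the least index with `f.coeff j ∉ A`; `P := ∑_{i<j} f_i q^i` has coefficients in `A`;
`b (f - P)^m = ∑ binom (-P)^(m-i) (b f^i)` has coefficients in `A`; its coefficient of index `ord b + j m` is `lc(b) f_j^m`
(`HahnSeries.order_mul`, `leadingCoeff_mul`, `leadingCoeff_pow`).  `f_j ∉ A` ⟹ `f_j⁻¹ = π c`, `c ∈ A` (DVR/valuation ring), so `lc(b) ∈ π^m A` for all `m`, `lc(b) = 0`. -/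
theorem coeff_mem_of_mul_pow_mem {f b : LaurentSeries K} (hb : b ≠ 0)
    (hf : ∀ n : ℤ, n < 0 → f.coeff n = 0)
    (h : ∀ m : ℕ, ∃ g : LaurentSeries A, coeffMap (algebraMap A K) g = b * f ^ m) :
    ∃ g : LaurentSeries A, coeffMap (algebraMap A K) g = f := by
  have key : ∀ N : ℕ, ∀ n : ℤ, n < N → f.coeff n ∈ (algebraMap A K).range := by
    intro N
    induction N with
    | zero =>
      intro n hn
      rw [hf n (by simpa using hn)]
      exact ⟨0, map_zero _⟩
    | succ N ih =>
      intro n hn
      rcases lt_or_eq_of_le (Int.lt_add_one_iff.1 (by push_cast at hn; exact hn)) with h1 | rfl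
      · exact ih n h1
      by_cases h0 : f.coeff (N : ℤ) = 0
      · rw [h0]; exact ⟨0, map_zero _⟩
      -- the truncation
      set P := NormalTr f (N : ℤ) with hP
      have hPR : P ∈ (coeffMap (algebraMap A K)).range := by
        refine Normal_exists_lift P fun n => ?_
        rw [hP, NormalTr_coeff]
        split_ifs with hlt
        · exact ih n hlt
        · exact ⟨0, map_zero _⟩
      set f' := f + -P with hf'
      have hc' : ∀ n : ℤ, f'.coeff n = if n < (N : ℤ) then 0 else f.coeff n := by
        intro n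
        rw [hf', HahnSeries.coeff_add, HahnSeries.coeff_neg, hP, NormalTr_coeff]
        split_ifs <;> simp
      have hf'0 : f' ≠ 0 := by
        intro h1
        have h2 := hc' N
        rw [h1, if_neg (lt_irrefl _), HahnSeries.coeff_zero] at h2
        exact h0 h2.symm
      have hord : f'.order = N := by
        apply le_antisymm
        · apply HahnSeries.order_le_of_coeff_ne_zero
          rw [hc', if_neg (lt_irrefl _)]
          exact h0
        · by_contra hlt
          rw [not_le] at hlt
          apply hf'0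
          rw [← HahnSeries.coeff_order_eq_zero, hc', if_pos hlt]
      have hlc : f'.leadingCoeff = f.coeff N := by
        rw [HahnSeries.leadingCoeff_eq, hord, hc', if_neg (lt_irrefl _)]
      have hR : ∀ m : ℕ, b * f' ^ m ∈ (coeffMap (algebraMap A K)).range := by
        intro m
        rw [hf', add_pow, Finset.mul_sum]
        refine Subring.sum_mem _ fun i _ => ?_
        have e : b * (f ^ i * (-P) ^ (m - i) * (m.choose i : LaurentSeries K))
            = (b * f ^ i) * (-P) ^ (m - i) * (m.choose i : LaurentSeries K) := by ring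
        rw [e]
        exact Subring.mul_mem _ (Subring.mul_mem _ (h i)
          (Subring.pow_mem _ (Subring.neg_mem _ hPR) _)) (natCast_mem _ _)
      have hpow : ∀ m : ℕ, (f' ^ m).leadingCoeff = f'.leadingCoeff ^ m := by
        intro m
        induction m with
        | zero => simp
        | succ m ihm => rw [pow_succ, pow_succ, HahnSeries.leadingCoeff_mul, ihm]
      refine Normal_mem_of_mul_pow (β := b.leadingCoeff) (HahnSeries.leadingCoeff_ne_zero.2 hb)
        fun m => ?_
      obtain ⟨g, hg⟩ := hR m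
      rw [← hlc, ← hpow, ← HahnSeries.leadingCoeff_mul, HahnSeries.leadingCoeff_eq, ← hg,
        coeffMap_coeff]
      exact ⟨_, rfl⟩
  refine Normal_exists_lift f fun n => ?_
  rcases lt_or_ge n 0 with hn | hn
  · rw [hf n hn]; exact ⟨0, map_zero _⟩
  · exact key (n.toNat + 1) n (by push_cast; omega)

/-- (CoeffMem, abstract) bounded denominators for the powers of an integral element. -/
theorem CoeffMem_aux {S L : Type*} [CommRing S] [CommRing L] (φ : S →+* L) (R : Subring L)
    (hφ : ∀ s, φ s ∈ R) {d y : L} (hd : d ∈ R) (hdy : d * y ∈ R) (hy : φ.IsIntegralElem y) :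
    ∃ n : ℕ, ∀ m : ℕ, d ^ n * y ^ m ∈ R := by
  obtain ⟨P, hP, hPy⟩ := hy
  refine ⟨P.natDegree, fun m => ?_⟩
  have h1 : y ^ m = eval₂ φ y (X ^ m %ₘ P) := by
    conv_lhs => rw [← eval₂_X φ y, ← eval₂_pow, ← modByMonic_add_div (X ^ m) P]
    rw [eval₂_add, eval₂_mul, hPy, zero_mul, add_zero]
  rcases subsingleton_or_nontrivial S with hS | hS
  · have : (1 : L) = 0 := by rw [← map_one φ, Subsingleton.elim (1 : S) 0, map_zero]
    have h0 : d ^ P.natDegree * y ^ m = 0 := by
      rw [← mul_one (d ^ P.natDegree * y ^ m), this, mul_zero]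
    rw [h0]; exact R.zero_mem
  rw [h1, eval₂_eq_sum_range' φ (n := P.natDegree + 1)
    (lt_of_le_of_lt (natDegree_modByMonic_le _ hP) (Nat.lt_succ_self _)), Finset.mul_sum]
  refine R.sum_mem fun i hi => ?_
  have hi' : i ≤ P.natDegree := Nat.lt_succ_iff.1 (Finset.mem_range.1 hi)
  have e : d ^ P.natDegree * (φ ((X ^ m %ₘ P).coeff i) * y ^ i) =
      φ ((X ^ m %ₘ P).coeff i) * d ^ (P.natDegree - i) * (d * y) ^ i := by
    conv_lhs => rw [← Nat.sub_add_cancel hi', pow_add]
    rw [mul_pow]; ring
  rw [e]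
  exact R.mul_mem (R.mul_mem (hφ _) (R.pow_mem hd _)) (R.pow_mem hdy _)

/-- TASK `S44/PL-CoeffMem`.  `(C.S.intX_iff _ _)` (+ `intX_algebraMap_iff`): `Φ f` satisfies a monic equation of degree `n` with coefficients `c_i = evK A (Φ X⁻¹) P_i`,
which have coefficients in `A` (`Φ X⁻¹ = (castS K (Xh M p))⁻¹` is the image of the inverse of `castS A (Xh M p)` in `A((q))`, leading coefficient `1`: see the helpers
`Ev_*` of `Ctx.lean`).  `Φ f = g / h`, `g h ∈ A((q))` (`S33.fullC_le_fracField`, `C.S.hΦF`).  `b := h^(n-1)`: `b (Φ f)^m` has coefficients in `A` (strong induction on `m`).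
`C.coeff_of_intX_inv` for the negative coefficients; `coeff_mem_of_mul_pow_mem`. -/
theorem Ctx.coeff_mem_of_intX_inv (C : Ctx M p r π Φ w X ζ) {f : F} (hf : IntX A X⁻¹ f) :
    ∃ g : LaurentSeries A, coeffMap (algebraMap A K) g = Φ f := by
  have h1 : IntX A (algebraMap E F X⁻¹) f := (intX_algebraMap_iff X⁻¹ f).2 hf
  rw [C.S.intX_iff, map_inv₀, map_inv₀, C.hX] at h1
  -- the inverse of `Xh` over `ℤ`
  have hu : IsUnit (Xh M p) := by
    rw [HahnSeries.isUnit_iff]
    have : (Xh M p).leadingCoeff = 1 := by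
      show (Jh M * Jh (M * p)).leadingCoeff = 1
      rw [HahnSeries.leadingCoeff_mul, leadingCoeff_Jh, leadingCoeff_Jh, one_mul]
    rw [this]; exact isUnit_one
  obtain ⟨T, hT⟩ := hu.exists_right_inv
  have hTK : (castS K (Xh M p))⁻¹ = coeffMap (algebraMap A K) (castS A T) := by
    rw [Fermat.Agent.Crux.GM.coeffMap_castS]
    refine inv_eq_of_mul_eq_one_right ?_
    have := congrArg (castS K) hT
    simpa [castS] using this
  set R : Subring (LaurentSeries K) := (coeffMap (algebraMap A K)).range with hR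
  have hφ : ∀ s, evK A (castS K (Xh M p))⁻¹ s ∈ R := by
    intro s
    refine ⟨evAt (castS A T) s, ?_⟩
    have hcomp : evK A (coeffMap (algebraMap A K) (castS A T)) =
        (coeffMap (algebraMap A K)).comp (evAt (castS A T)) := by
      refine Polynomial.ringHom_ext (fun a => ?_) ?_
      · simp [evK]
      · simp [evK]
    rw [hTK, hcomp]
    rfl
  obtain ⟨y₁, y₂, hy₂, hy⟩ := Fermat.Agent.S33.fullC_le_fracField (R := A) ((C.S.hΦF _).2 ⟨f, rfl⟩)
  have hd0 : coeffMap (algebraMap A K) y₂ ≠ 0 := fun h =>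
    hy₂ (Fermat.Agent.S33.Calc.Red_coeffMap_injective _ (IsFractionRing.injective A K)
      (by rw [h, map_zero]))
  obtain ⟨n, hn⟩ := CoeffMem_aux _ R hφ (d := coeffMap (algebraMap A K) y₂) (y := Φ f) ⟨y₂, rfl⟩
    ⟨y₁, by rw [← hy, mul_comm]⟩ h1
  exact coeff_mem_of_mul_pow_mem (pow_ne_zero n hd0) (C.coeff_of_intX_inv hf).1 hn

/-- TASK `S44/PL-Hensel`.  Strong induction on the index `n ≥ 1`: `P := trunc` of `z` below `n` (coefficients in `A`), `z = P + y`, `y = X^n * z''`.
`Polynomial.binomExpansion`: `G(P + y) = G(P) + G'(P) y + k y^2`; the coefficient of index `n`: `x_n = [G(P)]_n + G'(0) z_n`  (`2 n > n`; `P` has constant coefficient `0`). -/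
theorem hensel_series (G : A[X]) (hG : IsUnit (G.coeff 1)) (z : PowerSeries K)
    (hz : PowerSeries.constantCoeff z = 0) (x : PowerSeries A)
    (h : Polynomial.aeval z G = PowerSeries.map (algebraMap A K) x) :
    ∃ z₀ : PowerSeries A, PowerSeries.map (algebraMap A K) z₀ = z := by
  classical
  have key : ∀ n : ℕ, ∃ a : A, algebraMap A K a = PowerSeries.coeff n z := by
    intro n
    induction n using Nat.strong_induction_on with
    | _ n ih =>
      rcases Nat.eq_zero_or_pos n with rfl | hn
      · exact ⟨0, by rw [map_zero, PowerSeries.coeff_zero_eq_constantCoeff_apply, hz]⟩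
      choose! a ha using ih
      let P0 : PowerSeries A := PowerSeries.mk fun i => if i < n then a i else 0
      set P : PowerSeries K := PowerSeries.map (algebraMap A K) P0 with hP
      have hPc : ∀ i, i < n → PowerSeries.coeff i P = PowerSeries.coeff i z := by
        intro i hi
        rw [hP, PowerSeries.coeff_map, PowerSeries.coeff_mk, if_pos hi, ha i hi]
      have hPn : PowerSeries.coeff n P = 0 := by
        rw [hP, PowerSeries.coeff_map, PowerSeries.coeff_mk, if_neg (lt_irrefl n), map_zero]
      have hP0 : PowerSeries.constantCoeff P = 0 := by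
        rw [← PowerSeries.coeff_zero_eq_constantCoeff_apply, hPc 0 hn,
          PowerSeries.coeff_zero_eq_constantCoeff_apply, hz]
      obtain ⟨y', hy'⟩ : (PowerSeries.X : PowerSeries K) ^ n ∣ z - P :=
        PowerSeries.X_pow_dvd_iff.mpr (fun i hi => by rw [map_sub, hPc i hi, sub_self])
      have hy0 : PowerSeries.constantCoeff y' = PowerSeries.coeff n z := by
        have h1 : PowerSeries.coeff (0 + n) (z - P) = PowerSeries.coeff 0 y' := by
          rw [hy', PowerSeries.coeff_X_pow_mul]
        rw [zero_add, map_sub, hPn, sub_zero, PowerSeries.coeff_zero_eq_constantCoeff_apply] at h1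
        exact h1.symm
      obtain ⟨kk, hk⟩ := Polynomial.binomExpansion (G.map (algebraMap A (PowerSeries K))) P (z - P)
      rw [add_sub_cancel, Polynomial.eval_map_algebraMap, h, Polynomial.eval_map_algebraMap] at hk
      have hcomp : (PowerSeries.map (algebraMap A K)).comp (algebraMap A (PowerSeries A))
          = algebraMap A (PowerSeries K) := by
        ext b : 1
        rw [RingHom.comp_apply, PowerSeries.algebraMap_apply, PowerSeries.algebraMap_apply,
          PowerSeries.map_C, Algebra.algebraMap_self, RingHom.id_apply]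
      have hGP : Polynomial.aeval P G = PowerSeries.map (algebraMap A K) (Polynomial.aeval P0 G) := by
        rw [Polynomial.aeval_def, Polynomial.aeval_def, Polynomial.hom_eval₂, hcomp]
      have hD : PowerSeries.constantCoeff
          (Polynomial.eval P (Polynomial.derivative (G.map (algebraMap A (PowerSeries K)))))
          = algebraMap A K (G.coeff 1) := by
        rw [Polynomial.eval, Polynomial.hom_eval₂, hP0, Polynomial.eval₂_at_zero,
          Polynomial.coeff_derivative, Polynomial.coeff_map, RingHom.comp_apply, RingHom.id_apply,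
          map_mul, PowerSeries.algebraMap_apply, PowerSeries.constantCoeff_C]
        simp
      have h2 := congrArg (PowerSeries.coeff n) hk
      rw [map_add, map_add, hGP, PowerSeries.coeff_map, PowerSeries.coeff_map, hy'] at h2
      have h3 : PowerSeries.coeff n
          (Polynomial.eval P (Polynomial.derivative (G.map (algebraMap A (PowerSeries K))))
            * ((PowerSeries.X : PowerSeries K) ^ n * y'))
          = algebraMap A K (G.coeff 1) * PowerSeries.coeff n z := by
        rw [mul_left_comm]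
        have := PowerSeries.coeff_X_pow_mul
          (Polynomial.eval P (Polynomial.derivative (G.map (algebraMap A (PowerSeries K)))) * y') n 0
        rw [zero_add] at this
        rw [this, PowerSeries.coeff_zero_eq_constantCoeff_apply, map_mul, hD, hy0]
      have h4 : PowerSeries.coeff n (kk * ((PowerSeries.X : PowerSeries K) ^ n * y') ^ 2) = 0 := by
        have : kk * ((PowerSeries.X : PowerSeries K) ^ n * y') ^ 2
            = (PowerSeries.X : PowerSeries K) ^ (2 * n) * (kk * y' ^ 2) := by ring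
        rw [this, PowerSeries.coeff_X_pow_mul', if_neg (by omega)]
      rw [h3, h4, add_zero] at h2
      obtain ⟨u, hu⟩ := hG
      refine ⟨(↑u⁻¹ : A) * (PowerSeries.coeff n x - PowerSeries.coeff n (Polynomial.aeval P0 G)), ?_⟩
      rw [map_mul, map_sub, h2, add_sub_cancel_left, ← mul_assoc, ← map_mul, ← hu, Units.inv_mul,
        map_one, one_mul]
  choose a ha using key
  refine ⟨PowerSeries.mk a, ?_⟩
  ext n
  rw [PowerSeries.coeff_map, PowerSeries.coeff_mk, ha]

/-- (RootSeries helper) a Laurent series without negative coefficients is a power series. -/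
theorem RootSeries_exists_powerSeries {R : Type*} [CommRing R] (z : LaurentSeries R)
    (h : ∀ n : ℤ, n < 0 → z.coeff n = 0) : ∃ Z : PowerSeries R, (Z : LaurentSeries R) = z := by
  refine ⟨PowerSeries.mk fun n => z.coeff n, ?_⟩
  ext i
  rw [PowerSeries.coeff_coe]
  split_ifs with hi
  · exact (h i hi).symm
  · rw [PowerSeries.coeff_mk, Int.natAbs_of_nonneg (not_lt.mp hi)]

theorem RootSeries_coeff_zero {R : Type*} [CommRing R] (Z : PowerSeries R) :
    (Z : LaurentSeries R).coeff 0 = PowerSeries.constantCoeff Z := by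
  rw [PowerSeries.coeff_coe]
  simp

/-- (RootSeries helper) the power series form. -/
theorem RootSeries_ps {A K : Type} [CommRing A] [IsDomain A] [IsDiscreteValuationRing A] [Field K]
    [CharZero K] [Algebra A K] [IsFractionRing A K] {p : ℕ} (hp : p.Prime) (hp2 : p ≠ 2) {π s : A}
    (hπ : Irreducible π) (hpl : (p : A) = π ^ (p - 1) * (-1 + π * s)) (x : PowerSeries A)
    (hx : PowerSeries.constantCoeff x = 0) :
    ∃ z₀ : PowerSeries A, PowerSeries.constantCoeff z₀ = 0 ∧
      (1 + PowerSeries.C π * z₀) ^ p = 1 + PowerSeries.C π ^ p * x := by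
  have hinj : Function.Injective (algebraMap A K) := IsFractionRing.injective A K
  have hminj : Function.Injective (PowerSeries.map (algebraMap A K)) :=
    PowerSeries.map_injective _ hinj
  set l : K := algebraMap A K π with hl
  have hl0 : l ≠ 0 := by
    rw [hl, Ne, map_eq_zero_iff _ hinj]
    exact hπ.ne_zero
  set xK : PowerSeries K := PowerSeries.map (algebraMap A K) x with hxK
  have hxK0 : PowerSeries.constantCoeff xK = 0 := by
    rw [hxK, ← PowerSeries.coeff_zero_eq_constantCoeff_apply, PowerSeries.coeff_map,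
      PowerSeries.coeff_zero_eq_constantCoeff_apply, hx, map_zero]
  obtain ⟨R, hR, hR1⟩ := Fermat.Agent.ES.An.exists_pow_eq_powerSeries p hp.pos
    (1 + PowerSeries.C l ^ p * xK) (by rw [map_add, map_one, map_mul, hxK0, mul_zero, add_zero])
  set z : PowerSeries K := PowerSeries.C l⁻¹ * (R - 1) with hz
  have hz0 : PowerSeries.constantCoeff z = 0 := by
    rw [hz, map_mul, map_sub, hR1, map_one, sub_self, mul_zero]
  have hRz : R = 1 + PowerSeries.C l * z := by
    rw [hz, ← mul_assoc, ← map_mul, mul_inv_cancel₀ hl0, map_one, one_mul]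
    ring
  obtain ⟨G₀, H, -, -, -, h1, h2, -⟩ := exists_G0 hp hp2 hpl
  have hC : ∀ a : A, algebraMap A (PowerSeries K) a = PowerSeries.C (algebraMap A K a) := by
    intro a
    rw [PowerSeries.algebraMap_apply]
  have h3 := congrArg (Polynomial.aeval z) h1
  simp only [map_pow, map_add, map_one, map_mul, Polynomial.aeval_C, Polynomial.aeval_X, hC] at h3
  rw [← hl, ← hRz, hR] at h3
  have hCl : (PowerSeries.C l : PowerSeries K) ^ p ≠ 0 := by
    apply pow_ne_zero
    rw [Ne, map_eq_zero_iff _ PowerSeries.C_injective]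
    exact hl0
  have h4 : Polynomial.aeval z G₀ = PowerSeries.map (algebraMap A K) x :=
    (mul_left_cancel₀ hCl (add_left_cancel h3)).symm
  have hunit : IsUnit (G₀.coeff 1) := by
    have hp1 : (1 : ℕ) ≠ p := fun h => hp.one_lt.ne h
    have h5 : G₀.coeff 1 = -1 + π * H.coeff 1 := by
      rw [h2]
      simp [Polynomial.coeff_X_pow, hp1]
    rw [h5]
    by_contra hnu
    have h6 : (-1 + π * H.coeff 1) ∈ IsLocalRing.maximalIdeal A :=
      (IsLocalRing.mem_maximalIdeal _).2 hnu
    have h7 : π * H.coeff 1 ∈ IsLocalRing.maximalIdeal A :=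
      Ideal.mul_mem_right _ _ ((IsLocalRing.mem_maximalIdeal _).2 hπ.not_isUnit)
    have h8 : (1 : A) ∈ IsLocalRing.maximalIdeal A := by
      have := Ideal.sub_mem _ h7 h6
      simp at this
    exact (IsLocalRing.mem_maximalIdeal _).1 h8 isUnit_one
  obtain ⟨z₀, hz₀⟩ := hensel_series G₀ hunit z hz0 x h4
  refine ⟨z₀, ?_, ?_⟩
  · apply hinj
    rw [map_zero, ← hz0, ← hz₀, ← PowerSeries.coeff_zero_eq_constantCoeff_apply,
      ← PowerSeries.coeff_zero_eq_constantCoeff_apply, PowerSeries.coeff_map]
  · apply hminj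
    rw [map_pow, map_add, map_one, map_mul, PowerSeries.map_C, hz₀, ← hl, ← hRz, hR, map_add,
      map_one, map_mul, map_pow, PowerSeries.map_C]

/-- TASK `S44/PL-RootSeries`.  `x₀ ∈ A((q))` with image `Φ ξ'` (`coeff_mem_of_intX_inv`), in fact a power series without constant term.
`Crux.GM.exists_pow_eq_laurent p` gives `t ∈ K((q))`, `t^p = 1 + lam^p Φ ξ'` (order `0`, leading coefficient `1`); `t` has order `0` and `lc(t)^p = 1`; replace `t` by `t / C lc(t)`.
`z := (t - 1)/lam` is a power series without constant term, and `G₀(z) = Φ ξ'` with `G₀` from `PL.exists_G0` (`(1 + l Z)^p = 1 + l^p G₀`, `G₀ = Z^p - Z + l H`;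
`G₀.coeff 1 = -1 + l H.coeff 1` is a unit of `A`, `p ≥ 3`).  `hensel_series`. -/
theorem Ctx.exists_root_series (C : Ctx M p r π Φ w X ζ) {ξ' : F} (hξ' : IntX A X⁻¹ ξ')
    (hco : ∀ n : ℤ, n ≤ 0 → (Φ ξ').coeff n = 0) :
    ∃ z : LaurentSeries A, (∀ n : ℤ, n ≤ 0 → z.coeff n = 0) ∧
      (1 + lam K π * coeffMap (algebraMap A K) z) ^ p = 1 + lam K π ^ p * Φ ξ' := by
  have hinj : Function.Injective (algebraMap A K) := IsFractionRing.injective A K
  obtain ⟨x₀, hx₀⟩ := C.coeff_mem_of_intX_inv hξ'
  have hx₀c : ∀ n : ℤ, n ≤ 0 → x₀.coeff n = 0 := by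
    intro n hn
    apply hinj
    rw [map_zero, ← coeffMap_coeff, hx₀]
    exact hco n hn
  obtain ⟨x, hx⟩ := RootSeries_exists_powerSeries x₀ (fun n hn => hx₀c n hn.le)
  have hxc : PowerSeries.constantCoeff x = 0 := by
    rw [← RootSeries_coeff_zero, hx]
    exact hx₀c 0 le_rfl
  obtain ⟨s, hs⟩ := wilson_cyclo C.hp C.hp2 C.hζ
  rw [← C.hπ] at hs
  obtain ⟨z₀, hz₀, hz⟩ := RootSeries_ps (K := K) C.hp C.hp2 C.irr hs x hxc
  refine ⟨(z₀ : LaurentSeries A), ?_, ?_⟩
  · intro n hn
    rcases hn.lt_or_eq with h | rfl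
    · rw [PowerSeries.coeff_coe, if_pos h]
    · rw [RootSeries_coeff_zero, hz₀]
  · have h1 := congrArg (fun y : PowerSeries A =>
      coeffMap (algebraMap A K) (HahnSeries.ofPowerSeries ℤ A y)) hz
    simp only [map_pow, map_add, map_one, map_mul, HahnSeries.ofPowerSeries_C,
      Fermat.Agent.S28.Build.coeffMap_C] at h1
    have h2 : coeffMap (algebraMap A K) (HahnSeries.ofPowerSeries ℤ A x) = Φ ξ' := by
      rw [← hx₀, ← hx]
    rw [h2] at h1
    exact h1

/-- the two coordinates `z' = (t - 1)/π` (chart `X⁻¹`) and `z = ((1 + π η) t - 1)/π = η + z' + π η z'` (chart `X`) are Gauss-integral. -/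
theorem Ctx.exists_redK_z (C : Ctx M p r π Φ w X ζ) {ξ' η : F} (hξ' : IntX A X⁻¹ ξ')
    (hco : ∀ n : ℤ, n ≤ 0 → (Φ ξ').coeff n = 0) (hη : IsOLx π X η) :
    ∃ (t z' z : LaurentSeries K) (b' b : LaurentSeries k),
      t ^ p = 1 + lam K π ^ p * Φ ξ' ∧ t = 1 + lam K π * z' ∧
      Φ (1 + algebraMap A F π * η) * t = 1 + lam K π * z ∧
      (∃ z₀ : LaurentSeries A, coeffMap (algebraMap A K) z₀ = z' ∧ ∀ n : ℤ, n ≤ 0 → z₀.coeff n = 0) ∧
      RedK r z' b' ∧ RedK r z b := by
  obtain ⟨z₀, hz₀, hz⟩ := C.exists_root_series hξ' hco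
  obtain ⟨a₁, -, ha₁, -⟩ := (C.isOLx_iff η).1 hη
  have hb' : RedK r (coeffMap (algebraMap A K) z₀) (coeffMap r z₀) := RedK.of_series z₀
  refine ⟨1 + lam K π * coeffMap (algebraMap A K) z₀, coeffMap (algebraMap A K) z₀,
    Φ η + coeffMap (algebraMap A K) z₀ + lam K π * (Φ η * coeffMap (algebraMap A K) z₀),
    coeffMap r z₀, a₁ + coeffMap r z₀ + HahnSeries.C (r π) * (a₁ * coeffMap r z₀),
    hz, rfl, ?_, ⟨z₀, rfl, hz₀⟩, hb', ?_⟩
  · rw [map_add, map_one, map_mul, C.S.hΦA]
    ring
  · exact (ha₁.add hb').add ((RedK.of_C π).mul (ha₁.mul hb'))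

end Fermat.Agent.S44.PL
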