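import Fermat.Agent.S44.PL.Gauss
import Fermat.Agent.S44.Cover.Main
import Fermat.Agent.S44.ResDeg.Main
import Fermat.Agent.SS.GM2.TowerAux
import Fermat.Agent.SS.GM2.Desc.Step
import Fermat.Agent.S33.Soft.KIner

/-!
# S44 / PL / DescA : hypothesis (h2) of `PL.cover_abstract` over the FIXED field `K₀`      (board #2712)

`K₀ ⊆ ℚ̄` a number field, `ζ ∈ K₀`, stable under the inertia group `I` of `A`; `A₀ = A ∩ K₀` with uniformiser `π = ζ - 1`; `r₀ : A₀ → k₀`.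
`W₀ ∈ F_{K₀}(M p)` with leading coefficient `1` represents `y₀ = mk u`, `InK1 A y₀`, `InK1 A (w y₀)`, `s y₀ = ω(s) y₀` for `s ∈ I`.
THEN  `W₀ = π^(-p n₁) U₁`, `Ū₁ = ψ₁^p`, `w W₀ = π^(-p n₂) U₂`, `Ū₂ = ψ₂^p`, `ψ_i ∈ F_{k₀}(M)^×`.

TASKS: `S44/PL-DA-Gen` (`RedK.pivot_unique`, `dvd_of_semilinear`), `S44/PL-DA-Tr` (`redTo_of_redK`, `exists_pth_root_descent`),
`S44/PL-DA-Model` (`exists_model_of_pow`, `exists_semilinear`), `S44/PL-DA-Psi` (`exists_psi`), `S44/PL-DA-Tau` (`exists_tau0`), `S44/PL-DA-Main` (`h2`).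
-/

set_option autoImplicit false
set_option linter.unusedSectionVars false
set_option linter.style.haveILetI false

open AlgebraicCurve ModularCurve

namespace Fermat.Agent.S44.PL

open Fermat.Agent.ES Fermat.Agent.SS Fermat.Agent.SS.GM2 Fermat.Agent.S33
open Fermat.Agent.Crux (A0)
open Fermat.Agent.S44.Cover (LL gact bc)
open Fermat.Agent.S44.ResDeg (incl)

section Generic

variable {A K k : Type} [CommRing A] [IsDomain A] [IsDiscreteValuationRing A] [Field K]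
  [Algebra A K] [IsFractionRing A K] [Field k] {r : A →+* k} {π : A}

/-! ### TASK `S44/PL-DA-Gen` -/

theorem DA_Gen_lam_ne_zero (hπ : Irreducible π) : lam K π ≠ 0 := by
  rw [lam, Ne, map_eq_zero, map_eq_zero_iff _ (IsFractionRing.injective A K)]
  exact hπ.ne_zero

theorem DA_Gen_not_lt (hr : Function.Surjective r) (hπ : Irreducible π) {m m' : ℤ}
    {U U' : LaurentSeries K} {s s' : LaurentSeries k} (hs : s ≠ 0)
    (hU : RedK r U s) (hU' : RedK r U' s') (h : lam K π ^ m * U = lam K π ^ m' * U') :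
    ¬ m < m' := by
  intro hlt
  obtain ⟨j, hj⟩ : ∃ j : ℕ, m' = m + ((j : ℤ) + 1) := ⟨(m' - m - 1).toNat, by omega⟩
  have hL0 : lam K π ≠ 0 := DA_Gen_lam_ne_zero hπ
  have e : U = lam K π * (lam K π ^ j * U') := by
    apply mul_left_cancel₀ (zpow_ne_zero m hL0)
    rw [h, hj, zpow_add₀ hL0, zpow_add_one₀ hL0, zpow_natCast]
    ring
  have h1 : RedK r U 0 := by
    rw [e]
    exact RedK.lam_mul hr hπ (((RedK.of_C π).pow j).mul hU')
  exact hs (hU.unique h1)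

theorem DA_Gen_zpow {x : LaurentSeries K} {a : LaurentSeries k} (h : RedK r x a) (ha : a ≠ 0)
    (n : ℤ) : RedK r (x ^ n) (a ^ n) := by
  cases n with
  | ofNat n => simpa using h.pow n
  | negSucc n =>
    rw [zpow_negSucc, zpow_negSucc]
    exact (h.pow (n + 1)).inv (pow_ne_zero _ ha)

/-- the exponent of the pivot is unique: wlog `m ≤ m'`; `U = π^(m'-m) U'`; if `m < m'` then `U` reduces to `0` (`RedK.lam_mul`, `RedK.unique`). -/
theorem RedK.pivot_unique (hr : Function.Surjective r) (hπ : Irreducible π) {m m' : ℤ}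
    {U U' : LaurentSeries K} {s s' : LaurentSeries k} (hs : s ≠ 0) (hs' : s' ≠ 0)
    (hU : RedK r U s) (hU' : RedK r U' s') (h : lam K π ^ m * U = lam K π ^ m' * U') : m = m' := by
  exact le_antisymm (not_lt.1 (DA_Gen_not_lt hr hπ hs' hU' hU h.symm))
    (not_lt.1 (DA_Gen_not_lt hr hπ hs hU hU' h))

/-- **`p ∣ v(W)`** from a semilinear relation `τ W = W^e k₀^p`, `e ≢ 1 mod p`.
`coeffMap τK W = (C (τK π))^m * coeffMap τK U = lam^m * ((C u)^m * coeffMap τK U)`, with nonzero reduction (`RedK.map_coeffMap`, `RedK.of_C`, `u` a unit; `coeffMap τk` is injective).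
`k₀ = lam^j U'` (`RedK.pivot`; `k₀ ≠ 0` because `W ≠ 0`).  `W^e k₀^p = lam^(e m + p j) (U^e U'^p)`.  `pivot_unique`: `m = e m + p j`, so `p ∣ (e - 1) m`; `Int.Prime.dvd_mul'`/`Prime.dvd_or_dvd`. -/
theorem dvd_of_semilinear {p e N : ℕ} (hp : p.Prime) (he : ¬ (p : ℤ) ∣ (e : ℤ) - 1)
    (hr : Function.Surjective r) (hπ : Irreducible π)
    (τK : K →+* K) (τA : A →+* A) (τk : k →+* k)
    (hτKA : ∀ a, τK (algebraMap A K a) = algebraMap A K (τA a)) (hτk : ∀ a, r (τA a) = τk (r a))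
    (u u' : A) (huu : u * u' = 1) (hτπ : τA π = π * u)
    {W k₀ : LaurentSeries K} (hk₀ : k₀ ∈ modularFunctionFieldFullC K N) (hW0 : W ≠ 0)
    (h : coeffMap τK W = W ^ e * k₀ ^ p) {m : ℤ} {U : LaurentSeries K} {s : LaurentSeries k}
    (hs : s ≠ 0) (hU : RedK r U s) (hW : W = lam K π ^ m * U) : (p : ℤ) ∣ m := by
  have hL0 : lam K π ≠ 0 := DA_Gen_lam_ne_zero hπ
  have hru : r u ≠ 0 := by
    intro h0
    have h1 := congrArg r huu
    rw [map_mul, h0, zero_mul, map_one] at h1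
    exact zero_ne_one h1
  have hCu : (HahnSeries.C (r u) : LaurentSeries k) ≠ 0 := by
    intro h0
    exact hru (HahnSeries.C_injective (h0.trans (map_zero _).symm))
  have hk0 : k₀ ≠ 0 := by
    rintro rfl
    rw [zero_pow hp.ne_zero, mul_zero] at h
    exact hW0 ((coeffMap τK).injective (by rw [h, map_zero]))
  have hτs : coeffMap τk s ≠ 0 := fun h0 => hs ((coeffMap τk).injective (by rw [h0, map_zero]))
  obtain ⟨j, U', s', hs', hU', hk⟩ := RedK.pivot hr hπ hk₀ hk0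
  have e1 : coeffMap τK (lam K π) = lam K π * HahnSeries.C (algebraMap A K u) := by
    rw [lam, Fermat.Agent.S28.Build.coeffMap_C, hτKA, hτπ, map_mul, map_mul]
  have e2 : coeffMap τK W =
      lam K π ^ m * (HahnSeries.C (algebraMap A K u) ^ m * coeffMap τK U) := by
    rw [hW, map_mul, map_zpow₀, e1, mul_zpow, mul_assoc]
  have e3 : W ^ e * k₀ ^ p = lam K π ^ ((e : ℤ) * m + (p : ℤ) * j) * (U ^ e * U' ^ p) := by
    rw [hW, hk, mul_pow, mul_pow, zpow_add₀ hL0, mul_comm (e : ℤ) m, mul_comm (p : ℤ) j, zpow_mul,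
      zpow_mul, zpow_natCast, zpow_natCast]
    ring
  have key : m = (e : ℤ) * m + (p : ℤ) * j :=
    RedK.pivot_unique hr hπ (mul_ne_zero (zpow_ne_zero m hCu) hτs)
      (mul_ne_zero (pow_ne_zero e hs) (pow_ne_zero p hs'))
      ((DA_Gen_zpow (RedK.of_C u) hCu m).mul (hU.map_coeffMap τK τA τk hτKA hτk))
      ((hU.pow e).mul (hU'.pow p)) (by rw [← e2, h, e3])
  have h1 : (p : ℤ) ∣ ((e : ℤ) - 1) * m := ⟨-j, by linear_combination (-1 : ℤ) * key⟩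
  exact ((Nat.prime_iff_prime_int.1 hp).dvd_or_dvd h1).resolve_left he

end Generic

/-- the residue map of `A₀ = A ∩ K₀`. -/
noncomputable abbrev r0 (K₀ : IntermediateField ℚ Qb) (A : ValuationSubring Qb) :
    A0 K₀ A →+* IsLocalRing.ResidueField (A0 K₀ A) := IsLocalRing.residue (A0 K₀ A)

/-- `k₀ → k_A`. -/
noncomputable abbrev kι (K₀ : IntermediateField ℚ Qb) (A : ValuationSubring Qb) :
    IsLocalRing.ResidueField (A0 K₀ A) →+* kA A := IsLocalRing.ResidueField.map (incl K₀ A)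

variable {M p : ℕ} [NeZero M] [NeZero p] {A : ValuationSubring Qb} (K₀ : IntermediateField ℚ Qb)

/-! ### TASK `S44/PL-DA-Tr` -/

/-- transfer `K₀ → ℚ̄`: apply `coeffMap (incl K₀ A)` to numerator and denominator (`IsLocalRing.ResidueField.map_residue`; cf. the end of `S44.ResDeg.rd_mem_full`). -/
theorem redTo_of_redK {x : LaurentSeries K₀} {a : LaurentSeries (IsLocalRing.ResidueField (A0 K₀ A))}
    (h : RedK (r0 K₀ A) x a) : RedTo A (bc K₀ x) (coeffMap (kι K₀ A) a) := by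
  obtain ⟨g, h, h0, h1, h2⟩ := h
  have e1 : ∀ z : LaurentSeries (A0 K₀ A), coeffMap A.subtype (coeffMap (incl K₀ A) z)
      = bc K₀ (coeffMap (algebraMap (A0 K₀ A) K₀) z) := by
    intro z
    ext n
    rfl
  have e2 : ∀ z : LaurentSeries (A0 K₀ A), coeffMap (resA A) (coeffMap (incl K₀ A) z)
      = coeffMap (kι K₀ A) (coeffMap (r0 K₀ A) z) := by
    intro z
    ext n
    rw [coeffMap_coeff, coeffMap_coeff, coeffMap_coeff, coeffMap_coeff,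
      IsLocalRing.ResidueField.map_residue]
  refine ⟨coeffMap (incl K₀ A) g, coeffMap (incl K₀ A) h, ?_, ?_, ?_⟩
  · rw [e2]
    exact Fermat.Agent.S33.Calc.Ops_coeffMap_ne_zero _ (kι K₀ A).injective h0
  · rw [e1, e1, ← map_mul, h1]
  · rw [e2, e2, h2, map_mul]

/-- `Ψ^p = ∑ Ψ_n^p q^(pn)` (`ES.pow_char_eq`: `x^p = Vq (coeffMap frobenius x)`).  So `ι s_(pn) = Ψ_n^p`, `s_m = 0` for `p ∤ m`.  `κ` is perfect: `s_(pn) = c_n^p`, `Ψ_n = ι c_n`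
(Frobenius of `κ'` is injective).  `ψ := ∑ c_n q^n = coeffMap (frobeniusEquiv κ p).symm (contract p s)`. -/
theorem exists_pth_root_descent {κ κ' : Type*} [Field κ] [Finite κ] [Field κ'] (q : ℕ) [Fact q.Prime] [NeZero q]
    [CharP κ q] [CharP κ' q] (ι : κ →+* κ') (s : LaurentSeries κ) (Ψ : LaurentSeries κ')
    (h : Ψ ^ q = coeffMap ι s) : ∃ ψ : LaurentSeries κ, coeffMap ι ψ = Ψ ∧ ψ ^ q = s := by
  have hinj : ∀ x y : LaurentSeries κ', x ^ q = y ^ q → x = y := by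
    intro x y hxy
    rw [pow_char_eq q, pow_char_eq q] at hxy
    exact Fermat.Agent.S28.Build.coeffMap_injective _ (frobenius κ' q).injective
      (Vq_injective q hxy)
  have hs0 : ∀ n : ℤ, ¬ (q : ℤ) ∣ n → s.coeff n = 0 := by
    intro n hn
    have h1 : (coeffMap ι s).coeff n = 0 := by
      rw [← h, pow_char_eq q]
      exact qExpand_coeff_of_not_dvd q _ hn
    rw [coeffMap_coeff] at h1
    exact (map_eq_zero ι).1 h1
  have hψ : (coeffMap ((frobeniusEquiv κ q).symm : κ →+* κ) (contract q s)) ^ q = s := by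
    rw [pow_char_eq q, coeffMap_coeffMap]
    have e : (frobenius κ q).comp ((frobeniusEquiv κ q).symm : κ →+* κ) = RingHom.id κ := by
      ext x
      exact frobenius_apply_frobeniusEquiv_symm κ q x
    rw [e]
    have e2 : coeffMap (RingHom.id κ) (contract q s) = contract q s := by
      ext n
      rfl
    rw [e2]
    exact Vq_contract q s hs0
  refine ⟨coeffMap ((frobeniusEquiv κ q).symm : κ →+* κ) (contract q s), ?_, hψ⟩
  apply hinj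
  rw [← map_pow, hψ, h]

/-! ### TASK `S44/PL-DA-Model` -/

/-- a `p`-th root in `F_N` of a `K₀`-rational series is `K₀`-rational as soon as its leading coefficient is.
For `γ` fixing `K₀`: `(gact γ g)^p = g^p` (`Cover.gact_bc`), `gact γ g = C ζ^i * g` (`Cover.eq_zeta_pow_mul`), compare leading coefficients (`Cover.leadingCoeff_gact`): `ζ^i = 1`.
`Cover.exists_model_of_fixed`. -/
theorem exists_model_of_pow (hp : p.Prime) (N : ℕ) [NeZero N] (ζ : K₀) (hζ : IsPrimitiveRoot ζ p)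
    (g : FF N) (n₀ : LaurentSeries K₀) (h : (g : LL) ^ p = bc K₀ n₀)
    (hlc : (g : LL).leadingCoeff ∈ K₀) :
    ∃ g₀ ∈ modularFunctionFieldFullC K₀ N, bc K₀ g₀ = (g : LL) := by
  apply Cover.exists_model_of_fixed N K₀ g
  intro γ hγ
  by_cases hg0 : (g : LL) = 0
  · rw [hg0, map_zero]
  have h1 : (gact γ (g : LL)) ^ p = (g : LL) ^ p := by
    rw [← map_pow, h, Cover.gact_bc K₀ γ hγ]
  have hζ' : IsPrimitiveRoot (algebraMap K₀ Qb ζ) p :=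
    hζ.map_of_injective (algebraMap K₀ Qb).injective
  obtain ⟨i, hi⟩ := Cover.eq_zeta_pow_mul hp.pos _ hζ' _ _ hg0 h1
  have h2 := congrArg HahnSeries.leadingCoeff hi
  rw [Cover.leadingCoeff_gact, HahnSeries.leadingCoeff_mul, HahnSeries.C_apply,
    HahnSeries.leadingCoeff_of_single, hγ _ hlc] at h2
  have hl0 : (g : LL).leadingCoeff ≠ 0 := HahnSeries.leadingCoeff_ne_zero.mpr hg0
  have h3 : (algebraMap K₀ Qb ζ) ^ i = 1 := by
    apply mul_right_cancel₀ hl0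
    rw [one_mul, ← h2]
  rw [hi, h3, map_one, one_mul]

/-- `galKum_mk`, `Kum.mk_pow`, `Kum.mk_eq_mk_iff` : `g^p = galU s u * (u^e)⁻¹`; on series `gact s (bc W₀) = (bc W₀)^e * g^p`, and `gact s (bc W₀) = bc (coeffMap σ₀ W₀)`.
Leading coefficients: `lc(g)^p = 1`; replace `g` by `g / lc(g)`; `exists_model_of_pow` with `n₀ = coeffMap σ₀ W₀ / W₀^e`; `Cover.bc_injective`. -/
theorem exists_semilinear (hp : p.Prime) (N : ℕ) [NeZero N] (ζ : K₀) (hζ : IsPrimitiveRoot ζ p)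
    (s : GQ) (σ₀ : K₀ →+* K₀) (hσ₀ : ∀ x, algebraMap K₀ Qb (σ₀ x) = s (algebraMap K₀ Qb x))
    (e : ℕ) (u : Dm N p) (hs : galKum N p s (Kum.mk u) = e • Kum.mk u)
    (W₀ : LaurentSeries K₀) (hW₀ : bc K₀ W₀ = (((u : (FF N)ˣ) : FF N) : LL))
    (hlc : W₀.leadingCoeff = 1) :
    ∃ k₀ ∈ modularFunctionFieldFullC K₀ N, coeffMap σ₀ W₀ = W₀ ^ e * k₀ ^ p := by
  rw [galKum_mk, ← Kum.mk_pow, Kum.mk_eq_mk_iff] at hs
  obtain ⟨h, hh⟩ := hs
  have hpow : ∀ (x : LL) (n : ℕ), (x ^ n).leadingCoeff = x.leadingCoeff ^ n := by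
    intro x n
    induction n with
    | zero => simp
    | succ n ih => rw [pow_succ, pow_succ, HahnSeries.leadingCoeff_mul, ih]
  have hW0 : W₀ ≠ 0 := by
    rintro rfl
    rw [HahnSeries.leadingCoeff_zero] at hlc
    exact zero_ne_one hlc
  have hbW0 : bc K₀ W₀ ≠ 0 := fun h0 => hW0 (Cover.bc_injective K₀ (h0.trans (map_zero _).symm))
  have hlcb : (bc K₀ W₀).leadingCoeff = 1 := by
    rw [Fermat.Agent.Crux.leadingCoeff_coeffMap _ (algebraMap K₀ Qb).injective, hlc, map_one]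
  -- the relation on units
  have e0 : h ^ p * (u : (FF N)ˣ) ^ e = galU N s (u : (FF N)ˣ) := by
    rw [hh]
    show galU N s (u : (FF N)ˣ) * ((u : (FF N)ˣ) ^ e)⁻¹ * (u : (FF N)ˣ) ^ e = _
    rw [inv_mul_cancel_right]
  have e1 : ((h : FF N) : LL) ^ p * (bc K₀ W₀) ^ e = gact s (bc K₀ W₀) := by
    have := congrArg (fun x : (FF N)ˣ => ((x : FF N) : LL)) e0
    rw [hW₀]
    exact this
  have e2 : gact s (bc K₀ W₀) = bc K₀ (coeffMap σ₀ W₀) := by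
    ext n
    exact (hσ₀ (W₀.coeff n)).symm
  have hh0 : ((h : FF N) : LL) ≠ 0 := by
    intro h0
    exact h.ne_zero (Subtype.ext h0)
  have hc0 : ((h : FF N) : LL).leadingCoeff ≠ 0 := HahnSeries.leadingCoeff_ne_zero.mpr hh0
  have hc : ((h : FF N) : LL).leadingCoeff ^ p = 1 := by
    have := congrArg HahnSeries.leadingCoeff e1
    rw [Cover.leadingCoeff_gact, HahnSeries.leadingCoeff_mul, hpow, hpow, hlcb, one_pow, mul_one,
      map_one] at this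
    exact this
  set c : Qb := ((h : FF N) : LL).leadingCoeff with hcdef
  have hg : (((algebraMap Qb (FF N) c⁻¹ * (h : FF N) : FF N)) : LL)
      = HahnSeries.C c⁻¹ * ((h : FF N) : LL) := by
    rw [← Cover.coe_algebraMap_FF (N := N)]
    rfl
  have hgp : (((algebraMap Qb (FF N) c⁻¹ * (h : FF N) : FF N)) : LL) ^ p
      = bc K₀ (coeffMap σ₀ W₀ / W₀ ^ e) := by
    rw [hg, mul_pow, ← map_pow, inv_pow, hc, inv_one, map_one, one_mul, map_div₀, ← e2, ← e1,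
      map_pow, mul_div_assoc, div_self (pow_ne_zero _ hbW0), mul_one]
  have hglc : (((algebraMap Qb (FF N) c⁻¹ * (h : FF N) : FF N)) : LL).leadingCoeff ∈ K₀ := by
    rw [hg, HahnSeries.leadingCoeff_mul, HahnSeries.C_apply, HahnSeries.leadingCoeff_of_single,
      ← hcdef, inv_mul_cancel₀ hc0]
    exact one_mem K₀
  obtain ⟨k₀, hk₀, hk⟩ := exists_model_of_pow K₀ hp N ζ hζ _ _ hgp hglc
  refine ⟨k₀, hk₀, ?_⟩
  apply Cover.bc_injective K₀
  rw [map_mul, map_pow, map_pow, hk, hgp, map_div₀, map_pow,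
    mul_div_cancel₀ _ (pow_ne_zero _ hbW0)]

/-! ### TASK `S44/PL-DA-Psi` -/

/-- **the reduction is a `p`-th power in `F_{k₀}(M)`.**
`InK1`: `u' ∈ Dm`, `mk u' = mk u`, `RedConst A u'`; `Kum.mk_eq_mk_iff`: `h^p = u' u⁻¹`.  `RedConst` ⟹ `RedTo A (cst c₁ * u') 1` (unfold).  `SS.exists_redTo A h`: `RedTo A (cst c₂ * h) ρ`, `ρ ≠ 0`;
`ρ ∈ resF (M p) A = F_{k_A}(M)` (`S44.ResDeg.mem_resF_of_redTo`, `resF_mul_eq_full`).  So `RedTo A (cst (c₁ c₂^(-p)) * u) (ρ⁻¹)^p`.  `u = cst c * bc U`, `RedTo A (bc U) (coeffMap kι s)` (`redTo_of_redK`), nonzero.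
Dividing: `cst (c₁ c₂^(-p) c)` reduces to `(ρ⁻¹)^p / coeffMap kι s`; `RedTo.const`: it is `cstk (resA a)`, `≠ 0`.  `k_A` is algebraically closed (or perfect): `resA a = b^p`.
`Ψ := ρ⁻¹ / cstk b ∈ F_{k_A}(M)`, `Ψ^p = coeffMap kι s`.  `exists_pth_root_descent`; `Crux.GM.mem_full_of_coeffMap_mem M _ _ (kι K₀ A)` (`p ∤ M`: primes dividing `M` are nonzero in `k₀`). -/
theorem exists_psi [NumberField K₀] (hp : p.Prime) (hpM : ¬ p ∣ M) (hA : A.LiesOverPrime p)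
    (u : Dm (M * p) p) (hK1 : InK1 A (Kum.mk u)) (W₀ U : LaurentSeries K₀) (c : K₀) (hc : c ≠ 0)
    (hW₀ : bc K₀ W₀ = (((u : (FF (M * p))ˣ) : FF (M * p)) : LL)) (hWU : W₀ = HahnSeries.C c * U)
    {s : LaurentSeries (IsLocalRing.ResidueField (A0 K₀ A))} (hs : s ≠ 0)
    (hU : RedK (r0 K₀ A) U s) :
    ∃ ψ ∈ modularFunctionFieldFullC (IsLocalRing.ResidueField (A0 K₀ A)) M, ψ ≠ 0 ∧ ψ ^ p = s := by
  have hNZ : NeZero (M * p) := ⟨Nat.mul_ne_zero (NeZero.ne M) (NeZero.ne p)⟩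
  obtain ⟨u', hu', c₁, y₁, y₂, hc₁, -, -, hy, hy2, hyu⟩ := hK1
  obtain ⟨h, hh⟩ := (Kum.mk_eq_mk_iff u' u).mp hu'
  -- the three series
  set uS : LL := (((u : (FF (M * p))ˣ) : FF (M * p)) : LL) with huS
  set uS' : LL := (((u' : (FF (M * p))ˣ) : FF (M * p)) : LL) with huS'
  set hS : LL := ((h : FF (M * p)) : LL) with hhS
  have huS0 : uS ≠ 0 := fun h0 => (u : (FF (M * p))ˣ).ne_zero (Subtype.ext h0)
  have hhS0 : hS ≠ 0 := fun h0 => h.ne_zero (Subtype.ext h0)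
  have hrel : hS ^ p = uS' * uS⁻¹ := by
    have := congrArg (fun x : (FF (M * p))ˣ => ((x : FF (M * p)) : LL)) hh
    simpa using this
  have h1 : RedTo A (cst c₁ * uS') 1 := ⟨y₁, y₂, hy2, hyu, by rw [one_mul]; exact hy⟩
  obtain ⟨c₂, ρ, hc₂, hρ, hred⟩ :=
    Fermat.Agent.S37.Mod.exists_redRel_scale (A := A) (h : FF (M * p)) h.ne_zero
  have hρmem : ρ ∈ modularFunctionFieldFullC (kA A) M := by
    rw [← Fermat.Agent.S44.ResDeg.resF_mul_eq_full M p hp hpM A hA]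
    exact ⟨_, hred⟩
  have h2 : RedTo A (cst c₂ * hS) ρ := by
    obtain ⟨a, b, -, -, hb, hf, hu⟩ := hred
    exact ⟨a, b, hb, hf, hu.symm⟩
  have h3 : RedTo A (bc K₀ U) (coeffMap (kι K₀ A) s) := redTo_of_redK K₀ hU
  have hσ : coeffMap (kι K₀ A) s ≠ 0 := fun h0 =>
    hs (Fermat.Agent.Crux.coeffMap_injective _ (kι K₀ A).injective (h0.trans (map_zero _).symm))
  have huU : uS = cst (c : Qb) * bc K₀ U := by
    rw [← hW₀, hWU, map_mul, Fermat.Agent.S44.Cover.bc_C, cst,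
      algebraMap_laurentSeries_eq_single]
    rfl
  have hcQ : (c : Qb) ≠ 0 := fun h0 => hc (Subtype.ext h0)
  have hU0 : bc K₀ U ≠ 0 := fun h0 => huS0 (by rw [huU, h0, mul_zero])
  have h4 := (h1.mul ((h2.pow p).inv (pow_ne_zero p hρ))).mul (h3.inv hσ)
  have h5 : cst c₁ * uS' * ((cst c₂ * hS) ^ p)⁻¹ * (bc K₀ U)⁻¹
      = cst (c₁ * (c₂ ^ p)⁻¹ * (c : Qb)) := by
    have e1 : uS' = hS ^ p * uS := by rw [hrel, inv_mul_cancel_right₀ huS0]
    have hc₂' : cst c₂ ≠ 0 := (map_ne_zero _).2 hc₂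
    have hcc : cst (c₁ * (c₂ ^ p)⁻¹ * (c : Qb)) = cst c₁ * (cst c₂ ^ p)⁻¹ * cst (c : Qb) := by
      rw [cst, cst, cst, cst, map_mul, map_mul, map_inv₀, map_pow]
    rw [e1, huU, mul_pow, hcc]
    field_simp
  rw [h5] at h4
  obtain ⟨a, ha, hra⟩ := h4.const
  have hra0 : resA A a ≠ 0 := by
    intro h0
    rw [h0, cstk, map_zero] at hra
    exact mul_ne_zero (mul_ne_zero one_ne_zero (inv_ne_zero (pow_ne_zero p hρ)))
      (inv_ne_zero hσ) hra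
  obtain ⟨b, hb⟩ := IsAlgClosed.exists_pow_nat_eq (resA A a) hp.pos
  have hb0 : b ≠ 0 := by
    rintro rfl
    rw [zero_pow hp.ne_zero] at hb
    exact hra0 hb.symm
  have hb0' : cstk A b ≠ 0 := (map_ne_zero _).2 hb0
  have hΨ : (ρ⁻¹ * (cstk A b)⁻¹) ^ p = coeffMap (kι K₀ A) s := by
    have e2 : cstk A (resA A a) = cstk A b ^ p := by rw [← hb, cstk, cstk, map_pow]
    rw [e2] at hra
    rw [mul_pow, inv_pow, inv_pow, ← hra]
    field_simp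
  have hΨmem : ρ⁻¹ * (cstk A b)⁻¹ ∈ modularFunctionFieldFullC (kA A) M :=
    mul_mem (inv_mem hρmem) (inv_mem (IntermediateField.algebraMap_mem _ b))
  have hfin : Finite (IsLocalRing.ResidueField (A0 K₀ A)) :=
    finite_residueField _ (Fermat.Agent.Crux.A0_ne_top K₀ A hp hA)
  have hfp : Fact p.Prime := ⟨hp⟩
  have hch' : CharP (kA A) p := charP_kA hp hA
  have hch : CharP (IsLocalRing.ResidueField (A0 K₀ A)) p :=
    (RingHom.charP_iff (kι K₀ A) (kι K₀ A).injective p).mpr hch'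
  obtain ⟨ψ, hψ1, hψ2⟩ := exists_pth_root_descent p (kι K₀ A) s _ hΨ
  refine ⟨ψ, ?_, ?_, hψ2⟩
  · refine Fermat.Agent.Crux.GM.mem_full_of_coeffMap_mem M _ _ (kι K₀ A) ?_ ψ (by rwa [hψ1])
    intro q hq hqM h0
    have h6 : p ∣ q := (CharP.cast_eq_zero_iff (IsLocalRing.ResidueField (A0 K₀ A)) p q).mp h0
    exact hpM (((Nat.prime_dvd_prime_iff_eq hp hq).mp h6) ▸ hqM)
  · rintro rfl
    rw [zero_pow hp.ne_zero] at hψ2
    exact hs hψ2.symm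

/-! ### TASK `S44/PL-DA-Tau` -/

/-- an element of inertia acting nontrivially on `μ_p`, restricted to `K₀`, `A₀`, `k₀`.
`S33.exists_inertia_omegaNe` gives `s`; `S33.exists_cyc` gives `e`; `e ≢ 1` because `s ζ ≠ ζ` for the primitive `ζ` (`IsPrimitiveRoot.pow_inj`-type), `p ∤ e` because `ζ^e = s ζ` is primitive.
`σ₀ := s|K₀` (`hstab`), `τA := σ₀|A₀` (`s ∈ I ⊆ D_A` stabilises `A`); `r₀ (τA a) = r₀ a`: inertia acts trivially on `k_A` and `kι` is injective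
(or use `τk := IsLocalRing.ResidueField.map τA` as in `SS/GM2/Desc/Tau.lean` and change the statement accordingly: only `∃ τk` is needed).
`τA π = ζ^e - 1 = π * ∑_{i<e} ζ^i`, and `∑_{i<e} ζ^i ≡ e mod π` is a unit (`Wild.geom_sum_eq_add`). -/
theorem exists_tau0 [NumberField K₀] (hp : p.Prime) (hp2 : p ≠ 2) (hA : A.LiesOverPrime p)
    (ζ : K₀) (hζ : IsPrimitiveRoot ζ p) (π : A0 K₀ A) (hπ : Irreducible π) (hπζ : (π : K₀) = ζ - 1)
    (hstab : ∀ s ∈ A.inertiaSubgroupIn ℚ, ∀ x ∈ K₀, s x ∈ K₀) :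
    ∃ (s : GQ) (e : ℕ) (σ₀ : K₀ →+* K₀) (τA : A0 K₀ A →+* A0 K₀ A)
      (τk : IsLocalRing.ResidueField (A0 K₀ A) →+* IsLocalRing.ResidueField (A0 K₀ A))
      (u u' : A0 K₀ A),
      s ∈ A.inertiaSubgroupIn ℚ ∧ (∀ z : Qb, z ^ p = 1 → s z = z ^ e) ∧ ¬ (p : ℤ) ∣ (e : ℤ) - 1 ∧
      (∀ x, algebraMap K₀ Qb (σ₀ x) = s (algebraMap K₀ Qb x)) ∧
      (∀ a, σ₀ (algebraMap (A0 K₀ A) K₀ a) = algebraMap (A0 K₀ A) K₀ (τA a)) ∧
      (∀ a, r0 K₀ A (τA a) = τk (r0 K₀ A a)) ∧ u * u' = 1 ∧ τA π = π * u := by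
  classical
  obtain ⟨s, hs, ξ, hξ, hξne⟩ := Fermat.Agent.S33.Soft.exists_inertia_omegaNe hp hp2 A hA
  obtain ⟨e, he⟩ : ∃ e : ℕ, ∀ z : Qb, z ^ p = 1 → s z = z ^ e := by
    obtain ⟨ζ₀, h₀⟩ := HasEnoughRootsOfUnity.exists_primitiveRoot Qb p
    have h1 : (s ζ₀) ^ p = 1 := by rw [← map_pow, h₀.pow_eq_one, map_one]
    obtain ⟨e, -, he⟩ := h₀.eq_pow_of_pow_eq_one h1
    refine ⟨e, fun z hz => ?_⟩
    obtain ⟨i, -, rfl⟩ := h₀.eq_pow_of_pow_eq_one hz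
    rw [map_pow, ← he, ← pow_mul, ← pow_mul, mul_comm]
  have hs' := hs
  obtain ⟨τ, -, hτs⟩ : ∃ τ ∈ A.inertiaSubgroup ℚ, (A.decompositionSubgroup ℚ).subtype τ = s := hs'
  have hτs' : (τ : GQ) = s := hτs
  -- `e ≢ 1`
  have he1 : ¬ (p : ℤ) ∣ (e : ℤ) - 1 := by
    rintro ⟨j, hj⟩
    apply hξne
    have hξ0 : ξ ≠ 0 := by
      rintro rfl
      rw [zero_pow hp.ne_zero] at hξ
      exact zero_ne_one hξ
    have h1 : ξ ^ ((e : ℤ) - 1) = 1 := by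
      rw [hj, zpow_mul, zpow_natCast, hξ, one_zpow]
    rw [zpow_sub₀ hξ0, zpow_natCast, zpow_one, div_eq_one_iff_eq hξ0] at h1
    rw [he ξ hξ, h1]
  -- `ζ` in `ℚ̄`
  have hζp : (algebraMap K₀ Qb ζ) ^ p = 1 := by rw [← map_pow, hζ.pow_eq_one, map_one]
  have hsζ : s (algebraMap K₀ Qb ζ) = algebraMap K₀ Qb (ζ ^ e) := by rw [he _ hζp, map_pow]
  -- `p ∤ e`
  have hpe : ¬ p ∣ e := by
    rintro ⟨j, rfl⟩
    rw [pow_mul, hζ.pow_eq_one, one_pow, map_one] at hsζ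
    have h1 : algebraMap K₀ Qb ζ = 1 := by
      apply s.injective
      rw [hsζ, map_one]
    have h2 : ζ = 1 := (algebraMap K₀ Qb).injective (by rw [h1, map_one])
    exact hζ.ne_one hp.one_lt h2
  -- `σ₀`
  let σ₀ : K₀ →+* K₀ := ((s : Qb →+* Qb).comp (algebraMap K₀ Qb)).codRestrict K₀
    (fun x => hstab s hs x x.2)
  have hσ₀ : ∀ x, algebraMap K₀ Qb (σ₀ x) = s (algebraMap K₀ Qb x) := fun x => rfl
  have hσζ : σ₀ ζ = ζ ^ e := (algebraMap K₀ Qb).injective (by rw [hσ₀, hsζ])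
  -- `τA`
  let inc : A0 K₀ A → A := fun a => ⟨algebraMap K₀ Qb a, a.2⟩
  have hmem : ∀ a : A0 K₀ A, (σ₀.comp (A0 K₀ A).subtype) a ∈ A0 K₀ A := by
    intro a
    show algebraMap K₀ Qb (σ₀ a) ∈ A
    rw [hσ₀, ← hτs']
    exact (galA τ (inc a)).2
  let τA : A0 K₀ A →+* A0 K₀ A := (σ₀.comp (A0 K₀ A).subtype).codRestrict (A0 K₀ A) hmem
  have hcoe : ∀ a : A0 K₀ A, algebraMap K₀ Qb ((τA a : A0 K₀ A) : K₀) = (galA τ (inc a) : A) := by
    intro a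
    show algebraMap K₀ Qb (σ₀ a) = (τ : GQ) (algebraMap K₀ Qb a)
    rw [hσ₀, hτs']
  have hsm : ∀ b : A, IsLocalRing.residue A (galA τ b) = τ • IsLocalRing.residue A b :=
    fun b => IsLocalRing.ResidueField.residue_smul _ τ b
  have hzero : ∀ a : A0 K₀ A, IsLocalRing.residue (A0 K₀ A) a = 0 →
      IsLocalRing.residue (A0 K₀ A) (τA a) = 0 := by
    intro a ha
    have h1 := (Crux.residue_comap_eq_zero_iff (algebraMap K₀ Qb) A a (inc a) rfl).mp ha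
    refine (Crux.residue_comap_eq_zero_iff (algebraMap K₀ Qb) A (τA a) (galA τ (inc a))
      (hcoe a)).mpr ?_
    rw [hsm, h1, smul_zero]
  haveI : IsLocalHom τA := ⟨fun a ha => by
    by_contra hu
    have h0 : IsLocalRing.residue (A0 K₀ A) a = 0 :=
      (IsLocalRing.residue_eq_zero_iff a).mpr ((IsLocalRing.mem_maximalIdeal a).mpr hu)
    have h1 := hzero a h0
    rw [IsLocalRing.residue_eq_zero_iff, IsLocalRing.mem_maximalIdeal] at h1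
    exact h1 ha⟩
  -- the unit
  have hchar : CharP (IsLocalRing.ResidueField (A0 K₀ A)) p := by
    have h0 : ((p : ℕ) : IsLocalRing.ResidueField (A0 K₀ A)) = 0 := by
      rw [← map_natCast (IsLocalRing.residue (A0 K₀ A))]; exact Crux.residue_A0_natCast K₀ A hA
    exact (CharP.charP_iff_prime_eq_zero hp).mpr h0
  have hζA : ζ ∈ A0 K₀ A := by
    show algebraMap K₀ Qb ζ ∈ A
    exact mem_of_pow_eq_one A hp.ne_zero hζp
  obtain ⟨ζA, hζA'⟩ : ∃ z : A0 K₀ A, (z : K₀) = ζ := ⟨⟨ζ, hζA⟩, rfl⟩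
  have hπζA : π = ζA - 1 := Subtype.ext (by rw [hπζ]; simp [hζA'])
  have hresπ : IsLocalRing.residue (A0 K₀ A) π = 0 :=
    (IsLocalRing.residue_eq_zero_iff π).mpr ((IsLocalRing.mem_maximalIdeal π).mpr hπ.not_isUnit)
  have hresζ : IsLocalRing.residue (A0 K₀ A) ζA = 1 := by
    rw [hπζA, map_sub, map_one, sub_eq_zero] at hresπ
    exact hresπ
  have hu : IsUnit (∑ i ∈ Finset.range e, ζA ^ i) := by
    by_contra hu
    have h0 : IsLocalRing.residue (A0 K₀ A) (∑ i ∈ Finset.range e, ζA ^ i) = 0 :=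
      (IsLocalRing.residue_eq_zero_iff _).mpr ((IsLocalRing.mem_maximalIdeal _).mpr hu)
    rw [map_sum] at h0
    simp only [map_pow, hresζ, one_pow, Finset.sum_const, Finset.card_range, nsmul_eq_mul,
      mul_one] at h0
    exact hpe ((CharP.cast_eq_zero_iff _ p e).1 h0)
  obtain ⟨v, hv⟩ := hu
  refine ⟨s, e, σ₀, τA, IsLocalRing.ResidueField.map τA, (v : A0 K₀ A), ((v⁻¹ : (A0 K₀ A)ˣ) : A0 K₀ A),
    hs, he, he1, hσ₀, fun a => rfl, fun a => (IsLocalRing.ResidueField.map_residue τA a).symm,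
    v.mul_inv, ?_⟩
  rw [hv, hπζA, mul_geom_sum]
  apply Subtype.ext
  show σ₀ ((ζA - 1 : A0 K₀ A) : K₀) = ((ζA ^ e - 1 : A0 K₀ A) : K₀)
  have h1 : ((ζA - 1 : A0 K₀ A) : K₀) = ζ - 1 := by simp [hζA']
  have h2 : ((ζA ^ e - 1 : A0 K₀ A) : K₀) = ζ ^ e - 1 := by simp [hζA']
  rw [h1, h2, map_sub, map_one, hσζ]

/-! ### TASK `S44/PL-DA-Main` -/

/-- `InK1` is stable under `±1`: for `ε = -1` take the inverse representative (`Kum.mk_inv`); `RedConst A u⁻¹` by exchanging `y₁`, `y₂` and `c ↦ c⁻¹`. -/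
theorem inK1_of_eps {N m : ℕ} {y₀ y₁ : Kum N m} (hk1 : InK1 A y₀) (ε : ℤ) (hε : ε = 1 ∨ ε = -1)
    (h : y₁ = ε • y₀) : InK1 A y₁ := by
  rcases hε with rfl | rfl
  · rw [h, one_smul]
    exact hk1
  · obtain ⟨u, rfl, c, z₁, z₂, hc, h1, h2, h3, h4, h5⟩ := hk1
    refine ⟨u⁻¹, by rw [h, Kum.mk_inv, neg_smul, one_smul], c⁻¹, z₂, z₁, inv_ne_zero hc, h2, h1,
      h3.symm, by rw [h3]; exact h4, ?_⟩
    have hu0 : ((((u : (FF N)ˣ) : FF N)) : LaurentSeries Qb) ≠ 0 := by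
      intro h0
      exact (u : (FF N)ˣ).ne_zero (Subtype.ext h0)
    have hc0 : algebraMap Qb (LaurentSeries Qb) c ≠ 0 := by
      rwa [Ne, map_eq_zero]
    have hinv : (((((u⁻¹ : Dm N m) : (FF N)ˣ) : FF N)) : LaurentSeries Qb)
        = ((((u : (FF N)ˣ) : FF N)) : LaurentSeries Qb)⁻¹ := by
      rw [Subgroup.coe_inv, Units.val_inv_eq_inv_val]
      rfl
    rw [hinv, ← h5, map_inv₀]
    field_simp

/-- (task PL-DA-Main) the common argument for `W₀` and `w W₀`. -/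
theorem DAMain_core [NumberField K₀] [IsDiscreteValuationRing (A0 K₀ A)] (hp : p.Prime)
    (hpM : ¬ p ∣ M) (hA : A.LiesOverPrime p) (π : A0 K₀ A) (hπ : Irreducible π) {e : ℕ}
    (he : ¬ (p : ℤ) ∣ (e : ℤ) - 1) (σ₀ : K₀ →+* K₀) (τA : A0 K₀ A →+* A0 K₀ A)
    (τk : IsLocalRing.ResidueField (A0 K₀ A) →+* IsLocalRing.ResidueField (A0 K₀ A))
    (a a' : A0 K₀ A)
    (hσA : ∀ a, σ₀ (algebraMap (A0 K₀ A) K₀ a) = algebraMap (A0 K₀ A) K₀ (τA a))
    (hτk : ∀ a, r0 K₀ A (τA a) = τk (r0 K₀ A a)) (haa : a * a' = 1) (hτπ : τA π = π * a)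
    (W k₀ : LaurentSeries K₀) (hW : W ∈ modularFunctionFieldFullC K₀ (M * p)) (hW0 : W ≠ 0)
    (hk₀ : k₀ ∈ modularFunctionFieldFullC K₀ (M * p)) (hrel : coeffMap σ₀ W = W ^ e * k₀ ^ p)
    (u : Dm (M * p) p) (hK1 : InK1 A (Kum.mk u))
    (hWu : bc K₀ W = (((u : (FF (M * p))ˣ) : FF (M * p)) : LL)) :
    ∃ (n : ℤ) (ψ : LaurentSeries (IsLocalRing.ResidueField (A0 K₀ A))),
      ψ ∈ modularFunctionFieldFullC (IsLocalRing.ResidueField (A0 K₀ A)) M ∧ ψ ≠ 0 ∧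
      RedK (r0 K₀ A) (W * lam K₀ π ^ ((p : ℤ) * n)) (ψ ^ p) := by
  have hr : Function.Surjective (r0 K₀ A) := IsLocalRing.residue_surjective
  obtain ⟨m, U, s, hs, hU, hWU⟩ := RedK.pivot hr hπ hW hW0
  obtain ⟨j, rfl⟩ := dvd_of_semilinear hp he hr hπ σ₀ τA τk hσA hτk a a' haa hτπ hk₀ hW0 hrel hs hU
    hWU
  have hπ0 : algebraMap (A0 K₀ A) K₀ π ≠ 0 := by
    rw [Ne, map_eq_zero_iff _ (IsFractionRing.injective (A0 K₀ A) K₀)]
    exact hπ.ne_zero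
  have hlam0 : (lam K₀ π : LaurentSeries K₀) ≠ 0 := by
    rw [Ne, map_eq_zero_iff _ HahnSeries.C_injective]
    exact hπ0
  obtain ⟨ψ, hψ, hψ0, hψs⟩ := exists_psi K₀ hp hpM hA u hK1 W U
    (algebraMap (A0 K₀ A) K₀ π ^ ((p : ℤ) * j)) (zpow_ne_zero _ hπ0) hWu
    (by rw [hWU, map_zpow₀]) hs hU
  refine ⟨-j, ψ, hψ, hψ0, ?_⟩
  have h1 : W * lam K₀ π ^ ((p : ℤ) * -j) = U := by
    rw [hWU, mul_neg, zpow_neg, mul_comm, ← mul_assoc, inv_mul_cancel₀ (zpow_ne_zero _ hlam0),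
      one_mul]
  rw [h1, hψs]
  exact hU

/-- **(h2).**  `haveI : IsDiscreteValuationRing (A0 K₀ A) := Crux.isDiscreteValuationRing_of_numberField _ (Crux.A0_ne_top K₀ A hp hA)`.
`exists_tau0`, `htor`, `exists_semilinear`: `coeffMap σ₀ W₀ = W₀^e k₀^p`.  Apply `wK` (`hwK.comm_coeffMap hp σ₀`, `map_mul`, `map_pow`): `coeffMap σ₀ (wK W₀) = (wK W₀)^e (wK k₀)^p`.
For `W ∈ {W₀, wK W₀}`: `RedK.pivot`: `W = lam^m U`; `dvd_of_semilinear`: `m = p * j`, `n := -j`; `exists_psi` (`c := π^m`; for `wK W₀` with `⟨wU w u, _⟩`, `wKum_mk`, `hwK'`). -/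
theorem h2 [NumberField K₀] (hp : p.Prime) (hp2 : p ≠ 2) (hpM : ¬ p ∣ M) (hA : A.LiesOverPrime p)
    {w : FF (M * p) →ₐ[Qb] FF (M * p)} (hw : IsAL M p w)
    (wK : modularFunctionFieldFullC K₀ (M * p) →ₐ[K₀] modularFunctionFieldFullC K₀ (M * p))
    (hwK : IsALK K₀ M p wK)
    (hwK' : ∀ (f : modularFunctionFieldFullC K₀ (M * p)) (f' : FF (M * p)),
      (f' : LL) = bc K₀ (f : LaurentSeries K₀) →
        ((w f' : FF (M * p)) : LL) = bc K₀ ((wK f : _) : LaurentSeries K₀))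
    (ζ : K₀) (hζ : IsPrimitiveRoot ζ p) (π : A0 K₀ A) (hπ : Irreducible π) (hπζ : (π : K₀) = ζ - 1)
    (hstab : ∀ s ∈ A.inertiaSubgroupIn ℚ, ∀ x ∈ K₀, s x ∈ K₀)
    (u : Dm (M * p) p) (hk1 : InK1 A (Kum.mk u)) (hk1w : InK1 A (wKum hw hp p (Kum.mk u)))
    (htor : ∀ s ∈ A.inertiaSubgroupIn ℚ, ∀ e : ℕ, (∀ z : Qb, z ^ p = 1 → s z = z ^ e) →
      galKum (M * p) p s (Kum.mk u) = e • Kum.mk u)
    (W₀ : modularFunctionFieldFullC K₀ (M * p))
    (hW₀ : bc K₀ (W₀ : LaurentSeries K₀) = (((u : (FF (M * p))ˣ) : FF (M * p)) : LL))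
    (hlc : (W₀ : LaurentSeries K₀).leadingCoeff = 1) :
    ∃ (n₁ n₂ : ℤ) (ψ₁ ψ₂ : LaurentSeries (IsLocalRing.ResidueField (A0 K₀ A))),
      ψ₁ ∈ modularFunctionFieldFullC (IsLocalRing.ResidueField (A0 K₀ A)) M ∧
      ψ₂ ∈ modularFunctionFieldFullC (IsLocalRing.ResidueField (A0 K₀ A)) M ∧ ψ₁ ≠ 0 ∧ ψ₂ ≠ 0 ∧
      RedK (r0 K₀ A) ((W₀ : LaurentSeries K₀) * lam K₀ π ^ ((p : ℤ) * n₁)) (ψ₁ ^ p) ∧
      RedK (r0 K₀ A) (((wK W₀ : _) : LaurentSeries K₀) * lam K₀ π ^ ((p : ℤ) * n₂)) (ψ₂ ^ p) := by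
  haveI : IsDiscreteValuationRing (A0 K₀ A) :=
    Fermat.Agent.Crux.isDiscreteValuationRing_of_numberField _
      (Fermat.Agent.Crux.A0_ne_top K₀ A hp hA)
  obtain ⟨s, e, σ₀, τA, τk, a, a', hsI, hse, he1, hσ₀, hσA, hτk, haa, hτπ⟩ :=
    exists_tau0 K₀ hp hp2 hA ζ hζ π hπ hπζ hstab
  obtain ⟨k₀, hk₀, hrel⟩ := exists_semilinear K₀ hp (M * p) ζ hζ s σ₀ hσ₀ e u (htor s hsI e hse)
    (W₀ : LaurentSeries K₀) hW₀ hlc
  have hW0 : (W₀ : LaurentSeries K₀) ≠ 0 := by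
    intro h
    rw [h, HahnSeries.leadingCoeff_zero] at hlc
    exact zero_ne_one hlc
  have hW0' : W₀ ≠ 0 := fun h => hW0 (by rw [h]; rfl)
  have hwW0 : ((wK W₀ : _) : LaurentSeries K₀) ≠ 0 := by
    intro h
    have h1 : wK W₀ = 0 := Subtype.ext h
    exact hW0' ((map_eq_zero wK).1 h1)
  have hrel' : coeffMap σ₀ ((wK W₀ : _) : LaurentSeries K₀)
      = ((wK W₀ : _) : LaurentSeries K₀) ^ e * ((wK ⟨k₀, hk₀⟩ : _) : LaurentSeries K₀) ^ p := by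
    rw [hwK.comm_coeffMap hp σ₀ W₀]
    have h1 : (⟨coeffMap σ₀ (W₀ : LaurentSeries K₀),
        Fermat.Agent.S28.coeffMap_mem_full σ₀ _ W₀.2⟩ : modularFunctionFieldFullC K₀ (M * p))
        = W₀ ^ e * (⟨k₀, hk₀⟩ : modularFunctionFieldFullC K₀ (M * p)) ^ p := Subtype.ext hrel
    rw [h1, map_mul, map_pow, map_pow]
    rfl
  rw [wKum_mk] at hk1w
  obtain ⟨n₁, ψ₁, hψ₁, hψ₁0, hR₁⟩ := DAMain_core K₀ hp hpM hA π hπ he1 σ₀ τA τk a a' hσA hτk haa hτπ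
    (W₀ : LaurentSeries K₀) k₀ W₀.2 hW0 hk₀ hrel u hk1 hW₀
  obtain ⟨n₂, ψ₂, hψ₂, hψ₂0, hR₂⟩ := DAMain_core K₀ hp hpM hA π hπ he1 σ₀ τA τk a a' hσA hτk haa hτπ
    ((wK W₀ : _) : LaurentSeries K₀) _ (wK W₀).2 hwW0 (wK ⟨k₀, hk₀⟩).2 hrel'
    ⟨wU w u, hw.wU_mem_Dm hp u.2⟩ hk1w (hwK' W₀ ((u : (FF (M * p))ˣ) : FF (M * p)) hW₀.symm).symm
  exact ⟨n₁, n₂, ψ₁, ψ₂, hψ₁, hψ₂, hψ₁0, hψ₂0, hR₁, hR₂⟩

end Fermat.Agent.S44.PL
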