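import Fermat.Agent.SS.GM2.Core
import Fermat.Agent.Wild.ChartP
import Fermat.Agent.S44.PL.Alg
import Fermat.Agent.Crux.G.Lifts

/-!
# S44 / PL / Ctx : the abstract two-chart context of the cover structure `(C0)`  (board #2328, #2712)

Setting of `SS/GM2/Core.lean` with `ℓ = p`:  `A` a DVR, `K = Frac A`, `r : A → k` the residue map (`k` finite),
`Φ : F → K((q))` with image `F_K(M p)`, `w` the Atkin-Lehner involution, `E = K(X) ⊆ F`, `Φ X = j(q^M) j(q^(Mp))`.
NEW: `ζ ∈ A` a primitive `p`-th root of unity and **`π = ζ - 1` is the uniformiser**.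
`ρ₁ f = ` reduction of `Φ f`, `ρ₂ f =` reduction of `Φ (w f)`  (relation `RedK r`).
`O_F = {IsOLx π X}` (both reductions exist), `π O_F = {IsPiOLx π X}` (both are `0`),
`M₀ = {IntX A X}`, `M_∞ = {IntX A X⁻¹}`.

TASKS (project S44): `S44/PL-CtxA` (`exists_sf0/inf`, `chart0/inf`), `S44/PL-Const` (`const_of_isIntegralElem_both`, `Ctx.not_both`, `Ctx.h0bar`),
`S44/PL-Ev` (`Ctx.coeff_of_intX_inv`, `Ctx.exists_ev`), `S44/PL-TwoCharts` (`Ctx.twoCharts`, `Ctx.unit_of_dvd`).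
-/

set_option autoImplicit false
set_option linter.unusedSectionVars false
set_option linter.style.haveILetI false

open Polynomial ModularCurve

namespace Fermat.Agent.S44.PL

open Fermat.Agent.Crux.G Fermat.Agent.SS.G2 Fermat.Agent.SS.GM2 Fermat.Agent.Wild
open Fermat.Agent.S28 (V J evAt)
open Fermat.Agent.Crux.GM (castS)

variable {M p : ℕ} [NeZero M] [NeZero p]
variable {A K k : Type} [CommRing A] [IsDomain A] [IsDiscreteValuationRing A] [Field K]
  [CharZero K] [Algebra A K] [IsFractionRing A K] [Field k] [Finite k]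
  {r : A →+* k} {π : A}
variable {F : Type} [Field F] [Algebra A F] {Φ : F →+* LaurentSeries K} {w : F →+* F}
variable {E : Type} [Field E] [CharZero E] [Algebra A E] [Algebra E F] [IsScalarTower A E F]
  [FiniteDimensional E F]

variable (M p r π Φ w) in
/-- the two-chart context. -/
structure Ctx (X : E) (ζ : A) : Prop where
  S : Setup M p r π Φ w
  hX : Φ (algebraMap E F X) = castS K (Xh M p)
  hXt : Transcendental A X
  hgen : ∀ c : E, ∃ P Q : A[X], Q ≠ 0 ∧ c * aeval X Q = aeval X P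
  wX : w (algebraMap E F X) = algebraMap E F X
  hζ : IsPrimitiveRoot ζ p
  hπ : π = ζ - 1
  hp2 : p ≠ 2
  ql : QL M r π Φ w (algebraMap E F X)
  lift0 : ∀ a ∈ modularFunctionFieldFullC k M, (evAt (castS k (Xh M p))).IsIntegralElem a →
    ∃ c : F, IntX A X c ∧ RedK r (Φ c) a ∧ RedK r (Φ (w c)) (V k p a)
  liftinf : ∀ a ∈ modularFunctionFieldFullC k M, (evAt (castS k (Xh M p))⁻¹).IsIntegralElem a →
    ∃ c : F, IntX A X⁻¹ c ∧ RedK r (Φ c) a ∧ RedK r (Φ (w c)) (V k p a)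

/-! ### TASK `S44/PL-Const` -/

theorem Ctx_evAt_mem {κ : Type*} [Field κ] (W : ValuationSubring (LaurentSeries κ))
    (hW : ∀ c : κ, (HahnSeries.C c : LaurentSeries κ) ∈ W) {t : LaurentSeries κ} (ht : t ∈ W)
    (P : κ[X]) : evAt t P ∈ W := by
  induction P using Polynomial.induction_on' with
  | add p q hp hq => rw [map_add]; exact add_mem hp hq
  | monomial n a =>
    have : evAt t (monomial n a) = HahnSeries.C a * t ^ n := by
      simp [evAt]
    rw [this]
    exact mul_mem (hW a) (pow_mem ht n)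

/-- **CONST.**  `Crux.G.Conn.isIntegral_of_mem_of_mem` (valuation rings; `A₀ := κ`, `L := κ((q))`) gives `IsIntegral κ a`;
then `a` is a constant (`Crux.GM.H0_of_Phi`-type argument / `Crux.GM.eq_C_of_isIntegralElem`). -/
theorem const_of_isIntegralElem_both {κ : Type*} [Field κ]
    {t a : LaurentSeries κ} (h0 : (evAt t).IsIntegralElem a) (h1 : (evAt t⁻¹).IsIntegralElem a) :
    ∃ c : κ, a = HahnSeries.C c := by
  have hint : (HahnSeries.C : κ →+* LaurentSeries κ).IsIntegralElem a := by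
    apply isIntegralElem_of_forall_valuationSubring
    intro W hW
    rcases W.mem_or_inv_mem t with ht | ht
    · exact Fermat.Agent.S28.IntVal.mem_of_isIntegralElem W (evAt t)
        (fun c => Ctx_evAt_mem W hW ht c) h0
    · exact Fermat.Agent.S28.IntVal.mem_of_isIntegralElem W (evAt t⁻¹)
        (fun c => Ctx_evAt_mem W hW ht c) h1
  obtain ⟨P, hP, hroot⟩ := hint
  refine Fermat.Agent.Crux.GM.eq_C_of_isAlgebraic a ⟨P, hP.ne_zero, ?_⟩
  rw [Polynomial.aeval_def, Fermat.Agent.Crux.GM.AlgClosed.algebraMap_eq_C]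
  exact hroot

/-! ### helpers for TASK `S44/PL-Ev` (Mathlib only) -/

/-- a Laurent series without negative coefficients is a power series. -/
theorem Ev_exists_powerSeries {K : Type*} [Field K] (z : LaurentSeries K)
    (h : ∀ n : ℤ, n < 0 → z.coeff n = 0) : ∃ Z : PowerSeries K, (Z : LaurentSeries K) = z := by
  refine ⟨PowerSeries.mk fun n => z.coeff n, ?_⟩
  ext i
  rw [PowerSeries.coeff_coe]
  split_ifs with hi
  · exact (h i hi).symm
  · rw [PowerSeries.coeff_mk, Int.natAbs_of_nonneg (not_lt.mp hi)]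

theorem Ev_coeff_zero {K : Type*} [Field K] (Z : PowerSeries K) :
    (Z : LaurentSeries K).coeff 0 = PowerSeries.constantCoeff Z := by
  rw [PowerSeries.coeff_coe]
  simp

theorem Ev_coeff_neg {K : Type*} [Field K] (Z : PowerSeries K) {n : ℤ} (hn : n < 0) :
    (Z : LaurentSeries K).coeff n = 0 := by
  rw [PowerSeries.coeff_coe, if_pos hn]

/-- the abstract statement: `y` integral over `A[T]`, `T ∈ q K[[q]]`. -/
theorem Ev_main {A K : Type*} [CommRing A] [IsDomain A] [IsIntegrallyClosed A] [Field K]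
    [Algebra A K] [IsFractionRing A K] (T₀ : PowerSeries K) (hT₀ : PowerSeries.constantCoeff T₀ = 0)
    (y : LaurentSeries K)
    (hy : (Polynomial.eval₂RingHom ((HahnSeries.C : K →+* LaurentSeries K).comp (algebraMap A K))
      (T₀ : LaurentSeries K)).IsIntegralElem y) :
    ∃ Y : PowerSeries K, (Y : LaurentSeries K) = y ∧
      ∃ a : A, algebraMap A K a = PowerSeries.constantCoeff Y := by
  obtain ⟨P, hP, hPy⟩ := hy
  let ψ : A[X] →+* PowerSeries K :=
    Polynomial.eval₂RingHom ((PowerSeries.C : K →+* PowerSeries K).comp (algebraMap A K)) T₀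
  have hψ : (algebraMap (PowerSeries K) (LaurentSeries K)).comp ψ =
      Polynomial.eval₂RingHom ((HahnSeries.C : K →+* LaurentSeries K).comp (algebraMap A K))
        (T₀ : LaurentSeries K) := by
    refine Polynomial.ringHom_ext (fun a => ?_) ?_
    · simp [ψ]
    · simp [ψ]
  have hint : IsIntegral (PowerSeries K) y := by
    refine ⟨P.map ψ, hP.map ψ, ?_⟩
    rw [Polynomial.eval₂_map, hψ]
    exact hPy
  obtain ⟨Y, hY⟩ := IsIntegrallyClosed.isIntegral_iff.mp hint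
  refine ⟨Y, hY, ?_⟩
  have h1 : (P.map ψ).eval Y = 0 := by
    apply IsFractionRing.injective (PowerSeries K) (LaurentSeries K)
    rw [map_zero, ← Polynomial.eval₂_at_apply, hY, Polynomial.eval₂_map, hψ]
    exact hPy
  have hc : (PowerSeries.constantCoeff (R := K)).comp ψ =
      (algebraMap A K).comp (Polynomial.evalRingHom 0) := by
    refine Polynomial.ringHom_ext (fun a => ?_) ?_
    · simp [ψ]
    · simp [ψ, hT₀]
  have h2 : IsIntegral A (PowerSeries.constantCoeff Y) := by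
    refine ⟨P.map (Polynomial.evalRingHom 0), hP.map _, ?_⟩
    have h3 := congrArg (PowerSeries.constantCoeff (R := K)) h1
    rw [map_zero, Polynomial.eval_map, Polynomial.hom_eval₂, hc] at h3
    rw [Polynomial.eval₂_map]
    exact h3
  exact IsIntegrallyClosed.isIntegral_iff.mp h2

variable {X : E} {ζ : A}

namespace Ctx

variable (C : Ctx M p r π Φ w X ζ)
include C

theorem hp : p.Prime := C.S.hℓ

theorem irr : Irreducible π := C.S.hπ

theorem X_ne_zero : X ≠ 0 := fun h => C.hXt (h ▸ isAlgebraic_zero)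

theorem isOLx_iff (f : F) :
    IsOLx π X f ↔ ∃ a₁ a₂, RedK r (Φ f) a₁ ∧ RedK r (Φ (w f)) a₂ :=
  ⟨fun h => C.ql.red f ((isOLx_algebraMap_iff π X f).2 h),
    fun ⟨a₁, a₂, h₁, h₂⟩ => (isOLx_algebraMap_iff π X f).1 (C.ql.isOL f a₁ a₂ h₁ h₂)⟩

theorem isPiOLx_iff (f : F) :
    IsPiOLx π X f ↔ RedK r (Φ f) 0 ∧ RedK r (Φ (w f)) 0 :=
  ⟨fun h => C.ql.red0 f ((isPiOLx_algebraMap_iff π X f).2 h),
    fun ⟨h₁, h₂⟩ => (isPiOLx_algebraMap_iff π X f).1 (C.ql.isPiOL f h₁ h₂)⟩

theorem mem₁ {f : F} {a₁ a₂ : LaurentSeries k} (h₁ : RedK r (Φ f) a₁) (h₂ : RedK r (Φ (w f)) a₂) :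
    a₁ ∈ modularFunctionFieldFullC k M := C.ql.mem f a₁ a₂ h₁ h₂

theorem mem₂ {f : F} {a₁ a₂ : LaurentSeries k} (h₁ : RedK r (Φ f) a₁) (h₂ : RedK r (Φ (w f)) a₂) :
    a₂ ∈ modularFunctionFieldFullC k M := C.ql.mem₂ C.S f a₁ a₂ h₁ h₂

/-- `π ∣ p` in `A`. -/
theorem pi_dvd_p : π ∣ (p : A) :=
  Fermat.Agent.Crux.GM.dvd_of_map_eq_zero r C.S.hr C.S.hπ C.S.hrℓ

theorem redX : RedK r (Φ (algebraMap E F X)) (castS k (Xh M p)) := by
  rw [C.hX]; exact RedK.of_castS _

/-! ### TASK `S44/PL-CtxA` -/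

/-- (CtxA helper) an exponent `ν` with `x ^ (p ^ (2 ν)) = x` on the finite field `k`. -/
theorem CtxA_exists_nu : ∃ ν : ℕ, ∀ a : A, r (RingHom.id A a) = r a ^ (p ^ (2 * ν)) := by
  classical
  haveI : Fact p.Prime := ⟨C.hp⟩
  haveI hchar : CharP k p := by
    have : (p : k) = 0 := by rw [← map_natCast r, C.S.hrℓ]
    exact (CharP.charP_iff_prime_eq_zero C.hp).mpr this
  letI : Fintype k := Fintype.ofFinite k
  obtain ⟨n, -, hn⟩ := FiniteField.card k p
  refine ⟨n, fun a => ?_⟩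
  rw [RingHom.id_apply, two_mul, pow_add, pow_mul, ← hn, FiniteField.pow_card,
    FiniteField.pow_card]

/-- `Setup.exists_sfDatax` with `τ = id`, `τK = id`, `τA = id`, `ν = n` where `#k = p^n` (`FiniteField.pow_card`), `ε` from
`Setup.exists_eps`; the other arguments exactly as in `SS.GM2.core2_abstract`. -/
theorem exists_sf0 : ∃ (x₁ x₂ : LaurentSeries k) (Z : Type) (_ : CommRing Z),
    Nonempty (SFDatax C.S.hπ.prime X F k (Pr x₁ x₂) Z) := by
  haveI : Fact p.Prime := ⟨C.hp⟩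
  haveI hchar : CharP k p := by
    have : (p : k) = 0 := by rw [← map_natCast r, C.S.hrℓ]
    exact (CharP.charP_iff_prime_eq_zero C.hp).mpr this
  obtain ⟨ν, hν⟩ := C.CtxA_exists_nu
  obtain ⟨ε, hε₁, hε₂, -⟩ := C.S.exists_eps
  obtain ⟨x₁, x₂, Z, iZ, D0, -⟩ := C.S.exists_sfDatax X (castS k (Xh M p)) C.redX C.wX
    (V_castS k p _) (fun σ => Fermat.Agent.Crux.GM.coeffMap_castS σ _) C.ql C.lift0
    (RingHom.id F) (RingHom.id K) (RingHom.id A) (fun _ => rfl)
    (fun f => by rw [coeffMap_id, RingHom.id_apply]) (fun _ => rfl) ν hν ε hε₁ hε₂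
  exact ⟨x₁, x₂, Z, iZ, ⟨D0⟩⟩

theorem exists_sfinf : ∃ (x₁ x₂ : LaurentSeries k) (Z : Type) (_ : CommRing Z),
    Nonempty (SFDatax C.S.hπ.prime X⁻¹ F k (Pr x₁ x₂) Z) := by
  haveI : Fact p.Prime := ⟨C.hp⟩
  haveI hchar : CharP k p := by
    have : (p : k) = 0 := by rw [← map_natCast r, C.S.hrℓ]
    exact (CharP.charP_iff_prime_eq_zero C.hp).mpr this
  obtain ⟨ν, hν⟩ := C.CtxA_exists_nu
  obtain ⟨ε, hε₁, hε₂, -⟩ := C.S.exists_eps
  have hXF0 : algebraMap E F X ≠ 0 := by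
    rw [Ne, map_eq_zero]; exact C.X_ne_zero
  have QXi : QL M r π Φ w (algebraMap E F X⁻¹) := by
    rw [map_inv₀]; exact C.ql.inv C.S.hπ hXF0
  have hXk0 : castS k (Xh M p) ≠ 0 := by
    rw [castS_Xh k p M]
    refine pow_ne_zero _ ?_
    exact Fermat.Agent.Crux.GM.castS_ne_zero _ (by
      rw [HahnSeries.leadingCoeff_eq, Fermat.Agent.Crux.GM.CoordJ.order_VJ,
        Fermat.Agent.Crux.GM.CoordJ.coeff_VJ_self])
  obtain ⟨x₁, x₂, Z, iZ, Dinf, -⟩ := C.S.exists_sfDatax X⁻¹ (castS k (Xh M p))⁻¹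
    (by rw [map_inv₀, map_inv₀]; exact C.redX.inv hXk0)
    (by rw [map_inv₀, map_inv₀, C.wX])
    (by rw [map_inv₀, V_castS k p, inv_pow])
    (fun σ => by rw [map_inv₀, Fermat.Agent.Crux.GM.coeffMap_castS]) QXi C.liftinf
    (RingHom.id F) (RingHom.id K) (RingHom.id A) (fun _ => rfl)
    (fun f => by rw [coeffMap_id, RingHom.id_apply]) (fun _ => rfl) ν hν ε hε₁ hε₂
  exact ⟨x₁, x₂, Z, iZ, ⟨Dinf⟩⟩

/-- `Wild.chart_x` (as in the proof of `Wild.chartP`). -/
theorem chart0 : Chart (MOx (F := F) C.S.hπ X X) (iA C.S.hπ X π) p := by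
  obtain ⟨x₁, x₂, Z, iZ, ⟨D⟩⟩ := C.exists_sf0
  exact chart_x C.S.hπ X C.hXt C.hgen (fun _ => Iff.rfl) (fun _ => Iff.rfl) D C.hp C.pi_dvd_p

/-- `Wild.chart_x` with `x' = X⁻¹` (`isOLx_inv_iff`, `isPiOLx_inv_iff`, `transcendental_inv`, `hgen_inv`). -/
theorem chartinf : Chart (MOx (F := F) C.S.hπ X X⁻¹) (iA C.S.hπ X π) p := by
  obtain ⟨x₁, x₂, Z, iZ, ⟨D⟩⟩ := C.exists_sfinf
  exact chart_x C.S.hπ X (transcendental_inv C.hXt) (hgen_inv C.hXt C.hgen)
    (isOLx_inv_iff C.S.hπ.prime C.X_ne_zero) (isPiOLx_inv_iff C.S.hπ.prime C.X_ne_zero) D C.hp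
    C.pi_dvd_p

/-! ### TASK `S44/PL-Const` (continued) -/

/-- the idempotent `(0,1)` does not lift to both charts: `Crux.G.conn_of_lifts` (`H0 := Crux.GM.H0_of_Phi Φ C.S.hΦA`),
`e := a`; the conclusion contradicts `RedK.unique` (`(0,1) ≠ (0,0), (1,1)`). -/
theorem not_both {a b : F} (ha : IntX A X a) (hb : IntX A X⁻¹ b)
    (ha₁ : RedK r (Φ a) 0) (ha₂ : RedK r (Φ (w a)) 1)
    (hb₁ : RedK r (Φ b) 0) (hb₂ : RedK r (Φ (w b)) 1) : False := by
  have he : IsOLx π X a := (C.isOLx_iff a).2 ⟨0, 1, ha₁, ha₂⟩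
  have hee : IsPiOLx π X (a ^ 2 - a) := by
    refine (C.isPiOLx_iff _).2 ⟨?_, ?_⟩
    · have := (ha₁.pow 2).sub ha₁
      rw [← map_pow, ← map_sub] at this
      exact this.congr rfl (by simp)
    · have := (ha₂.pow 2).sub ha₂
      rw [← map_pow, ← map_sub, ← map_pow, ← map_sub] at this
      exact this.congr rfl (by simp)
  have hae : IsPiOLx π X (a - a) := by
    refine (C.isPiOLx_iff _).2 ⟨?_, ?_⟩
    · rw [sub_self, map_zero]; exact RedK.zero
    · rw [sub_self, map_zero, map_zero]; exact RedK.zero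
  have hbe : IsPiOLx π X (b - a) := by
    refine (C.isPiOLx_iff _).2 ⟨?_, ?_⟩
    · have := hb₁.sub ha₁
      rw [← map_sub] at this
      exact this.congr rfl (by simp)
    · have := hb₂.sub ha₂
      rw [← map_sub, ← map_sub] at this
      exact this.congr rfl (by simp)
  have H0 : ∀ z : F, IsIntegral A z → z ∈ Set.range (algebraMap A F) := by
    intro z hz
    obtain ⟨P, hP, hPz⟩ := hz
    have hcomp : Φ.comp (algebraMap A F)
        = (HahnSeries.C : K →+* LaurentSeries K).comp (algebraMap A K) := RingHom.ext C.S.hΦA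
    obtain ⟨c, hc⟩ := Fermat.Agent.Crux.GM.eq_C_of_isIntegralElem (A := A) (Φ z) ⟨P, hP, by
      rw [← hcomp, ← Polynomial.hom_eval₂, hPz, map_zero]⟩
    exact ⟨c, Φ.injective (by rw [C.S.hΦA, hc])⟩
  rcases conn_of_lifts π C.irr X C.hXt C.hgen H0 a he hee a b ha hb hae hbe with h | h
  · have h1 := ((C.isPiOLx_iff _).1 h).2
    exact one_ne_zero (ha₂.unique h1)
  · have h1 := ((C.isPiOLx_iff _).1 h).1
    have h2 := ha₁.sub (RedK.one (r := r) (K := K))
    rw [← map_one Φ, ← map_sub] at h2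
    have h3 := h2.unique h1
    rw [zero_sub, neg_eq_zero] at h3
    exact one_ne_zero h3

/-- **H0BAR.**  `ρ_i a = ρ_i b` is integral over `k[X̄]` and `k[X̄⁻¹]` (`RedK.isIntegralElem`, `Setup.intX_iff`, `IntX.map w`), so
`ρ_i a = C c_i`.  If `c₁ ≠ c₂`, lift `c_i` to `A`, `u := (c̃₂ - c̃₁)⁻¹ ∈ A`; `u (a - c̃₁)`, `u (b - c̃₁)` contradict `not_both`. -/
theorem h0bar {a b : F} (ha : IntX A X a) (hb : IntX A X⁻¹ b) (hab : IsPiOLx π X (a - b)) :
    ∃ c : A, IsPiOLx π X (a - algebraMap A F c) := by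
  have hX0 := C.X_ne_zero
  obtain ⟨a₁, a₂, ha₁, ha₂⟩ := (C.isOLx_iff a).1 (IntX.isOLx C.irr ha)
  obtain ⟨h0₁, h0₂⟩ := (C.isPiOLx_iff _).1 hab
  -- the reductions of `b`
  have hb₁ : RedK r (Φ b) a₁ := by
    have := ha₁.sub h0₁
    rw [← map_sub] at this
    exact this.congr (by rw [sub_sub_cancel]) (sub_zero _)
  have hb₂ : RedK r (Φ (w b)) a₂ := by
    have := ha₂.sub h0₂
    rw [← map_sub, ← map_sub] at this
    exact this.congr (by rw [sub_sub_cancel]) (sub_zero _)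
  have hXk0 : castS k (Xh M p) ≠ 0 := by
    rw [castS, map_mul]
    exact mul_ne_zero (castS_Jh_ne_zero k M) (castS_Jh_ne_zero k (M * p))
  have redXi : RedK r (Φ (algebraMap E F X⁻¹)) (castS k (Xh M p))⁻¹ := by
    rw [map_inv₀, map_inv₀]
    exact C.redX.inv hXk0
  have wXi : w (algebraMap E F X⁻¹) = algebraMap E F X⁻¹ := by
    rw [map_inv₀, map_inv₀, C.wX]
  have ha' : IntX A (algebraMap E F X) a := (intX_algebraMap_iff X a).2 ha
  have hb' : IntX A (algebraMap E F X⁻¹) b := (intX_algebraMap_iff X⁻¹ b).2 hb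
  obtain ⟨c₁, rfl⟩ := const_of_isIntegralElem_both
    (C.redX.isIntegralElem ha₁ ((C.S.intX_iff _ _).1 ha'))
    (redXi.isIntegralElem hb₁ ((C.S.intX_iff _ _).1 hb'))
  obtain ⟨c₂, rfl⟩ := const_of_isIntegralElem_both
    (C.redX.isIntegralElem ha₂ ((C.S.intX_iff _ _).1 (IntX.map w C.S.hwA C.wX ha')))
    (redXi.isIntegralElem hb₂ ((C.S.intX_iff _ _).1 (IntX.map w C.S.hwA wXi hb')))
  obtain ⟨d₁, rfl⟩ := C.S.hr c₁
  -- reductions of `u (f - d₁)`
  have key : ∀ (u : A) (f : F), RedK r (Φ f) (HahnSeries.C (r d₁)) →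
      RedK r (Φ (w f)) (HahnSeries.C c₂) →
      RedK r (Φ (algebraMap A F u * (f - algebraMap A F d₁))) 0 ∧
      RedK r (Φ (w (algebraMap A F u * (f - algebraMap A F d₁))))
        (HahnSeries.C (r u * (c₂ - r d₁))) := by
    intro u f h₁ h₂
    constructor
    · have := (RedK.of_C (r := r) (K := K) u).mul (h₁.sub (RedK.of_C (r := r) (K := K) d₁))
      rw [← C.S.hΦA, ← C.S.hΦA, ← map_sub, ← map_mul] at this
      exact this.congr rfl (by rw [sub_self, mul_zero])
    · have := (RedK.of_C (r := r) (K := K) u).mul (h₂.sub (RedK.of_C (r := r) (K := K) d₁))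
      rw [← C.S.hΦA, ← C.S.hΦA] at this
      refine this.congr ?_ (by rw [map_mul, map_sub])
      rw [map_mul w, map_sub w, C.S.hwA, C.S.hwA, map_mul, map_sub]
  by_cases hc : c₂ = r d₁
  · refine ⟨d₁, (C.isPiOLx_iff _).2 ?_⟩
    have := key 1 a ha₁ ha₂
    rw [map_one, one_mul, hc, sub_self, mul_zero, map_zero] at this
    exact this
  · exfalso
    obtain ⟨u, hu⟩ := C.S.hr (c₂ - r d₁)⁻¹
    have hone : HahnSeries.C (r u * (c₂ - r d₁)) = (1 : LaurentSeries k) := by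
      rw [hu, inv_mul_cancel₀ (sub_ne_zero.2 hc), map_one]
    have ka := key u a ha₁ ha₂
    have kb := key u b hb₁ hb₂
    rw [hone] at ka kb
    refine C.not_both (a := algebraMap A F u * (a - algebraMap A F d₁))
      (b := algebraMap A F u * (b - algebraMap A F d₁)) ?_ ?_ ka.1 ka.2 kb.1 kb.2
    · exact (Mx A F X).mul_mem ((Mx A F X).algebraMap_mem u)
        ((Mx A F X).sub_mem ha ((Mx A F X).algebraMap_mem d₁))
    · exact (Mx A F X⁻¹).mul_mem ((Mx A F X⁻¹).algebraMap_mem u)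
        ((Mx A F X⁻¹).sub_mem hb ((Mx A F X⁻¹).algebraMap_mem d₁))

/-! ### TASK `S44/PL-Ev` -/

/-- (Ev) `Φ f` is a power series whose constant coefficient lies in `A`. -/
theorem Ev_key {f : F} (hf : IntX A X⁻¹ f) :
    ∃ Y : PowerSeries K, (Y : LaurentSeries K) = Φ f ∧
      ∃ a : A, algebraMap A K a = PowerSeries.constantCoeff Y := by
  have h1 : IntX A (algebraMap E F X⁻¹) f := (intX_algebraMap_iff X⁻¹ f).2 hf
  rw [C.S.intX_iff, map_inv₀, map_inv₀, C.hX] at h1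
  have e : castS K (Xh M p) = castS K (Jh M) * castS K (Jh (M * p)) :=
    map_mul (coeffMap (Int.castRingHom K)) _ _
  have hx0 : castS K (Xh M p) ≠ 0 := by
    rw [e]
    exact mul_ne_zero (castS_Jh_ne_zero K M) (castS_Jh_ne_zero K (M * p))
  have hordx : (castS K (Xh M p)).order < 0 := by
    rw [e, HahnSeries.order_mul (castS_Jh_ne_zero K M) (castS_Jh_ne_zero K (M * p)),
      order_castS_Jh, order_castS_Jh]
    have : 0 < M * p := Nat.pos_of_ne_zero (NeZero.ne _)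
    have h2 : (0 : ℤ) < ((M * p : ℕ) : ℤ) := by exact_mod_cast this
    have h3 : (0 : ℤ) ≤ (M : ℤ) := Int.natCast_nonneg _
    omega
  have hord : 0 < ((castS K (Xh M p))⁻¹).order := by
    have h2 := HahnSeries.order_mul (inv_ne_zero hx0) hx0
    rw [inv_mul_cancel₀ hx0, HahnSeries.order_one] at h2
    omega
  obtain ⟨T₀, hT₀⟩ := Ev_exists_powerSeries (castS K (Xh M p))⁻¹
    (fun n hn => HahnSeries.coeff_eq_zero_of_lt_order (hn.trans hord))
  have hT₀c : PowerSeries.constantCoeff T₀ = 0 := by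
    rw [← Ev_coeff_zero, hT₀]
    exact HahnSeries.coeff_eq_zero_of_lt_order hord
  rw [← hT₀] at h1
  exact Ev_main T₀ hT₀c (Φ f) h1

/-- `Φ X⁻¹ = castS K (Xh M p)⁻¹ ∈ q K[[q]]` has coefficients in `A` (it is `castS` of the inverse in `ℤ((q))`: leading coefficient `1`).
`f` satisfies a monic equation with coefficients `c_i = evK A (Φ X⁻¹) P_i` of order `≥ 0` whose constant coefficients lie in `A`.
Order: if `ord f < 0` the term `f^n` has strictly smallest order.  Constant coefficient: it satisfies the monic equation with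
coefficients `c_i(0) ∈ A`; `A` is integrally closed in `K`. -/
theorem coeff_of_intX_inv {f : F} (hf : IntX A X⁻¹ f) :
    (∀ n : ℤ, n < 0 → (Φ f).coeff n = 0) ∧ ∃ a : A, algebraMap A K a = (Φ f).coeff 0 := by
  obtain ⟨Y, hY, a, ha⟩ := C.Ev_key hf
  exact ⟨fun n hn => by rw [← hY]; exact Ev_coeff_neg Y hn, a, by rw [ha, ← hY, Ev_coeff_zero]⟩

/-- the evaluation at the cusp `∞` as a ring homomorphism `M_∞ → O_F` (values in `A`). -/
theorem exists_ev : ∃ ev : MOx (F := F) C.S.hπ X X⁻¹ →+* OFx C.S.hπ X F,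
    (∀ x, ∃ a : A, ev x = iA C.S.hπ X a ∧ algebraMap A K a = (Φ ((x : OFx C.S.hπ X F) : F)).coeff 0) := by
  have key : ∀ x : MOx (F := F) C.S.hπ X X⁻¹, ∃ Y : PowerSeries K,
      (Y : LaurentSeries K) = Φ ((x : OFx C.S.hπ X F) : F) ∧
        ∃ a : A, algebraMap A K a = PowerSeries.constantCoeff Y := fun x => C.Ev_key x.2
  choose Y hY a ha using key
  have hinj := IsFractionRing.injective A K
  have hYinj : Function.Injective ((↑) : PowerSeries K → LaurentSeries K) :=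
    HahnSeries.ofPowerSeries_injective
  have h1 : a 1 = 1 := hinj (by
    have e : Y 1 = 1 := hYinj (by rw [hY, PowerSeries.coe_one]; exact map_one Φ)
    rw [ha, e, map_one, map_one])
  have h0 : a 0 = 0 := hinj (by
    have e : Y 0 = 0 := hYinj (by rw [hY, PowerSeries.coe_zero]; exact map_zero Φ)
    rw [ha, e, map_zero, map_zero])
  have hm : ∀ x y, a (x * y) = a x * a y := fun x y => hinj (by
    have e : Y (x * y) = Y x * Y y := hYinj (by
      rw [hY, PowerSeries.coe_mul, hY, hY]; exact map_mul Φ _ _)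
    rw [ha, e, map_mul, map_mul, ha, ha])
  have hadd : ∀ x y, a (x + y) = a x + a y := fun x y => hinj (by
    have e : Y (x + y) = Y x + Y y := hYinj (by
      rw [hY, PowerSeries.coe_add, hY, hY]; exact map_add Φ _ _)
    rw [ha, e, map_add, map_add, ha, ha])
  refine ⟨{ toFun := fun x => iA C.S.hπ X (a x)
            map_one' := by rw [h1, map_one]
            map_mul' := fun x y => by rw [hm, map_mul]
            map_zero' := by rw [h0, map_zero]
            map_add' := fun x y => by rw [hadd, map_add] },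
    fun x => ⟨a x, rfl, by rw [ha, ← Ev_coeff_zero, hY]⟩⟩

/-! ### TASK `S44/PL-TwoCharts` -/

/-- `c ≡ 1 mod π` is a unit of `A`. -/
theorem unit_of_dvd {c : A} (h : π ∣ c - 1) : ∃ c' : A, c * c' = 1 := by
  have h1 : IsUnit (c + (1 - c)) := by
    rw [add_sub_cancel]; exact isUnit_one
  rcases IsLocalRing.isUnit_or_isUnit_of_isUnit_add h1 with h2 | h2
  · exact h2.exists_right_inv
  · exfalso
    apply C.irr.not_isUnit
    refine isUnit_of_dvd_unit ?_ h2
    rw [← neg_sub]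
    exact (dvd_neg).2 h

/-- the hypotheses of `PL.TwoCharts` (`Alg.lean`): `sat` from `chart0`, `chartinf`; `h0bar`; `iA_dvd_iff`. -/
theorem twoCharts : TwoCharts (MOx (F := F) C.S.hπ X X) (MOx (F := F) C.S.hπ X X⁻¹)
    (iA (F := F) C.S.hπ X).range (iA C.S.hπ X π) := by
  refine ⟨?_, ?_, ⟨π, rfl⟩, C.chart0.sat, C.chartinf.sat, ?_⟩
  · rintro _ ⟨a, rfl⟩
    exact (mem_MOx C.S.hπ X X _).2 (EndAux.intX_algebraMap X a)
  · rintro _ ⟨a, rfl⟩
    exact (mem_MOx C.S.hπ X X⁻¹ _).2 (EndAux.intX_algebraMap X⁻¹ a)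
  · intro a ha b hb hab
    have h1 : IsPiOLx π X ((a : F) - (b : F)) := (iA_dvd_iff C.S.hπ X (a - b)).1 hab
    obtain ⟨c, hc⟩ := C.h0bar ((mem_MOx C.S.hπ X X a).1 ha) ((mem_MOx C.S.hπ X X⁻¹ b).1 hb) h1
    exact ⟨iA C.S.hπ X c, ⟨c, rfl⟩, (iA_dvd_iff C.S.hπ X (a - iA C.S.hπ X c)).2 hc⟩

end Ctx

end Fermat.Agent.S44.PL
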