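import Fermat.Agent.S44.PL.DescA
import Fermat.Agent.SS.Formal.Norm
import Fermat.Agent.S33.Calc.NormRed

/-!
# S44 / PL / DescB : hypothesis (h3) of `PL.cover_abstract` (the norm relations) over the FIXED field `K₀`      (board #2712)

`nm y₀ = 0` and `nm (w y₀) = 0`  ⟹  for every `K₀`-rational representative `U₀` of `y₀` whose leading coefficient is a `p`-th power in `K₀`:
`U₀ * normSer p (wK U₀) = H^p`, `H ∈ F_{K₀}(M)`;   `wK U₀ * normSer p U₀ = c H'^p`, `c ∈ K₀`, `H' ∈ F_{K₀}(M)`.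

TASKS: `S44/PL-DB-Lc` (`leadingCoeff_normSer`), `S44/PL-DB-Norm` (`coe_normA_eq`, `h3₁`, `h3₂`), `S44/PL-DB-Main` (`h3`).
-/

set_option autoImplicit false
set_option linter.unusedSectionVars false
set_option linter.style.haveILetI false

open AlgebraicCurve ModularCurve

namespace Fermat.Agent.S44.PL

open Fermat.Agent.ES Fermat.Agent.SS Fermat.Agent.SS.GM2 Fermat.Agent.S33
open Fermat.Agent.Crux (A0)
open Fermat.Agent.S44.Cover (LL gact bc)

/-! ### TASK `S44/PL-DB-Lc` -/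

theorem DescB_lc_of_coeff {R : Type*} [Zero R] (x : LaurentSeries R) (n : ℤ)
    (h0 : ∀ m < n, x.coeff m = 0) (hn : x.coeff n ≠ 0) : x.leadingCoeff = x.coeff n := by
  have hx : x ≠ 0 := by
    rintro rfl
    exact hn (by simp)
  have h1 : x.order ≤ n := HahnSeries.order_le_of_coeff_ne_zero hn
  have h2 : n ≤ x.order := by
    by_contra hlt
    rw [not_le] at hlt
    exact hx (HahnSeries.coeff_order_eq_zero.mp (h0 _ hlt))
  rw [HahnSeries.leadingCoeff_eq, le_antisymm h1 h2]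

theorem DescB_lc_twist {R : Type*} [Field R] (z : Rˣ) (g : LaurentSeries R) :
    (twist z g).leadingCoeff = ((z ^ g.order : Rˣ) : R) * g.leadingCoeff := by
  by_cases hg : g = 0
  · subst hg
    simp
  · rw [DescB_lc_of_coeff (twist z g) g.order, twist_coeff, HahnSeries.leadingCoeff_eq]
    · intro m hm
      rw [twist_coeff, HahnSeries.coeff_eq_zero_of_lt_order hm, mul_zero]
    · rw [twist_coeff]
      exact mul_ne_zero (Units.ne_zero _) (fun h => hg (HahnSeries.coeff_order_eq_zero.mp h))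

theorem DescB_lc_Vq {R : Type*} [Field R] (p : ℕ) [NeZero p] (g : LaurentSeries R) :
    (Vq R p g).leadingCoeff = g.leadingCoeff := by
  by_cases hg : g = 0
  · subst hg
    simp
  · rw [DescB_lc_of_coeff (Vq R p g) ((p : ℤ) * g.order), qExpand_coeff_mul,
      HahnSeries.leadingCoeff_eq]
    · intro m hm
      by_cases hd : (p : ℤ) ∣ m
      · obtain ⟨k, rfl⟩ := hd
        rw [qExpand_coeff_mul]
        apply HahnSeries.coeff_eq_zero_of_lt_order
        have hp : (0 : ℤ) < p := by exact_mod_cast Nat.pos_of_ne_zero (NeZero.ne p)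
        exact lt_of_mul_lt_mul_left hm hp.le
      · exact qExpand_coeff_of_not_dvd p g hd
    · rw [qExpand_coeff_mul]
      exact fun h => hg (HahnSeries.coeff_order_eq_zero.mp h)

theorem DescB_lc_prod {R : Type*} [Field R] {ι : Type*} (s : Finset ι)
    (f : ι → LaurentSeries R) :
    (∏ i ∈ s, f i).leadingCoeff = ∏ i ∈ s, (f i).leadingCoeff := by
  classical
  induction s using Finset.induction_on with
  | empty => simp
  | insert a s ha ih =>
    rw [Finset.prod_insert ha, Finset.prod_insert ha, HahnSeries.leadingCoeff_mul, ih]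

theorem DescB_prod_rootsOfUnity {R : Type*} [Field R] {p : ℕ} [NeZero p] (hp : p.Prime)
    (hp2 : p ≠ 2) : ∏ z : rootsOfUnity p R, z = 1 := by
  set P : rootsOfUnity p R := ∏ z : rootsOfUnity p R, z with hP
  have h1 : P⁻¹ = P := by
    rw [hP, ← Finset.prod_inv_distrib]
    exact Fintype.prod_equiv (Equiv.inv _) _ _ (fun z => rfl)
  have h2 : P ^ 2 = 1 := by
    rw [pow_two]
    nth_rewrite 1 [← h1]
    exact inv_mul_cancel P
  have h3 : P ^ p = 1 := by
    have := P.2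
    rw [mem_rootsOfUnity] at this
    exact Subtype.ext this
  have hodd : Odd p := hp.odd_of_ne_two hp2
  obtain ⟨k, hk⟩ := hodd
  have h4 : P ^ (2 * k + 1) = 1 := hk ▸ h3
  rw [pow_succ, pow_mul, h2, one_pow, one_mul] at h4
  exact h4

/-- `Vq (normSer p g) = twistProd p g = ∏_z twist z g` (`ES.Vq_normSer`); `twist z g` has the order of `g` and leading coefficient `z^(ord g) lc(g)` (`twist_coeff`);
`HahnSeries.leadingCoeff_mul` (prod by induction / `map_prod`-style); `∏_{z ∈ μ_p} z = 1` for `p` odd (pair `z ↔ z⁻¹`: `Finset.prod_involution`, or `∏ z = ζ^(p(p-1)/2)`;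
or: `P := ∏ z` satisfies `P = ∏ z⁻¹ = P⁻¹` and `P^p = 1`, so `P^2 = 1 = P^p`, `P = 1`).  `Vq` preserves the leading coefficient (`qExpand_coeff_mul`, order `p * ord`). -/
theorem leadingCoeff_normSer {R : Type*} [Field R] {p : ℕ} [NeZero p] (hp : p.Prime) (hp2 : p ≠ 2)
    {ζ : R} (hζ : IsPrimitiveRoot ζ p) (g : LaurentSeries R) :
    (normSer p g).leadingCoeff = g.leadingCoeff ^ p := by
  rw [← DescB_lc_Vq p (normSer p g), Vq_normSer p hζ g, twistProd, DescB_lc_prod]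
  simp_rw [DescB_lc_twist]
  rw [Finset.prod_mul_distrib, Finset.prod_const, Finset.card_univ]
  have hcard : Fintype.card (rootsOfUnity p R) = p := by
    rw [← Nat.card_eq_fintype_card]
    exact hζ.card_rootsOfUnity
  rw [hcard]
  have h1 : ∏ z : rootsOfUnity p R, (((z : Rˣ) ^ g.order : Rˣ) : R) = 1 := by
    have h2 : ∏ z : rootsOfUnity p R, (((z : Rˣ) ^ g.order : Rˣ) : R)
        = (((((∏ z : rootsOfUnity p R, z) : rootsOfUnity p R) : Rˣ) ^ g.order : Rˣ) : R) := by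
      exact (map_prod ((Units.coeHom R).comp
        ((zpowGroupHom g.order).comp (rootsOfUnity p R).subtype)) (fun z => z) Finset.univ).symm
    rw [h2, DescB_prod_rootsOfUnity hp hp2]
    simp
  rw [h1, one_mul]

variable {M p : ℕ} [NeZero M] [NeZero p] {A : ValuationSubring Qb} (K₀ : IntermediateField ℚ Qb)

/-! ### TASK `S44/PL-DB-Norm` -/

/-- leading coefficient of a power. -/
theorem DescB_leadingCoeff_pow {R : Type*} [Field R] (x : LaurentSeries R) (n : ℕ) :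
    (x ^ n).leadingCoeff = x.leadingCoeff ^ n := by
  induction n with
  | zero => simp
  | succ n ih => rw [pow_succ, pow_succ, HahnSeries.leadingCoeff_mul, ih]

/-- `x^p = y^p`, `y ∈ K₀ ∋ ζ` ⟹ `x ∈ K₀`. -/
theorem DescB_mem_of_pow_eq (ζ : K₀) (hζ : IsPrimitiveRoot ζ p) {x : Qb} {y : K₀}
    (h : x ^ p = (algebraMap K₀ Qb y) ^ p) : x ∈ K₀ := by
  by_cases hy : y = 0
  · rw [hy, map_zero, zero_pow (NeZero.ne p)] at h
    rw [pow_eq_zero_iff (NeZero.ne p)] at h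
    rw [h]
    exact K₀.zero_mem
  have hy' : algebraMap K₀ Qb y ≠ 0 := (_root_.map_ne_zero _).2 hy
  have h1 : (x / algebraMap K₀ Qb y) ^ p = 1 := by
    rw [div_pow, h, div_self (pow_ne_zero _ hy')]
  have hζ' : IsPrimitiveRoot (algebraMap K₀ Qb ζ) p :=
    hζ.map_of_injective (algebraMap K₀ Qb).injective
  obtain ⟨i, -, hi⟩ := hζ'.eq_pow_of_pow_eq_one h1
  have h2 : x = algebraMap K₀ Qb (ζ ^ i * y) := by
    rw [map_mul, map_pow, hi, div_mul_cancel₀ _ hy']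
  rw [h2]
  exact (ζ ^ i * y).2

/-- `SS.Vq_normA`, `ES.Vq_normSer` (a primitive `p`-th root of unity exists in `ℚ̄`), `map_mul`, `ES.Vq_injective`. -/
theorem coe_normA_eq (hp : p.Prime) (hpM : ¬ p ∣ M) {w : FF (M * p) →ₐ[Qb] FF (M * p)}
    (hw : IsAL M p w) (x : FF (M * p)) :
    ((normA M p x : FF M) : LL) = (x : LL) * normSer p ((w x : FF (M * p)) : LL) := by
  obtain ⟨ζ, hζ⟩ : ∃ ζ : Qb, IsPrimitiveRoot ζ p :=
    HasEnoughRootsOfUnity.exists_primitiveRoot Qb p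
  apply Vq_injective (R := Qb) p
  rw [Vq_normA hp hpM hw, map_mul, Vq_normSer p hζ]

section

variable {w : FF (M * p) →ₐ[Qb] FF (M * p)} (hw : IsAL M p w)
  (wK : modularFunctionFieldFullC K₀ (M * p) →ₐ[K₀] modularFunctionFieldFullC K₀ (M * p))
  (hwK : IsALK K₀ M p wK)
  (hwK' : ∀ (f : modularFunctionFieldFullC K₀ (M * p)) (f' : FF (M * p)),
    (f' : LL) = bc K₀ (f : LaurentSeries K₀) →
      ((w f' : FF (M * p)) : LL) = bc K₀ ((wK f : _) : LaurentSeries K₀))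
  (ζ : K₀) (hζ : IsPrimitiveRoot ζ p)

include hw hwK hwK' hζ

/-- `nmKum_mk`, `Kum.mk_eq_zero_iff`: `h^p = normU u`, so `(h : LL)^p = u * normSer p (w u) = bc (U₀ * normSer p (wK U₀))` (`coe_normA_eq`, `hwK'`, `S33.Calc.coeffMap_normSer`).
`lc(h)^p = d^p lc(wK U₀)^p` (`leadingCoeff_normSer`), so `lc(h) = ζ^i d lc(wK U₀) ∈ K₀`.  `exists_model_of_pow` at level `M`; `Cover.bc_injective`. -/
theorem h3₁ (hp : p.Prime) (hp2 : p ≠ 2) (hpM : ¬ p ∣ M) (u : Dm (M * p) p)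
    (hnm : nmKum M p p (Kum.mk u) = 0) (U₀ : modularFunctionFieldFullC K₀ (M * p))
    (hU₀ : bc K₀ (U₀ : LaurentSeries K₀) = (((u : (FF (M * p))ˣ) : FF (M * p)) : LL))
    (d : K₀) (hd : d ^ p = (U₀ : LaurentSeries K₀).leadingCoeff) :
    ∃ H ∈ modularFunctionFieldFullC K₀ M,
      (U₀ : LaurentSeries K₀) * normSer p ((wK U₀ : _) : LaurentSeries K₀) = H ^ p := by
  rw [nmKum_mk, Kum.mk_eq_zero_iff] at hnm
  obtain ⟨h, hh⟩ := hnm
  have hinj : Function.Injective (algebraMap K₀ Qb) := (algebraMap K₀ Qb).injective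
  have h1 : (h : FF M) ^ p = normA M p ((u : (FF (M * p))ˣ) : FF (M * p)) := by
    have h2 := congrArg (fun x : (FF M)ˣ => (x : FF M)) hh
    simpa using h2
  have hpow : ((h : FF M) : LL) ^ p =
      bc K₀ ((U₀ : LaurentSeries K₀) * normSer p ((wK U₀ : _) : LaurentSeries K₀)) := by
    have h2 := congrArg (fun x : FF M => (x : LL)) h1
    have h3 : (((h : FF M) ^ p : FF M) : LL) = ((h : FF M) : LL) ^ p := rfl
    rw [map_mul, Fermat.Agent.S33.Calc.coeffMap_normSer p (algebraMap K₀ Qb) hinj hζ, hU₀,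
      ← hwK' U₀ _ hU₀.symm, ← coe_normA_eq hp hpM hw, ← h3]
    exact h2
  have hlc : ((h : FF M) : LL).leadingCoeff ∈ K₀ := by
    apply DescB_mem_of_pow_eq K₀ ζ hζ
      (y := d * ((wK U₀ : _) : LaurentSeries K₀).leadingCoeff)
    rw [← DescB_leadingCoeff_pow, hpow,
      Fermat.Agent.Crux.leadingCoeff_coeffMap _ hinj, HahnSeries.leadingCoeff_mul,
      leadingCoeff_normSer hp hp2 hζ, ← hd, ← mul_pow, map_pow]
  obtain ⟨g₀, hg₀, hbc⟩ := exists_model_of_pow K₀ hp M ζ hζ (h : FF M) _ hpow hlc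
  refine ⟨g₀, hg₀, ?_⟩
  apply Fermat.Agent.S44.Cover.bc_injective K₀
  rw [← hpow, map_pow, hbc]

/-- the same for `w u` (`wKum_mk`, `hw.invol hp`, `hwK.invol`): `(h : LL)^p = bc N₀`, `N₀ := wK U₀ * normSer p U₀`.  `c := lc(N₀)`; `h / lc(h)` has leading coefficient `1` and
`p`-th power `bc (N₀ / C c)`; `exists_model_of_pow`. -/
theorem h3₂ (hp : p.Prime) (hp2 : p ≠ 2) (hpM : ¬ p ∣ M) (u : Dm (M * p) p)
    (hnm : nmKum M p p (wKum hw hp p (Kum.mk u)) = 0)
    (U₀ : modularFunctionFieldFullC K₀ (M * p))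
    (hU₀ : bc K₀ (U₀ : LaurentSeries K₀) = (((u : (FF (M * p))ˣ) : FF (M * p)) : LL)) :
    ∃ c : K₀, ∃ H ∈ modularFunctionFieldFullC K₀ M,
      ((wK U₀ : _) : LaurentSeries K₀) * normSer p (U₀ : LaurentSeries K₀)
        = HahnSeries.C c * H ^ p := by
  rw [wKum_mk, nmKum_mk, Kum.mk_eq_zero_iff] at hnm
  obtain ⟨h, hh⟩ := hnm
  have hinj : Function.Injective (algebraMap K₀ Qb) := (algebraMap K₀ Qb).injective
  have h1 : (h : FF M) ^ p = normA M p (w ((u : (FF (M * p))ˣ) : FF (M * p))) := by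
    have h2 := congrArg (fun x : (FF M)ˣ => (x : FF M)) hh
    simpa using h2
  obtain ⟨N₀, hN₀⟩ : ∃ N₀ : LaurentSeries K₀,
    N₀ = ((wK U₀ : _) : LaurentSeries K₀) * normSer p (U₀ : LaurentSeries K₀) := ⟨_, rfl⟩
  have hpow : ((h : FF M) : LL) ^ p = bc K₀ N₀ := by
    have h2 := congrArg (fun x : FF M => (x : LL)) h1
    have h3 : (((h : FF M) ^ p : FF M) : LL) = ((h : FF M) : LL) ^ p := rfl
    have h4 := coe_normA_eq hp hpM hw (w ((u : (FF (M * p))ˣ) : FF (M * p)))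
    rw [hw.invol hp] at h4
    rw [hN₀, map_mul, Fermat.Agent.S33.Calc.coeffMap_normSer p (algebraMap K₀ Qb) hinj hζ, hU₀,
      ← hwK' U₀ _ hU₀.symm, ← h4, ← h3]
    exact h2
  have hh0 : ((h : FF M) : LL) ≠ 0 := fun h0 => h.ne_zero (Subtype.ext h0)
  obtain ⟨a, ha⟩ : ∃ a : Qb, a = ((h : FF M) : LL).leadingCoeff := ⟨_, rfl⟩
  have ha0 : a ≠ 0 := by
    rw [ha]
    exact HahnSeries.leadingCoeff_ne_zero.2 hh0
  have hac : a ^ p = algebraMap K₀ Qb N₀.leadingCoeff := by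
    rw [ha, ← DescB_leadingCoeff_pow, hpow, Fermat.Agent.Crux.leadingCoeff_coeffMap _ hinj]
  have hc0 : N₀.leadingCoeff ≠ 0 := by
    intro h0
    rw [h0, map_zero] at hac
    exact ha0 ((pow_eq_zero_iff (NeZero.ne p)).1 hac)
  have hcoe : ((algebraMap Qb (FF M) a⁻¹ * (h : FF M) : FF M) : LL) =
      HahnSeries.C a⁻¹ * ((h : FF M) : LL) := by
    rw [← Fermat.Agent.Crux.algebraMap_eq_C]
    rfl
  have hpow' : ((algebraMap Qb (FF M) a⁻¹ * (h : FF M) : FF M) : LL) ^ p =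
      bc K₀ (HahnSeries.C (N₀.leadingCoeff)⁻¹ * N₀) := by
    have h5 : (HahnSeries.C (algebraMap K₀ Qb (N₀.leadingCoeff)⁻¹) : LL) =
        (HahnSeries.C a⁻¹ : LL) ^ p := by
      rw [map_inv₀ (algebraMap K₀ Qb), ← hac, ← map_pow, inv_pow]
    rw [hcoe, mul_pow, hpow, map_mul, Fermat.Agent.Crux.coeffMap_C, h5]
  have hlc : ((algebraMap Qb (FF M) a⁻¹ * (h : FF M) : FF M) : LL).leadingCoeff ∈ K₀ := by
    rw [hcoe, HahnSeries.leadingCoeff_mul, HahnSeries.C_apply, HahnSeries.leadingCoeff_of_single,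
      ← ha, inv_mul_cancel₀ ha0]
    exact K₀.one_mem
  obtain ⟨g₀, hg₀, hbc⟩ := exists_model_of_pow K₀ hp M ζ hζ _ _ hpow' hlc
  refine ⟨N₀.leadingCoeff, g₀, hg₀, ?_⟩
  rw [← hN₀]
  apply Fermat.Agent.S44.Cover.bc_injective K₀
  rw [map_mul, map_pow, hbc, hpow', ← map_mul, ← mul_assoc, ← map_mul, mul_inv_cancel₀ hc0,
    map_one, one_mul]

/-! ### TASK `S44/PL-DB-Main` -/

/-- **(h3)** in the form of the hypotheses `hN₁`, `hN₂` of `PL.cover_abstract` (`F := F_{K₀}(M p)`, `Φ :=` the inclusion, `w := wK`).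
For `Y ≠ 0`: `bc Y ∈ FF (M p)` (`Crux.coeffMap_mem_bar`), a unit `Yu`; `u' := u * Yu^p ∈ Dm` (`Pw_le_Dm`), `mk u' = mk u` (`Kum.mk_eq_mk_iff`, as in `S33.raise`);
`h3₁` with `d := lc(Y)` (`leadingCoeff_mul`, `leadingCoeff_pow`, `hlc`), `h3₂`.  `F_{K₀}(M) ≤ F_{K₀}(M p)`. -/
theorem h3 (hp : p.Prime) (hp2 : p ≠ 2) (hpM : ¬ p ∣ M) (u : Dm (M * p) p)
    (hnm : nmKum M p p (Kum.mk u) = 0) (hnmw : nmKum M p p (wKum hw hp p (Kum.mk u)) = 0)
    (W₀ : modularFunctionFieldFullC K₀ (M * p))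
    (hW₀ : bc K₀ (W₀ : LaurentSeries K₀) = (((u : (FF (M * p))ˣ) : FF (M * p)) : LL))
    (hlc : (W₀ : LaurentSeries K₀).leadingCoeff = 1) :
    (∀ Y : modularFunctionFieldFullC K₀ (M * p), Y ≠ 0 →
      ∃ H : modularFunctionFieldFullC K₀ (M * p),
        (H : LaurentSeries K₀) ∈ modularFunctionFieldFullC K₀ M ∧
        ((Y ^ p * W₀ : modularFunctionFieldFullC K₀ (M * p)) : LaurentSeries K₀)
          * normSer p ((wK (Y ^ p * W₀) : _) : LaurentSeries K₀) = (H : LaurentSeries K₀) ^ p) ∧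
    (∀ Y : modularFunctionFieldFullC K₀ (M * p), Y ≠ 0 →
      ∃ (c : K₀) (H : modularFunctionFieldFullC K₀ (M * p)),
        (H : LaurentSeries K₀) ∈ modularFunctionFieldFullC K₀ M ∧
        ((wK (Y ^ p * W₀) : _) : LaurentSeries K₀)
          * normSer p ((Y ^ p * W₀ : modularFunctionFieldFullC K₀ (M * p)) : LaurentSeries K₀)
          = HahnSeries.C c * (H : LaurentSeries K₀) ^ p) := by
  haveI : NeZero (M * p) := ⟨Nat.mul_ne_zero (NeZero.ne M) (NeZero.ne p)⟩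
  have hle : modularFunctionFieldFullC K₀ M ≤ modularFunctionFieldFullC K₀ (M * p) :=
    full_degeneracyC_le K₀ (Dvd.intro p rfl)
  have key : ∀ Y : modularFunctionFieldFullC K₀ (M * p), Y ≠ 0 →
      ∃ u' : Dm (M * p) p, Kum.mk u' = Kum.mk u ∧
        bc K₀ ((Y ^ p * W₀ : modularFunctionFieldFullC K₀ (M * p)) : LaurentSeries K₀)
          = (((u' : (FF (M * p))ˣ) : FF (M * p)) : LL) := by
    intro Y hY
    have hYb : (⟨bc K₀ (Y : LaurentSeries K₀),
        Fermat.Agent.Crux.coeffMap_mem_bar K₀ (M * p) Y.2⟩ : FF (M * p)) ≠ 0 := by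
      intro h0
      apply hY
      have h1 : bc K₀ (Y : LaurentSeries K₀) = 0 := congrArg Subtype.val h0
      have h2 : (Y : LaurentSeries K₀) = 0 :=
        Fermat.Agent.S44.Cover.bc_injective K₀ (by rw [h1, map_zero])
      exact Subtype.ext h2
    refine ⟨⟨(Units.mk0 _ hYb) ^ p, Pw_le_Dm _ _ ⟨Units.mk0 _ hYb, rfl⟩⟩ * u, ?_, ?_⟩
    · rw [Kum.mk_eq_mk_iff]
      exact ⟨Units.mk0 _ hYb, by simp⟩
    · show bc K₀ ((Y : LaurentSeries K₀) ^ p * (W₀ : LaurentSeries K₀)) =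
        (bc K₀ (Y : LaurentSeries K₀)) ^ p * (((u : (FF (M * p))ˣ) : FF (M * p)) : LL)
      rw [map_mul, map_pow, hW₀]
  refine ⟨fun Y hY => ?_, fun Y hY => ?_⟩
  · obtain ⟨u', hu', hU₀⟩ := key Y hY
    have hd : (Y : LaurentSeries K₀).leadingCoeff ^ p =
        ((Y ^ p * W₀ : modularFunctionFieldFullC K₀ (M * p)) : LaurentSeries K₀).leadingCoeff := by
      show _ = ((Y : LaurentSeries K₀) ^ p * (W₀ : LaurentSeries K₀)).leadingCoeff
      have hpow : ∀ n : ℕ, ((Y : LaurentSeries K₀) ^ n).leadingCoeff =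
          (Y : LaurentSeries K₀).leadingCoeff ^ n := by
        intro n
        induction n with
        | zero => simp
        | succ n ih => rw [pow_succ, pow_succ, HahnSeries.leadingCoeff_mul, ih]
      rw [HahnSeries.leadingCoeff_mul, hlc, mul_one, hpow]
    obtain ⟨H, hH, hHe⟩ := h3₁ K₀ hw wK hwK hwK' ζ hζ hp hp2 hpM u' (by rw [hu']; exact hnm)
      (Y ^ p * W₀) hU₀ (Y : LaurentSeries K₀).leadingCoeff hd
    exact ⟨⟨H, hle hH⟩, hH, hHe⟩
  · obtain ⟨u', hu', hU₀⟩ := key Y hY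
    obtain ⟨c, H, hH, hHe⟩ := h3₂ K₀ hw wK hwK hwK' ζ hζ hp hp2 hpM u' (by rw [hu']; exact hnmw)
      (Y ^ p * W₀) hU₀
    exact ⟨c, ⟨H, hle hH⟩, hH, hHe⟩

end

end Fermat.Agent.S44.PL
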