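import Fermat.Agent.S44.PL.Ctx
import Fermat.Agent.S44.PL.Gauss

/-!
# S44 / PL / Raise : (c6)  the norm relations  ⟹  `ξ̄'` is Artin-Schreier trivial on both components (up to a constant on the second)

`W₀ = 1 + π^p ξ`, `ρ ξ = (x₁, x₂)`.   `W₀ * normSer p (w W₀) = H^p`, `H ∈ F_K(M)`  ⟹ `x₁ = δ^p - δ`, `δ ∈ F_k(M)`;
`w W₀ * normSer p W₀ = c H^p` ⟹ `x₂ = a + δ^p - δ`.

TASKS `S44/PL-RaiseA` (`Ctx.mem_of_level`, `Ctx.raise₁`), `S44/PL-RaiseB` (`Ctx.raise₂`).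
PROOF of `raise₁`.  `Φ (algebraMap A F π) = lam K π` (`C.S.hΦA`), `w` fixes `algebraMap A F π` (`C.S.hwA`): `Φ (w W₀) = 1 + lam^p * Φ (w ξ)`.
`PL.normSer_one_add` : `normSer p (Φ (w W₀)) = 1 + lam^(p+1) b`.  So `Φ H ^ p = 1 + lam^p * x`, `x := Φ ξ + lam * b * (1 + lam^p Φ ξ)`, `RedK r x x₁`
(`RedK.lam_mul`, `RedK.add`).  `Φ H ≠ 0` (its `p`-th power reduces to `1`), `RedK.pivot` (level `M`).  `PL.as_of_pow_one` : `Φ H = 1 + lam η`, `x₁ = η̄^p - η̄`.
`η = (Φ H - 1)/lam ∈ F_K(M)`; `Ctx.mem_of_level`.         `raise₂`: the same with `PL.as_of_pow`, `η = (Φ H / C d - 1)/lam`.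
-/

set_option autoImplicit false
set_option linter.unusedSectionVars false
set_option linter.style.haveILetI false

open Polynomial ModularCurve

namespace Fermat.Agent.S44.PL

open Fermat.Agent.Crux.G Fermat.Agent.SS.G2 Fermat.Agent.SS.GM2 Fermat.Agent.Wild
open Fermat.Agent.S28 (V J evAt)
open Fermat.Agent.Crux.GM (castS)
open Fermat.Agent.ES (normSer)

variable {M p : ℕ} [NeZero M] [NeZero p]
variable {A K k : Type} [CommRing A] [IsDomain A] [IsDiscreteValuationRing A] [Field K]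
  [CharZero K] [Algebra A K] [IsFractionRing A K] [Field k] [Finite k]
  {r : A →+* k} {π : A}
variable {F : Type} [Field F] [Algebra A F] {Φ : F →+* LaurentSeries K} {w : F →+* F}
variable {E : Type} [Field E] [CharZero E] [Algebra A E] [Algebra E F] [IsScalarTower A E F]
  [FiniteDimensional E F]
variable {X : E} {ζ : A}

/-- `F_K(M) ≤ F_K(M p)`. -/
theorem Raise_full_le (K : Type*) [Field K] (M p : ℕ) :
    modularFunctionFieldFullC K M ≤ modularFunctionFieldFullC K (M * p) := by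
  refine IntermediateField.adjoin.mono _ _ _ ?_
  rintro x ⟨d, hd0, hd, rfl⟩
  exact ⟨d, hd0, Dvd.dvd.mul_right hd p, rfl⟩

/-- reductions of elements of level `M` lie in `F_k(M)`: `η = Φ f` (`C.S.hΦF`, `F_K(M) ≤ F_K(M p)`), `Φ (w f) = V η` (`C.S.hwα`), `RedK.map_V`, `C.mem₁`. -/
theorem Ctx.mem_of_level (C : Ctx M p r π Φ w X ζ) {η : LaurentSeries K} {η' : LaurentSeries k}
    (hη : η ∈ modularFunctionFieldFullC K M) (h : RedK r η η') :
    η' ∈ modularFunctionFieldFullC k M := by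
  obtain ⟨f, rfl⟩ := (C.S.hΦF η).1 (Raise_full_le K M p hη)
  have h2 : RedK r (Φ (w f)) (V k p η') := by
    rw [C.S.hwα f hη]
    exact h.map_V p
  exact C.mem₁ h h2

/-- `Φ (1 + π^p ξ) = 1 + lam^p Φ ξ`. -/
theorem Ctx.Raise_Phi (C : Ctx M p r π Φ w X ζ) (ξ : F) :
    Φ (1 + algebraMap A F π ^ p * ξ) = 1 + lam K π ^ p * Φ ξ := by
  rw [map_add, map_one, map_mul, map_pow, C.S.hΦA]

theorem Ctx.Raise_Phi_w (C : Ctx M p r π Φ w X ζ) (ξ : F) :
    Φ (w (1 + algebraMap A F π ^ p * ξ)) = 1 + lam K π ^ p * Φ (w ξ) := by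
  rw [map_add, map_one, map_mul, map_pow, C.S.hwA, C.Raise_Phi]

/-- `1 + lam^p x` reduces to `1`. -/
theorem Ctx.Raise_red_one (C : Ctx M p r π Φ w X ζ) {x : LaurentSeries K} {a : LaurentSeries k}
    (h : RedK r x a) : RedK r (1 + lam K π ^ p * x) 1 := by
  have h1 : RedK r (lam K π ^ p * x) 0 := by
    have h2 := ((RedK.of_C (K := K) (r := r) π).pow p).mul h
    rwa [GaussA_r_pi C.S.hr C.S.hπ, map_zero, zero_pow C.hp.ne_zero, zero_mul] at h2
  have := (RedK.one (r := r) (K := K)).add h1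
  rwa [add_zero] at this

/-- the common computation: `(1 + lam^p u) * normSer p (1 + lam^p v) = 1 + lam^p x`, `x̄ = ū`. -/
theorem Ctx.Raise_prod (C : Ctx M p r π Φ w X ζ) {u v : LaurentSeries K} {u' v' : LaurentSeries k}
    (hu : RedK r u u') (hv : RedK r v v') :
    ∃ x : LaurentSeries K, RedK r x u' ∧
      (1 + lam K π ^ p * u) * normSer p (1 + lam K π ^ p * v) = 1 + lam K π ^ p * x := by
  obtain ⟨b, b', hb, hN⟩ := normSer_one_add C.hp C.S.hr C.S.hπ C.S.hrℓ C.hζ hv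
  refine ⟨u + lam K π * (b * (1 + lam K π ^ p * u)), ?_, ?_⟩
  · have := hu.add (RedK.lam_mul C.S.hr C.S.hπ (hb.mul (C.Raise_red_one hu)))
    rwa [add_zero] at this
  · rw [hN]; ring

theorem Ctx.Raise_lam_ne_zero (C : Ctx M p r π Φ w X ζ) : lam K π ≠ 0 := by
  rw [lam, Ne, map_eq_zero, map_eq_zero_iff _ (IsFractionRing.injective A K)]
  exact C.S.hπ.ne_zero

theorem Raise_C_mem (K : Type*) [Field K] (M : ℕ) (c : K) :
    (HahnSeries.C c : LaurentSeries K) ∈ modularFunctionFieldFullC K M := by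
  rw [Fermat.Agent.S28.C_eq_algebraMap]
  exact IntermediateField.algebraMap_mem _ c

theorem Ctx.raise₁ (C : Ctx M p r π Φ w X ζ) {ξ H : F} {x₁ x₂ : LaurentSeries k}
    (h₁ : RedK r (Φ ξ) x₁) (h₂ : RedK r (Φ (w ξ)) x₂)
    (hH : Φ H ∈ modularFunctionFieldFullC K M)
    (hN : Φ (1 + algebraMap A F π ^ p * ξ) * normSer p (Φ (w (1 + algebraMap A F π ^ p * ξ)))
      = Φ H ^ p) :
    ∃ δ ∈ modularFunctionFieldFullC k M, x₁ = δ ^ p - δ := by
  rw [C.Raise_Phi, C.Raise_Phi_w] at hN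
  obtain ⟨x, hx, hprod⟩ := C.Raise_prod h₁ h₂
  rw [hprod] at hN
  have hH0 : Φ H ≠ 0 := by
    intro h0
    rw [h0, zero_pow C.hp.ne_zero] at hN
    have := C.Raise_red_one hx
    rw [hN] at this
    exact zero_ne_one (RedK.zero.unique this)
  obtain ⟨η, η', hη, hred, hx₁⟩ := as_of_pow_one C.hp C.hp2 C.S.hr C.S.hπ C.S.hrℓ C.hζ C.hπ
    (RedK.pivot C.S.hr C.S.hπ hH hH0) hx hN.symm
  refine ⟨η', C.mem_of_level ?_ hred, hx₁⟩
  have e : η = (Φ H - 1) / lam K π := by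
    rw [hη, add_sub_cancel_left, mul_div_cancel_left₀ _ C.Raise_lam_ne_zero]
  rw [e]
  exact div_mem (sub_mem hH (one_mem _)) (Raise_C_mem K M _)

theorem Ctx.raise₂ (C : Ctx M p r π Φ w X ζ) {ξ H : F} {x₁ x₂ : LaurentSeries k} {c : K}
    (h₁ : RedK r (Φ ξ) x₁) (h₂ : RedK r (Φ (w ξ)) x₂)
    (hH : Φ H ∈ modularFunctionFieldFullC K M)
    (hN : Φ (w (1 + algebraMap A F π ^ p * ξ)) * normSer p (Φ (1 + algebraMap A F π ^ p * ξ))
      = HahnSeries.C c * Φ H ^ p) :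
    ∃ a : k, ∃ δ ∈ modularFunctionFieldFullC k M, x₂ = HahnSeries.C a + (δ ^ p - δ) := by
  rw [C.Raise_Phi, C.Raise_Phi_w] at hN
  obtain ⟨x, hx, hprod⟩ := C.Raise_prod h₂ h₁
  rw [hprod] at hN
  have hH0 : Φ H ≠ 0 := by
    intro h0
    rw [h0, zero_pow C.hp.ne_zero, mul_zero] at hN
    have := C.Raise_red_one hx
    rw [hN] at this
    exact zero_ne_one (RedK.zero.unique this)
  obtain ⟨d, η, η', a', hd, hη, hred, hx₂⟩ := as_of_pow C.hp C.hp2 C.S.hr C.S.hπ C.S.hrℓ C.hζ C.hπ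
    (RedK.pivot C.S.hr C.S.hπ hH hH0) hx hN.symm
  refine ⟨a', η', C.mem_of_level ?_ hred, hx₂⟩
  have hCd : (HahnSeries.C d : LaurentSeries K) ≠ 0 := by
    rw [Ne, map_eq_zero]; exact hd
  have e : η = (Φ H / HahnSeries.C d - 1) / lam K π := by
    rw [hη, mul_div_cancel_left₀ _ hCd, add_sub_cancel_left,
      mul_div_cancel_left₀ _ C.Raise_lam_ne_zero]
  rw [e]
  exact div_mem (sub_mem (div_mem hH (Raise_C_mem K M _)) (one_mem _)) (Raise_C_mem K M _)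

end Fermat.Agent.S44.PL
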