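import Fermat.Agent.S44.PL.Ctx
import Fermat.Agent.S44.PL.Gauss

/-!
# S44 / PL / Split : (c7)-(c8)  the node argument and the splitting of `Z^p - Z - ξ` on both components

A chart is `x : E` (`x = X` or `X⁻¹`) with `tk = ` reduction of `Φ x`, `w x = x`, `V tk = tk^p`, and the lifting property `hlift` (`C.lift0`, `C.liftinf`).
`R_x = {a ∈ F_k(M) integral over k[tk]}`.   `InI2 r Φ w x b` : `(0, b) ∈ ρ(M_x)`.

TASKS `S44/PL-XiCongr` (`Ctx.xi_congr`), `S44/PL-NodeA` (the four `InI2` lemmas), `S44/PL-NodeB` (`Ctx.node`), `S44/PL-Split` (`Ctx.split`).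
-/

set_option autoImplicit false
set_option linter.unusedSectionVars false
set_option linter.style.haveILetI false

open Polynomial ModularCurve

namespace Fermat.Agent.S44.PL

open Fermat.Agent.Crux.G Fermat.Agent.SS.G2 Fermat.Agent.SS.GM2 Fermat.Agent.Wild
open Fermat.Agent.S28 (V J evAt)
open Fermat.Agent.Crux.GM (castS)
open Fermat.Agent.ES (normSer)

variable {M p : ℕ} [NeZero M] [NeZero p]
variable {A K k : Type} [CommRing A] [IsDomain A] [IsDiscreteValuationRing A] [Field K]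
  [CharZero K] [Algebra A K] [IsFractionRing A K] [Field k] [Finite k]
  {r : A →+* k} {π : A}
variable {F : Type} [Field F] [Algebra A F] {Φ : F →+* LaurentSeries K} {w : F →+* F}
variable {E : Type} [Field E] [CharZero E] [Algebra A E] [Algebra E F] [IsScalarTower A E F]
  [FiniteDimensional E F]
variable {X : E} {ζ : A}

/-- TASK `S44/PL-XiCongr`.  Work in the subring `OFx C.S.hπ X F`: `PL.wilson_cyclo` (in `A`, mapped by `iA`), `PL.one_add_mul_pow`:
`(1 + l η)^p = 1 + l^p (η^p - η) + l^(p+1) c`, `c ∈ O_F`.  Expand and cancel `l^p ≠ 0`: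
`ξ = ξ' + (η^p - η) + l (c + l^(p-1) (η^p - η + l c) ξ')`.  `iA_dvd_iff`. -/
theorem Ctx.xi_congr (C : Ctx M p r π Φ w X ζ) {η ξ ξ' : F} (hη : IsOLx π X η) (hξ' : IsOLx π X ξ')
    (h : (1 + algebraMap A F π * η) ^ p * (1 + algebraMap A F π ^ p * ξ')
      = 1 + algebraMap A F π ^ p * ξ) :
    IsPiOLx π X (ξ - ξ' - (η ^ p - η)) := by
  have hπ := C.S.hπ
  obtain ⟨s, hs⟩ := wilson_cyclo C.hp C.hp2 C.hζ
  rw [← C.hπ] at hs
  set l : OFx hπ X F := iA hπ X π with hl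
  have hpl : ((p : ℕ) : OFx hπ X F) = l ^ (p - 1) * (-1 + l * iA hπ X s) := by
    have := congrArg (iA (F := F) hπ X) hs
    rwa [map_natCast, map_mul, map_pow, map_add, map_neg, map_one, map_mul] at this
  obtain ⟨c, hc⟩ := one_add_mul_pow C.hp C.hp2 hpl (⟨η, hη⟩ : OFx hπ X F)
  have hcF : (1 + algebraMap A F π * η) ^ p = 1 + algebraMap A F π ^ p * (η ^ p - η)
      + algebraMap A F π ^ (p + 1) * (c : F) := congrArg Subtype.val hc
  have hπF : algebraMap A F π ≠ 0 := by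
    rw [IsScalarTower.algebraMap_apply A E F, Ne, map_eq_zero]
    intro h0
    have := (transcendental_iff.1 C.hXt) (Polynomial.C π) (by rw [aeval_C, h0])
    exact hπ.ne_zero (C_eq_zero.1 this)
  obtain ⟨n, hn⟩ : ∃ n, p = n + 1 := ⟨p - 1, by have := C.hp.pos; omega⟩
  set L : F := algebraMap A F π with hL
  have key : ξ - ξ' - (η ^ p - η) = L * ((c : F) + L ^ n * ((η ^ p - η + L * (c : F)) * ξ')) := by
    have h1 : L ^ p * (ξ - ξ' - (η ^ p - η)) =
        L ^ p * (L * ((c : F) + L ^ n * ((η ^ p - η + L * (c : F)) * ξ'))) := by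
      rw [hcF] at h
      have e1 : L ^ (p + 1) = L ^ p * L := pow_succ _ _
      have e2 : L ^ p = L ^ n * L := by rw [hn, pow_succ]
      rw [e1] at h
      have e3 : L ^ p * (L * ((c : F) + L ^ n * ((η ^ p - η + L * (c : F)) * ξ'))) =
          L ^ p * L * (c : F) + L ^ p * (L ^ n * L) * ((η ^ p - η + L * (c : F)) * ξ') := by ring
      rw [e3, ← e2]
      linear_combination -h
    exact mul_left_cancel₀ (pow_ne_zero p hπF) h1
  rw [key]
  have hO : IsOLx π X ((c : F) + L ^ n * ((η ^ p - η + L * (c : F)) * ξ')) :=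
    (c + l ^ n * (((⟨η, hη⟩ : OFx hπ X F) ^ p - (⟨η, hη⟩ : OFx hπ X F) + l * c) *
      (⟨ξ', hξ'⟩ : OFx hπ X F))).2
  exact (iA_dvd_iff hπ X (l * ⟨_, hO⟩)).1 (dvd_mul_right _ _)

variable (r Φ w) in
/-- `(0, b)` is the reduction of an element of `M_x`. -/
def InI2 (x : E) (b : LaurentSeries k) : Prop :=
  ∃ e : F, IntX A x e ∧ RedK r (Φ e) 0 ∧ RedK r (Φ (w e)) b

/-! ### TASK `S44/PL-NodeA` -/

theorem InI2.add {x : E} {b b' : LaurentSeries k} (h : InI2 r Φ w x b) (h' : InI2 r Φ w x b') :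
    InI2 r Φ w x (b + b') := by
  obtain ⟨e, he, he₁, he₂⟩ := h
  obtain ⟨e', he', he₁', he₂'⟩ := h'
  refine ⟨e + e', (Mx A F x).add_mem he he', ?_, ?_⟩
  · exact (he₁.add he₁').congr (map_add Φ e e').symm (add_zero 0)
  · exact (he₂.add he₂').congr (by rw [map_add, map_add]) rfl

/-! helpers of TASK `S44/PL-NodeB` -/

/-- `R_x`: the elements of `F_k(M)` integral over `k[tk]`. -/
noncomputable def NodeB_R (M : ℕ) {k : Type} [Field k] (tk : LaurentSeries k) : Subring (LaurentSeries k) :=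
  letI := (evAt tk).toAlgebra
  (modularFunctionFieldFullC k M).toSubfield.toSubring ⊓
    (integralClosure k[X] (LaurentSeries k)).toSubring

theorem NodeB_mem_R {M : ℕ} {k : Type} [Field k] {tk s : LaurentSeries k} :
    s ∈ NodeB_R M tk ↔ s ∈ modularFunctionFieldFullC k M ∧ (evAt tk).IsIntegralElem s := Iff.rfl

theorem NodeB_C_mem_R {M : ℕ} {k : Type} [Field k] (tk : LaurentSeries k) (c : k) :
    (HahnSeries.C c : LaurentSeries k) ∈ NodeB_R M tk := by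
  refine NodeB_mem_R.2 ⟨?_, ?_⟩
  · have := (modularFunctionFieldFullC k M).algebraMap_mem c
    rwa [Fermat.Agent.Crux.GM.AlgClosed.algebraMap_eq_C] at this
  · have h : (HahnSeries.C c : LaurentSeries k) = evAt tk (Polynomial.C c) := by simp [evAt]
    rw [h]
    exact (evAt tk).isIntegralElem_map

/-- `d^p - d` integral ⟹ `d` integral. -/
theorem NodeB_int_of_AS {k : Type} [Field k] {p : ℕ} (hp : 2 ≤ p) {tk d : LaurentSeries k}
    (h : (evAt tk).IsIntegralElem (d ^ p - d)) : (evAt tk).IsIntegralElem d := by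
  letI := (evAt tk).toAlgebra
  have hm : (X ^ p - X : (k[X])[X]).Monic := by
    obtain ⟨n, rfl⟩ : ∃ n, p = n + 1 := ⟨p - 1, by omega⟩
    apply monic_X_pow_sub
    rw [degree_X]
    exact_mod_cast (by omega : 1 < n + 1)
  have hd : (X ^ p - X : (k[X])[X]).natDegree ≠ 0 := by
    rw [natDegree_sub_eq_left_of_natDegree_lt (by rw [natDegree_X, natDegree_X_pow]; omega),
      natDegree_X_pow]
    omega
  refine IsIntegral.of_aeval_monic (R := k[X]) hm hd ?_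
  have : aeval d (X ^ p - X : (k[X])[X]) = d ^ p - d := by simp
  rw [this]
  exact h

theorem NodeB_zero {x : E} : InI2 r Φ w x 0 :=
  ⟨0, (Mx A F x).zero_mem, by rw [map_zero]; exact RedK.zero,
    by rw [map_zero, map_zero]; exact RedK.zero⟩

theorem NodeB_sum {x : E} {ι : Type*} (s : Finset ι) (b : ι → LaurentSeries k)
    (h : ∀ i ∈ s, InI2 r Φ w x (b i)) : InI2 r Φ w x (∑ i ∈ s, b i) := by
  classical
  induction s using Finset.induction_on with
  | empty => simpa using NodeB_zero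
  | insert i s hi ih =>
    rw [Finset.sum_insert hi]
    exact (h i (Finset.mem_insert_self i s)).add
      (ih fun j hj => h j (Finset.mem_insert_of_mem hj))

/-- the telescoping identity in characteristic `p`. -/
theorem NodeB_telescope {R : Type*} [CommRing R] (p : ℕ) [Fact p.Prime] [CharP R p] (a b : R)
    (N : ℕ) : ∑ i ∈ Finset.range N, (a + (b ^ p - b)) ^ (p ^ i)
      = ∑ i ∈ Finset.range N, a ^ (p ^ i) + (b ^ (p ^ N) - b) := by
  induction N with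
  | zero => simp
  | succ N ih =>
    rw [Finset.sum_range_succ, Finset.sum_range_succ, ih, add_pow_char_pow, sub_pow_char_pow,
      ← pow_mul, ← pow_succ']
    ring

section chart

variable (C : Ctx M p r π Φ w X ζ) (x : E) (tk : LaurentSeries k)
  (hxk : RedK r (Φ (algebraMap E F x)) tk) (hwx : w (algebraMap E F x) = algebraMap E F x)
  (hVt : V k p tk = tk ^ p)
  (hlift : ∀ a ∈ modularFunctionFieldFullC k M, (evAt tk).IsIntegralElem a →
    ∃ c : F, IntX A x c ∧ RedK r (Φ c) a ∧ RedK r (Φ (w c)) (V k p a))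

include C hxk in
theorem NodeB_int_red {f : F} (hf : IntX A x f) {a : LaurentSeries k} (h : RedK r (Φ f) a) :
    (evAt tk).IsIntegralElem a :=
  RedK.isIntegralElem hxk h ((C.S.intX_iff _ _).1 ((intX_algebraMap_iff x f).2 hf))

include C hwx in
theorem NodeB_w_mem {f : F} (hf : IntX A x f) : IntX A x (w f) :=
  (intX_algebraMap_iff x _).1 (IntX.map w C.S.hwA hwx ((intX_algebraMap_iff x f).2 hf))

include C hxk hwx hVt hlift

/-- `c := hlift s`, `w c ∈ M_x` (`IntX.map w C.S.hwA`, `intX_algebraMap_iff`, `hwx`), `ρ (w c) = (V s, s)` (`C.S.hww`); multiply. -/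
theorem InI2.mul_right {b s : LaurentSeries k} (h : InI2 r Φ w x b)
    (hs : s ∈ modularFunctionFieldFullC k M) (hs' : (evAt tk).IsIntegralElem s) :
    InI2 r Φ w x (b * s) := by
  obtain ⟨e, he, he₁, he₂⟩ := h
  obtain ⟨c, hc, hc₁, hc₂⟩ := hlift s hs hs'
  have hwc : IntX A x (w c) :=
    (intX_algebraMap_iff x _).1 (IntX.map w C.S.hwA hwx ((intX_algebraMap_iff x _).2 hc))
  refine ⟨e * w c, he.mul hwc, ?_, ?_⟩
  · exact (he₁.mul hc₂).congr (map_mul Φ e (w c)).symm (zero_mul _)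
  · exact (he₂.mul hc₁).congr (by rw [map_mul, map_mul, C.S.hww]) rfl

/-- `w (hlift s) - hlift (V s)` has reduction `(0, s - V (V s))`  (`V_mem_full`, `V_isIntegralElem`; `CharP k p` from `C.S.BridgeX_charP`). -/
theorem InI2.sub_VV {s : LaurentSeries k}
    (hs : s ∈ modularFunctionFieldFullC k M) (hs' : (evAt tk).IsIntegralElem s) :
    InI2 r Φ w x (s - V k p (V k p s)) := by
  haveI : Fact p.Prime := ⟨C.hp⟩
  haveI hchar : CharP k p := C.S.BridgeX_charP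
  obtain ⟨c, hc, hc₁, hc₂⟩ := hlift s hs hs'
  obtain ⟨d, hd, hd₁, hd₂⟩ := hlift (V k p s) (V_mem_full k p M hs) (V_isIntegralElem k p hVt hs')
  have hwc : IntX A x (w c) :=
    (intX_algebraMap_iff x _).1 (IntX.map w C.S.hwA hwx ((intX_algebraMap_iff x _).2 hc))
  refine ⟨w c - d, (Mx A F x).sub_mem hwc hd, ?_, ?_⟩
  · exact (hc₂.sub hd₁).congr (map_sub Φ (w c) d).symm (sub_self _)
  · exact (hc₁.sub hd₂).congr (by rw [map_sub, map_sub, C.S.hww]) rfl

/-- telescoping + `SS.GM2.iterate_V_V_frob` (see the proof of `SS.GM2.exists_iterate_V_V_eq_pow`). -/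
theorem InI2.sub_pow {n : ℕ} (hn : Nat.card k = p ^ n) {s : LaurentSeries k}
    (hs : s ∈ modularFunctionFieldFullC k M) (hs' : (evAt tk).IsIntegralElem s) :
    InI2 r Φ w x (s - s ^ (p ^ (2 * n))) := by
  haveI : Fact p.Prime := ⟨C.hp⟩
  haveI hchar : CharP k p := C.S.BridgeX_charP
  have hmain : ∀ m : ℕ, ((V k p : LaurentSeries k → LaurentSeries k) ∘ (V k p))^[m] s
        ∈ modularFunctionFieldFullC k M ∧
      (evAt tk).IsIntegralElem (((V k p : LaurentSeries k → LaurentSeries k) ∘ (V k p))^[m] s) ∧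
      InI2 r Φ w x (s - ((V k p : LaurentSeries k → LaurentSeries k) ∘ (V k p))^[m] s) := by
    intro m
    induction m with
    | zero =>
      refine ⟨hs, hs', ?_⟩
      rw [Function.iterate_zero, id, sub_self]
      exact ⟨0, (Mx A F x).zero_mem, by rw [map_zero]; exact RedK.zero,
        by rw [map_zero, map_zero]; exact RedK.zero⟩
    | succ m ih =>
      obtain ⟨h1, h2, h3⟩ := ih
      rw [Function.iterate_succ_apply']
      refine ⟨V_mem_full k p M (V_mem_full k p M h1),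
        V_isIntegralElem k p hVt (V_isIntegralElem k p hVt h2), ?_⟩
      have h4 := h3.add (InI2.sub_VV C x tk hxk hwx hVt hlift h1 h2)
      rw [sub_add_sub_cancel] at h4
      exact h4
  have h1 : iterateFrobenius k p (2 * n) = RingHom.id k := by
    letI : Fintype k := Fintype.ofFinite k
    ext y
    rw [iterateFrobenius_def, RingHom.id_apply, two_mul, pow_add, pow_mul, ← hn,
      Nat.card_eq_fintype_card, FiniteField.pow_card, FiniteField.pow_card]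
  have h2 := iterate_V_V_frob k p n s
  rw [h1, coeffMap_id] at h2
  rw [← h2]
  exact (hmain n).2.2

/-! ### TASK `S44/PL-NodeB` -/


/-- **the node argument.**
1. `d₁`, `d₂` are integral over `k[tk]`: `ρ₁ f = d₁^p - d₁` is (`RedK.isIntegralElem hxk h₁`, `Setup.intX_iff`, `intX_algebraMap_iff`), then
   `IsIntegral.of_aeval_monic` with `T^p - T` (algebra structure `(evAt tk).toAlgebra`); for `d₂` use `w f ∈ M_x` and subtract the constant.
2. `c₁ := hlift d₁`; `f - (c₁^p - c₁)` shows `InI2 (u)`, `u := C a + (b₀^p - b₀)`, `b₀ := d₂ - V d₁` (`sub_pow_char`-type: `char k((q)) = p`; `V` is a ring hom).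
3. `u^(p^i) = u * u^(p^i - 1)` : `InI2 (u^(p^i))` (`mul_right`), so `InI2 (∑_{i<2n} u^(p^i))`, and
   `∑_{i<2n} u^(p^i) = C (∑ a^(p^i)) + (b₀^(p^(2n)) - b₀)` (telescoping, `add_pow_char_pow`).  Add `InI2 (b₀ - b₀^(p^(2n)))` (`sub_pow`): `InI2 (C T)`, `T = ∑_{i<2n} a^(p^i)`.
4. If `T ≠ 0`, `mul_right` with `C T⁻¹` gives `InI2 1`, contradicting `hno`.  So `T = 0`; `PL.exists_AS_of_sum_pow`  (`#k = p^n`: `FiniteField.card`). -/
theorem Ctx.node {f : F} (hf : IntX A x f) {d₁ d₂ : LaurentSeries k} {a : k}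
    (hd₁ : d₁ ∈ modularFunctionFieldFullC k M) (hd₂ : d₂ ∈ modularFunctionFieldFullC k M)
    (h₁ : RedK r (Φ f) (d₁ ^ p - d₁)) (h₂ : RedK r (Φ (w f)) (HahnSeries.C a + (d₂ ^ p - d₂)))
    (hno : ¬ InI2 r Φ w x 1) : ∃ c : k, c ^ p - c = a := by
  have hp : p.Prime := C.hp
  haveI : Fact p.Prime := ⟨hp⟩
  haveI : CharP k p := C.S.BridgeX_charP
  haveI : CharP (LaurentSeries k) p :=
    charP_of_injective_ringHom (HahnSeries.C_injective (Γ := ℤ) (R := k)) p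
  -- step 1
  have hd₁' : d₁ ∈ NodeB_R M tk :=
    NodeB_mem_R.2 ⟨hd₁, NodeB_int_of_AS hp.two_le (NodeB_int_red C x tk hxk hf h₁)⟩
  have hd₂' : d₂ ∈ NodeB_R M tk := by
    refine NodeB_mem_R.2 ⟨hd₂, NodeB_int_of_AS hp.two_le ?_⟩
    have h3 := NodeB_int_red C x tk hxk (NodeB_w_mem C x hwx hf) h₂
    have h4 := RingHom.IsIntegralElem.sub (evAt tk) h3
      (NodeB_mem_R.1 (NodeB_C_mem_R (M := M) tk a)).2
    rwa [add_sub_cancel_left] at h4
  have hV : V k p d₁ ∈ NodeB_R M tk :=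
    NodeB_mem_R.2 ⟨V_mem_full k p M hd₁, V_isIntegralElem k p hVt (NodeB_mem_R.1 hd₁').2⟩
  -- step 2
  obtain ⟨c₁, hc₁, hc₁1, hc₁2⟩ := hlift d₁ hd₁ (NodeB_mem_R.1 hd₁').2
  set b₀ := d₂ - V k p d₁ with hb₀
  have hb₀' : b₀ ∈ NodeB_R M tk := sub_mem hd₂' hV
  set u := HahnSeries.C a + (b₀ ^ p - b₀) with hu
  have hu' : u ∈ NodeB_R M tk :=
    add_mem (NodeB_C_mem_R tk a) (sub_mem (pow_mem hb₀' p) hb₀')
  have hIu : InI2 r Φ w x u := by
    refine ⟨f - (c₁ ^ p - c₁), (Mx A F x).sub_mem hf ((Mx A F x).sub_mem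
      ((Mx A F x).pow_mem hc₁ p) hc₁), ?_, ?_⟩
    · have := h₁.sub ((hc₁1.pow p).sub hc₁1)
      rw [sub_self] at this
      rwa [map_sub, map_sub, map_pow]
    · have := h₂.sub ((hc₁2.pow p).sub hc₁2)
      rw [map_sub w, map_sub w, map_pow w, map_sub, map_sub, map_pow]
      refine this.congr rfl ?_
      rw [hu, hb₀, sub_pow_char]
      ring
  -- step 3
  obtain ⟨n, hn⟩ : ∃ n : ℕ, Nat.card k = p ^ n := by
    have : Fintype k := Fintype.ofFinite k
    obtain ⟨n, -, hn⟩ := FiniteField.card k p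
    exact ⟨n, by rw [Nat.card_eq_fintype_card, hn]⟩
  have hpow : ∀ i : ℕ, InI2 r Φ w x (u ^ (p ^ i)) := by
    intro i
    have h3 := InI2.mul_right C x tk hxk hwx hVt hlift hIu
      (NodeB_mem_R.1 (pow_mem hu' (p ^ i - 1))).1 (NodeB_mem_R.1 (pow_mem hu' (p ^ i - 1))).2
    rwa [← pow_succ', Nat.sub_add_cancel (Nat.one_le_pow _ _ hp.pos)] at h3
  have hsum := NodeB_sum (r := r) (Φ := Φ) (w := w) (x := x) (Finset.range (2 * n))
    (fun i => u ^ (p ^ i)) (fun i _ => hpow i)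
  rw [hu, NodeB_telescope] at hsum
  have h5 := hsum.add (InI2.sub_pow C x tk hxk hwx hVt hlift hn (NodeB_mem_R.1 hb₀').1
    (NodeB_mem_R.1 hb₀').2)
  have h6 : ∑ i ∈ Finset.range (2 * n), (HahnSeries.C a : LaurentSeries k) ^ (p ^ i)
      + (b₀ ^ (p ^ (2 * n)) - b₀) + (b₀ - b₀ ^ (p ^ (2 * n)))
      = HahnSeries.C (∑ i ∈ Finset.range (2 * n), a ^ (p ^ i)) := by
    rw [map_sum]
    simp only [map_pow]
    ring
  rw [h6] at h5
  -- step 4
  by_cases hT : ∑ i ∈ Finset.range (2 * n), a ^ (p ^ i) = 0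
  · exact exists_AS_of_sum_pow hp C.hp2 hn a hT
  · exfalso
    apply hno
    have h7 := InI2.mul_right C x tk hxk hwx hVt hlift h5
      (NodeB_mem_R.1 (NodeB_C_mem_R (M := M) tk (∑ i ∈ Finset.range (2 * n), a ^ (p ^ i))⁻¹)).1
      (NodeB_mem_R.1 (NodeB_C_mem_R (M := M) tk (∑ i ∈ Finset.range (2 * n), a ^ (p ^ i))⁻¹)).2
    rwa [← map_mul, mul_inv_cancel₀ hT, map_one] at h7

/-- roots: if `ρ₁ f = d^p - d` with `d ∈ F_k(M)`, `f ∈ M_x`, there is `g ∈ M_x` with `ρ₁ (g^p - g - f) = 0`  (`d` is integral as in `node` step 1; `g := hlift d`);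
if `ρ₂ f = d^p - d`, there is `g ∈ M_x` with `ρ₂ (g^p - g - f) = 0`  (`g := w (hlift d)`). -/
theorem Ctx.exists_root₁ {f : F} (hf : IntX A x f) {d : LaurentSeries k}
    (hd : d ∈ modularFunctionFieldFullC k M) (h₁ : RedK r (Φ f) (d ^ p - d)) :
    ∃ g : F, IntX A x g ∧ RedK r (Φ (g ^ p - g - f)) 0 := by
  obtain ⟨g, hg, hg1, -⟩ := hlift d hd
    (NodeB_int_of_AS C.hp.two_le (NodeB_int_red C x tk hxk hf h₁))
  refine ⟨g, hg, ?_⟩
  have := ((hg1.pow p).sub hg1).sub h₁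
  rw [sub_self] at this
  rwa [map_sub, map_sub, map_pow]

theorem Ctx.exists_root₂ {f : F} (hf : IntX A x f) {d : LaurentSeries k}
    (hd : d ∈ modularFunctionFieldFullC k M) (h₂ : RedK r (Φ (w f)) (d ^ p - d)) :
    ∃ g : F, IntX A x g ∧ RedK r (Φ (w (g ^ p - g - f))) 0 := by
  obtain ⟨c, hc, hc1, -⟩ := hlift d hd
    (NodeB_int_of_AS C.hp.two_le (NodeB_int_red C x tk hxk (NodeB_w_mem C x hwx hf) h₂))
  refine ⟨w c, NodeB_w_mem C x hwx hc, ?_⟩
  have := ((hc1.pow p).sub hc1).sub h₂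
  rw [sub_self] at this
  rwa [map_sub w, map_sub w, map_pow w, C.S.hww, map_sub, map_sub, map_pow]

end chart

/-! ### TASK `S44/PL-Split` -/

/-- **(c7)+(c8).**  `ρ η = (e₁, e₂)` (`C.isOLx_iff`), `e_i ∈ F_k(M)` (`C.mem₁`, `C.mem₂`).  `xi_congr`: `ρ₁ ξ = (δ₁ + e₁)^p - (δ₁ + e₁)`,
`ρ₂ ξ = C a + (δ₂ + e₂)^p - (δ₂ + e₂)`.   `by_cases hno : InI2 r Φ w X 1`: if not, `Ctx.node` in the chart `X` (`C.redX`, `C.wX`, `V_castS`, `C.lift0`) with `f = ξ`;
if yes, then `¬ InI2 r Φ w X⁻¹ 1` by `C.not_both`, and `Ctx.node` in the chart `X⁻¹` with `f = ξ'` (arguments as in `SS.GM2.core2_abstract`).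
So `a = c^p - c`, `C a + (d^p - d) = (d + C c)^p - (d + C c)`; `exists_root₁`, `exists_root₂` in both charts. -/
theorem Ctx.split (C : Ctx M p r π Φ w X ζ) {η ξ ξ' : F} (hη : IsOLx π X η) (hξ : IntX A X ξ)
    (hξ' : IntX A X⁻¹ ξ')
    (h : (1 + algebraMap A F π * η) ^ p * (1 + algebraMap A F π ^ p * ξ')
      = 1 + algebraMap A F π ^ p * ξ)
    {δ₁ δ₂ : LaurentSeries k} {a : k}
    (hδ₁ : δ₁ ∈ modularFunctionFieldFullC k M) (hδ₂ : δ₂ ∈ modularFunctionFieldFullC k M)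
    (h₁ : RedK r (Φ ξ') (δ₁ ^ p - δ₁)) (h₂ : RedK r (Φ (w ξ')) (HahnSeries.C a + (δ₂ ^ p - δ₂))) :
    ∃ g₁ g₂ g₁' g₂' : F, IntX A X g₁ ∧ IntX A X g₂ ∧ IntX A X⁻¹ g₁' ∧ IntX A X⁻¹ g₂' ∧
      RedK r (Φ (g₁ ^ p - g₁ - ξ)) 0 ∧ RedK r (Φ (w (g₂ ^ p - g₂ - ξ))) 0 ∧
      RedK r (Φ (g₁' ^ p - g₁' - ξ')) 0 ∧ RedK r (Φ (w (g₂' ^ p - g₂' - ξ'))) 0 := by
  haveI : Fact p.Prime := ⟨C.hp⟩
  haveI hchar : CharP k p := C.S.BridgeX_charP
  haveI hcharL : CharP (LaurentSeries k) p :=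
    charP_of_injective_algebraMap (algebraMap k (LaurentSeries k)).injective p
  -- the reductions of `η`
  obtain ⟨e₁, e₂, he₁, he₂⟩ := (C.isOLx_iff η).1 hη
  have hme₁ := C.mem₁ he₁ he₂
  have hme₂ := C.mem₂ he₁ he₂
  have hξ'O : IsOLx π X ξ' := (C.isOLx_iff ξ').2 ⟨_, _, h₁, h₂⟩
  obtain ⟨hc₁, hc₂⟩ := (C.isPiOLx_iff _).1 (C.xi_congr hη hξ'O h)
  -- the reductions of `ξ`
  have hx₁ : RedK r (Φ ξ) ((δ₁ + e₁) ^ p - (δ₁ + e₁)) := by
    have h3 := (hc₁.add h₁).add ((he₁.pow p).sub he₁)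
    refine h3.congr ?_ ?_
    · simp only [map_sub, map_pow]; ring
    · rw [add_pow_char]; ring
  have hx₂ : RedK r (Φ (w ξ)) (HahnSeries.C a + ((δ₂ + e₂) ^ p - (δ₂ + e₂))) := by
    have h3 := (hc₂.add h₂).add ((he₂.pow p).sub he₂)
    refine h3.congr ?_ ?_
    · simp only [map_sub, map_pow]; ring
    · rw [add_pow_char]; ring
  -- the chart at infinity
  have hXk0 : castS k (Xh M p) ≠ 0 := by
    rw [castS_Xh k p M]
    refine pow_ne_zero _ ?_
    exact Fermat.Agent.Crux.GM.castS_ne_zero _ (by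
      rw [HahnSeries.leadingCoeff_eq, Fermat.Agent.Crux.GM.CoordJ.order_VJ,
        Fermat.Agent.Crux.GM.CoordJ.coeff_VJ_self])
  have hxk' : RedK r (Φ (algebraMap E F X⁻¹)) (castS k (Xh M p))⁻¹ := by
    rw [map_inv₀, map_inv₀]; exact C.redX.inv hXk0
  have hwx' : w (algebraMap E F X⁻¹) = algebraMap E F X⁻¹ := by
    rw [map_inv₀, map_inv₀, C.wX]
  have hVt' : V k p (castS k (Xh M p))⁻¹ = (castS k (Xh M p))⁻¹ ^ p := by
    rw [map_inv₀, V_castS k p, inv_pow]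
  -- `a = c ^ p - c`
  obtain ⟨c, hc⟩ : ∃ c : k, c ^ p - c = a := by
    by_cases hno : InI2 r Φ w X 1
    · have hno' : ¬ InI2 r Φ w X⁻¹ 1 := by
        rintro ⟨b, hb, hb₁, hb₂⟩
        obtain ⟨a', ha', ha₁, ha₂⟩ := hno
        exact C.not_both ha' hb ha₁ ha₂ hb₁ hb₂
      exact Ctx.node C X⁻¹ (castS k (Xh M p))⁻¹ hxk' hwx' hVt' C.liftinf hξ' hδ₁ hδ₂ h₁ h₂ hno'
    · exact Ctx.node C X (castS k (Xh M p)) C.redX C.wX (V_castS k p _) C.lift0 hξ
        (add_mem hδ₁ hme₁) (add_mem hδ₂ hme₂) hx₁ hx₂ hno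
  have hCc : (HahnSeries.C c : LaurentSeries k) ∈ modularFunctionFieldFullC k M := by
    have h3 : (HahnSeries.C c : LaurentSeries k) = algebraMap k (LaurentSeries k) c := by
      rw [algebraMap_laurentSeries_eq_single, HahnSeries.C_apply]
    rw [h3]
    exact IntermediateField.algebraMap_mem _ c
  have hCa : ∀ d : LaurentSeries k, HahnSeries.C a + (d ^ p - d)
      = (d + HahnSeries.C c) ^ p - (d + HahnSeries.C c) := by
    intro d
    rw [← hc, map_sub, map_pow, add_pow_char]; ring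
  rw [hCa] at hx₂ h₂
  obtain ⟨g₁, hg₁, hg₁'⟩ := Ctx.exists_root₁ C X (castS k (Xh M p)) C.redX C.wX (V_castS k p _)
    C.lift0 hξ (add_mem hδ₁ hme₁) hx₁
  obtain ⟨g₂, hg₂, hg₂'⟩ := Ctx.exists_root₂ C X (castS k (Xh M p)) C.redX C.wX (V_castS k p _)
    C.lift0 hξ (add_mem (add_mem hδ₂ hme₂) hCc) hx₂
  obtain ⟨g₃, hg₃, hg₃'⟩ := Ctx.exists_root₁ C X⁻¹ (castS k (Xh M p))⁻¹ hxk' hwx' hVt'
    C.liftinf hξ' hδ₁ h₁
  obtain ⟨g₄, hg₄, hg₄'⟩ := Ctx.exists_root₂ C X⁻¹ (castS k (Xh M p))⁻¹ hxk' hwx' hVt'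
    C.liftinf hξ' (add_mem hδ₂ hCc) h₂
  exact ⟨g₁, g₂, g₃, g₄, hg₁, hg₂, hg₃, hg₄, hg₁', hg₂', hg₃', hg₄'⟩

end Fermat.Agent.S44.PL
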