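import Fermat.Agent.S44.PL.Ctx

/-!
# S44 / PL / Stage1 : (c3)-(c5)  `z ≡ 1 mod π O_F`  ⟹  `y^p z = e (1 + π^p ξ)`, `y'^p z = e (1 + π^p ξ')`

TASK `S44/PL-Stage1`.
PROOF.  `C.exists_sf0`, `C.exists_sfinf` give `D0`, `Dinf`.  `Wild.start_x C.irr C.hXt C.hgen D0 C.hp C.pi_dvd_p hz hinv0` gives `y`, `IntX A X (y^p z)`
(`IsTwx` unfolds to this), `IsPiOLx π X (y - 1)`.  The same in the chart `X⁻¹` (`transcendental_inv`, `hgen_inv`, `isPiOLx_inv_iff C.irr.prime C.X_ne_zero`).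
`z`, `y`, `y'` are in `O_F` (`IsPiOLx → IsOLx`, `+ 1`): elements of `OFx C.S.hπ X F`.  Apply `C.twoCharts.normalize ev …` (`PL/Alg.lean`) with `ev` from
`C.exists_ev`, `hunit` from `C.unit_of_dvd` (`iA_dvd_iff`; `π ∣ c - 1` in `A` ⟸ `IsPiOLx (algebraMap (c - 1))` ⟸ reduce: `RedK.of_C`, `RedK.unique`,
`Crux.GM.dvd_of_map_eq_zero`), `hpl` from `PL.wilson_cyclo C.hp C.hp2 C.hζ` mapped by `iA` (`C.hπ`).
`ev ξ' = 0` + `C.coeff_of_intX_inv` give the vanishing of the coefficients of index `≤ 0`.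
-/

set_option autoImplicit false
set_option linter.unusedSectionVars false
set_option linter.style.haveILetI false

open Polynomial ModularCurve

namespace Fermat.Agent.S44.PL

open Fermat.Agent.Crux.G Fermat.Agent.SS.G2 Fermat.Agent.SS.GM2 Fermat.Agent.Wild
open Fermat.Agent.S28 (V J evAt)
open Fermat.Agent.Crux.GM (castS)

variable {M p : ℕ} [NeZero M] [NeZero p]
variable {A K k : Type} [CommRing A] [IsDomain A] [IsDiscreteValuationRing A] [Field K]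
  [CharZero K] [Algebra A K] [IsFractionRing A K] [Field k] [Finite k]
  {r : A →+* k} {π : A}
variable {F : Type} [Field F] [Algebra A F] {Φ : F →+* LaurentSeries K} {w : F →+* F}
variable {E : Type} [Field E] [CharZero E] [Algebra A E] [Algebra E F] [IsScalarTower A E F]
  [FiniteDimensional E F]
variable {X : E} {ζ : A}

theorem Ctx.stage1 (C : Ctx M p r π Φ w X ζ) {z : F} (hz : IsPiOLx π X (z - 1))
    (hinv0 : InvKx π X p z) (hinvinf : InvKx π X⁻¹ p z) :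
    ∃ (e e' : A) (y y' ξ ξ' : F), e * e' = 1 ∧ IsPiOLx π X (y - 1) ∧ IsPiOLx π X (y' - 1) ∧
      IntX A X ξ ∧ IntX A X⁻¹ ξ' ∧
      y ^ p * z = algebraMap A F e * (1 + algebraMap A F π ^ p * ξ) ∧
      y' ^ p * z = algebraMap A F e * (1 + algebraMap A F π ^ p * ξ') ∧
      ∀ n : ℤ, n ≤ 0 → (Φ ξ').coeff n = 0 := by
  obtain ⟨x₁, x₂, Z, iZ, ⟨D0⟩⟩ := C.exists_sf0
  obtain ⟨x₁', x₂', Z', iZ', ⟨Dinf⟩⟩ := C.exists_sfinf
  obtain ⟨y, hy, hy1⟩ := start_x C.irr C.hXt C.hgen D0 C.hp C.pi_dvd_p hz hinv0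
  obtain ⟨y', hy', hy1'⟩ := start_x C.irr (transcendental_inv C.hXt) (hgen_inv C.hXt C.hgen) Dinf
    C.hp C.pi_dvd_p ((isPiOLx_inv_iff C.irr.prime C.X_ne_zero _).2 hz) hinvinf
  have hy1'' : IsPiOLx π X (y' - 1) := (isPiOLx_inv_iff C.irr.prime C.X_ne_zero _).1 hy1'
  have hinj : Function.Injective (algebraMap A F) := by
    intro a b hab
    apply IsFractionRing.injective A K
    apply HahnSeries.C_injective (Γ := ℤ)
    rw [← C.S.hΦA, ← C.S.hΦA, hab]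
  have hO : ∀ {t : F}, IsPiOLx π X (t - 1) → IsOLx π X t := by
    intro t ht
    have := IsOLx.add C.irr (IsPiOLx.isOLx' ht) (isOLx_one C.irr)
    rwa [sub_add_cancel] at this
  obtain ⟨ev, hev⟩ := C.exists_ev
  have hevC : ∀ x, ev x ∈ (iA (F := F) C.S.hπ X).range := fun x => by
    obtain ⟨a, ha, -⟩ := hev x
    exact ⟨a, ha.symm⟩
  have hevc : ∀ (c : OFx C.S.hπ X F) (hc : c ∈ (iA (F := F) C.S.hπ X).range),
      ev ⟨c, C.twoCharts.C_leinf hc⟩ = c := by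
    rintro _ ⟨a, rfl⟩
    obtain ⟨b, hb, hb2⟩ := hev ⟨iA C.S.hπ X a, C.twoCharts.C_leinf ⟨a, rfl⟩⟩
    rw [hb]
    have hba : b = a := by
      apply IsFractionRing.injective A K
      rw [hb2]
      show (Φ (algebraMap A F a)).coeff 0 = _
      rw [C.S.hΦA, HahnSeries.C_apply, HahnSeries.coeff_single_same]
    rw [hba]
  have hunit : ∀ c ∈ (iA (F := F) C.S.hπ X).range, iA C.S.hπ X π ∣ c - 1 →
      ∃ c' ∈ (iA (F := F) C.S.hπ X).range, c * c' = 1 := by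
    rintro _ ⟨a, rfl⟩ hd
    have h1 : IsPiOLx π X (algebraMap A F (a - 1)) := by
      have := (iA_dvd_iff C.S.hπ X _).1 hd
      rw [map_sub, map_one]
      exact this
    have h2 : π ∣ a - 1 := by
      have h3 := ((C.isPiOLx_iff _).1 h1).1
      rw [C.S.hΦA] at h3
      have h4 := RedK.unique h3 (RedK.of_C (a - 1))
      apply Fermat.Agent.Crux.GM.dvd_of_map_eq_zero r C.S.hr C.S.hπ
      apply HahnSeries.C_injective (Γ := ℤ)
      rw [← h4, map_zero]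
    obtain ⟨c', hc'⟩ := C.unit_of_dvd h2
    exact ⟨iA C.S.hπ X c', ⟨c', rfl⟩, by rw [← map_mul, hc', map_one]⟩
  have hpl : (iA (F := F) C.S.hπ X π) ^ (p - 1) ∣ ((p : ℕ) : OFx C.S.hπ X F) := by
    obtain ⟨s, hs⟩ := wilson_cyclo C.hp C.hp2 C.hζ
    rw [← C.hπ] at hs
    refine ⟨iA C.S.hπ X (-1 + π * s), ?_⟩
    rw [← map_pow, ← map_mul, ← hs, map_natCast]
  obtain ⟨_, ⟨e0, rfl⟩, _, ⟨e0', rfl⟩, hee', ξ, hξ, ξ', h1, h2, h3⟩ :=
    C.twoCharts.normalize ev hevC hevc hunit C.hp hpl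
      (z := (⟨z, hO hz⟩ : OFx C.S.hπ X F)) (y := (⟨y, hO hy1⟩ : OFx C.S.hπ X F))
      (y' := (⟨y', hO hy1''⟩ : OFx C.S.hπ X F)) hy hy'
      ((iA_dvd_iff C.S.hπ X _).2 hz) ((iA_dvd_iff C.S.hπ X _).2 hy1)
      ((iA_dvd_iff C.S.hπ X _).2 hy1'')
  refine ⟨e0, e0', y, y', ξ, ((ξ' : OFx C.S.hπ X F) : F), ?_, hy1, hy1'', hξ, ξ'.2,
    congrArg Subtype.val h1, congrArg Subtype.val h2, ?_⟩
  · apply hinj
    rw [map_mul, map_one]
    exact congrArg Subtype.val hee'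
  · intro n hn
    obtain ⟨hneg, -⟩ := C.coeff_of_intX_inv (f := ((ξ' : OFx C.S.hπ X F) : F)) ξ'.2
    rcases hn.lt_or_eq with h | rfl
    · exact hneg n h
    · obtain ⟨a, ha, ha2⟩ := hev ξ'
      rw [h3] at ha
      have ha0 : a = 0 := by
        apply hinj
        rw [map_zero]
        exact (congrArg Subtype.val ha).symm
      rw [← ha2, ha0, map_zero]

end Fermat.Agent.S44.PL
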