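import Fermat.Agent.S44.PL.Stage0
import Fermat.Agent.S44.PL.Stage1
import Fermat.Agent.S44.PL.Raise
import Fermat.Agent.S44.PL.Split

/-!
# S44 / PL / Main : the cover structure `(C0)`, abstract form     (board #2328, #2712)

`cover_abstract` : see the statement.  `l = algebraMap A F π`, `π = ζ - 1`.
TASK `S44/PL-MainAux` : `invKx_mul_pow`, `Ctx.exists_const`, `Ctx.pow_of_lc`, `Ctx.exists_eta`.
-/

set_option autoImplicit false
set_option linter.unusedSectionVars false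
set_option linter.style.haveILetI false

open Polynomial ModularCurve

namespace Fermat.Agent.S44.PL

open Fermat.Agent.Crux.G Fermat.Agent.SS.G2 Fermat.Agent.SS.GM2 Fermat.Agent.Wild
open Fermat.Agent.S28 (V J evAt)
open Fermat.Agent.Crux.GM (castS)
open Fermat.Agent.ES (normSer)

variable {M p : ℕ} [NeZero M] [NeZero p]
variable {A K k : Type} [CommRing A] [IsDomain A] [IsDiscreteValuationRing A] [Field K]
  [CharZero K] [Algebra A K] [IsFractionRing A K] [Field k] [Finite k]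
  {r : A →+* k} {π : A}
variable {F : Type} [Field F] [Algebra A F] {Φ : F →+* LaurentSeries K} {w : F →+* F}
variable {E : Type} [Field E] [CharZero E] [Algebra A E] [Algebra E F] [IsScalarTower A E F]
  [FiniteDimensional E F]
variable {X : E} {ζ : A}

/-! ### TASK `S44/PL-MainAux` -/

/-- replace `a i`, `b i` by `a i / Y`, `b i * Y`  (unfold `InvKx`, `InvK`). -/
theorem invKx_mul_pow {x : E} {m : ℕ} {W Y : F} (hY : Y ≠ 0) (h : InvKx π x m W) :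
    InvKx π x m (Y ^ m * W) := by
  unfold InvKx InvK at h ⊢
  obtain ⟨n, a, b, ha, hb, hab⟩ := h
  refine ⟨n, fun i => a i / Y, fun i => b i * Y, fun i => ?_, fun i => ?_, ?_⟩
  · have e : (a i / Y) ^ m * (Y ^ m * W) = a i ^ m * W := by
      have hYm : Y ^ m ≠ 0 := pow_ne_zero _ hY
      rw [div_pow]
      field_simp
    simp only [e]
    exact ha i
  · have e : (b i * Y) ^ m * (Y ^ m * W)⁻¹ = b i ^ m * W⁻¹ := by
      have hYm : Y ^ m ≠ 0 := pow_ne_zero _ hY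
      rw [_root_.mul_pow, mul_inv, mul_assoc, ← mul_assoc (Y ^ m), mul_inv_cancel₀ hYm, one_mul]
    simp only [e]
    exact hb i
  · rw [← hab]
    refine Finset.sum_congr rfl fun i _ => ?_
    field_simp

/-- constants: `d = a / b` (`IsFractionRing.div_surjective`), `D := algebraMap A F a / algebraMap A F b`, `C.S.hΦA`. -/
theorem Ctx.exists_const (C : Ctx M p r π Φ w X ζ) (d : K) : ∃ D : F, Φ D = HahnSeries.C d := by
  obtain ⟨a, b, -, rfl⟩ := IsFractionRing.div_surjective (A := A) d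
  refine ⟨algebraMap A F a / algebraMap A F b, ?_⟩
  rw [map_div₀, C.S.hΦA, C.S.hΦA, map_div₀]

/-- leading coefficients: `1 + lam^p Φ ξ'` has order `0` and leading coefficient `1`; `HahnSeries.leadingCoeff_mul`, `leadingCoeff_pow`. -/
theorem Ctx.pow_of_lc (C : Ctx M p r π Φ w X ζ) {U W ξ' : F} {e : A} (he : e ≠ 0)
    (hlc : (Φ W).leadingCoeff = 1) (hξ' : ∀ n : ℤ, n ≤ 0 → (Φ ξ').coeff n = 0)
    (h : U ^ p * W = algebraMap A F e * (1 + algebraMap A F π ^ p * ξ')) :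
    ∃ d : K, d ≠ 0 ∧ d ^ p = algebraMap A K e := by
  have heK : algebraMap A K e ≠ 0 := by
    rw [Ne, map_eq_zero_iff _ (IsFractionRing.injective A K)]
    exact he
  -- the series `z = 1 + lam^p Φ ξ'`
  have hz : ∀ z : LaurentSeries K, (∀ n : ℤ, n < 0 → z.coeff n = 0) → z.coeff 0 = 1 →
      z.leadingCoeff = 1 := by
    intro z h1 h2
    have hz0 : z ≠ 0 := by
      rintro rfl
      rw [HahnSeries.coeff_zero] at h2
      exact zero_ne_one h2
    have ho : z.order = 0 := by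
      refine le_antisymm (HahnSeries.order_le_of_coeff_ne_zero (by rw [h2]; exact one_ne_zero)) ?_
      exact (HahnSeries.le_order_iff_forall hz0).2 h1
    rw [HahnSeries.leadingCoeff_eq, ho, h2]
  have hpow : ∀ (u : LaurentSeries K) (n : ℕ), (u ^ n).leadingCoeff = u.leadingCoeff ^ n := by
    intro u n
    induction n with
    | zero => rw [pow_zero, pow_zero, HahnSeries.leadingCoeff_one]
    | succ n ih => rw [pow_succ, pow_succ, HahnSeries.leadingCoeff_mul, ih]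
  have hco : ∀ n : ℤ, (HahnSeries.C (algebraMap A K π) ^ p * Φ ξ').coeff n
      = algebraMap A K π ^ p * (Φ ξ').coeff n := by
    intro n
    rw [← map_pow, HahnSeries.C_mul_eq_smul, HahnSeries.coeff_smul, smul_eq_mul]
  have h1 := congrArg (fun f => (Φ f).leadingCoeff) h
  simp only [map_mul, map_pow, map_add, map_one, C.S.hΦA] at h1
  rw [HahnSeries.leadingCoeff_mul, HahnSeries.leadingCoeff_mul, hlc, mul_one, hpow,
    hz (1 + HahnSeries.C (algebraMap A K π) ^ p * Φ ξ') ?_ ?_, mul_one, HahnSeries.C_apply,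
    HahnSeries.leadingCoeff_of_single] at h1
  · refine ⟨(Φ U).leadingCoeff, ?_, h1⟩
    intro h0
    rw [h0, zero_pow C.hp.ne_zero] at h1
    exact heK h1.symm
  · intro n hn
    rw [HahnSeries.coeff_add, hco, hξ' n hn.le, mul_zero, add_zero, HahnSeries.coeff_one,
      if_neg hn.ne]
  · rw [HahnSeries.coeff_add, hco, hξ' 0 le_rfl, mul_zero, add_zero, HahnSeries.coeff_one,
      if_pos rfl]

/-- `y, y' ≡ 1 mod π O_F` ⟹ `y / y' = 1 + l η`, `η ∈ O_F`.  (`C.isPiOLx_iff`: `ρ_i y' = 1 ≠ 0`, `RedK.inv`/`RedK.div`: `ρ_i (y / y' - 1) = 0`; then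
`isPiOLx_iff` of `Crux/G` (`IsPiOLx π X f ↔ ∃ c, IsOLx π X c ∧ f = π c`, see `Wild.iA_dvd_iff`).) -/
theorem Ctx.exists_eta (C : Ctx M p r π Φ w X ζ) {y y' : F} (hy : IsPiOLx π X (y - 1))
    (hy' : IsPiOLx π X (y' - 1)) :
    y' ≠ 0 ∧ y ≠ 0 ∧ ∃ η : F, IsOLx π X η ∧ y / y' = 1 + algebraMap A F π * η := by
  have key : ∀ u : F, IsPiOLx π X (u - 1) → RedK r (Φ u) 1 ∧ RedK r (Φ (w u)) 1 ∧ u ≠ 0 := by
    intro u hu
    obtain ⟨h1, h2⟩ := (C.isPiOLx_iff _).1 hu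
    have h3 : RedK r (Φ u) 1 :=
      (h1.add RedK.one).congr (by rw [map_sub, map_one, sub_add_cancel]) (zero_add 1)
    have h4 : RedK r (Φ (w u)) 1 :=
      (h2.add RedK.one).congr (by rw [map_sub, map_sub, map_one, map_one, sub_add_cancel])
        (zero_add 1)
    refine ⟨h3, h4, ?_⟩
    rintro rfl
    rw [map_zero] at h3
    exact zero_ne_one (RedK.zero.unique h3)
  obtain ⟨a1, a2, a3⟩ := key y hy
  obtain ⟨b1, b2, b3⟩ := key y' hy'
  refine ⟨b3, a3, ?_⟩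
  have hpi : IsPiOLx π X (y / y' - 1) := by
    refine (C.isPiOLx_iff _).2 ⟨?_, ?_⟩
    · exact ((a1.div b1 one_ne_zero).sub RedK.one).congr
        (by rw [map_sub, map_div₀, map_one]) (by rw [div_one, sub_self])
    · exact ((a2.div b2 one_ne_zero).sub RedK.one).congr
        (by rw [map_sub, map_sub, map_div₀, map_div₀, map_one, map_one])
        (by rw [div_one, sub_self])
  obtain ⟨z, hz, hz'⟩ := (Fermat.Agent.Crux.G.isPiOLx_iff π X _).1 hpi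
  refine ⟨z, hz, ?_⟩
  rw [← IsScalarTower.algebraMap_apply] at hz'
  rw [← hz']
  ring

/-- **(C0), abstract form.** -/
theorem cover_abstract (C : Ctx M p r π Φ w X ζ) {W : F} (hlc : (Φ W).leadingCoeff = 1)
    (hinv0 : InvKx π X p W) (hinvinf : InvKx π X⁻¹ p W)
    (n₁ n₂ : ℤ) {ψ₁ ψ₂ : LaurentSeries k}
    (hψ₁ : ψ₁ ∈ modularFunctionFieldFullC k M) (hψ₂ : ψ₂ ∈ modularFunctionFieldFullC k M)
    (h0₁ : ψ₁ ≠ 0) (h0₂ : ψ₂ ≠ 0)
    (h₁ : RedK r (Φ W * lam K π ^ ((p : ℤ) * n₁)) (ψ₁ ^ p))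
    (h₂ : RedK r (Φ (w W) * lam K π ^ ((p : ℤ) * n₂)) (ψ₂ ^ p))
    (hN₁ : ∀ Y : F, Y ≠ 0 → ∃ H : F, Φ H ∈ modularFunctionFieldFullC K M ∧
      Φ (Y ^ p * W) * normSer p (Φ (w (Y ^ p * W))) = Φ H ^ p)
    (hN₂ : ∀ Y : F, Y ≠ 0 → ∃ (c : K) (H : F), Φ H ∈ modularFunctionFieldFullC K M ∧
      Φ (w (Y ^ p * W)) * normSer p (Φ (Y ^ p * W)) = HahnSeries.C c * Φ H ^ p) :
    ∃ Y₁ η ξ' ξ g₁ g₂ g₁' g₂' : F, Y₁ ≠ 0 ∧
      Y₁ ^ p * W = 1 + algebraMap A F π ^ p * ξ' ∧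
      IntX A X⁻¹ ξ' ∧ (∀ n : ℤ, n ≤ 0 → (Φ ξ').coeff n = 0) ∧
      IsOLx π X η ∧
      (1 + algebraMap A F π * η) ^ p * (1 + algebraMap A F π ^ p * ξ')
        = 1 + algebraMap A F π ^ p * ξ ∧
      IntX A X ξ ∧
      IntX A X g₁ ∧ IntX A X g₂ ∧ IntX A X⁻¹ g₁' ∧ IntX A X⁻¹ g₂' ∧
      RedK r (Φ (g₁ ^ p - g₁ - ξ)) 0 ∧ RedK r (Φ (w (g₂ ^ p - g₂ - ξ))) 0 ∧
      RedK r (Φ (g₁' ^ p - g₁' - ξ')) 0 ∧ RedK r (Φ (w (g₂' ^ p - g₂' - ξ'))) 0 := by
  obtain ⟨Y₀, hY₀, hz⟩ := C.stage0 n₁ n₂ hψ₁ hψ₂ h0₁ h0₂ h₁ h₂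
  obtain ⟨e, e', y, y', ξ, ξ', hee, hy, hy', hξ, hξ', hyz, hyz', hco⟩ :=
    C.stage1 hz (invKx_mul_pow hY₀ hinv0) (invKx_mul_pow hY₀ hinvinf)
  obtain ⟨hy'0, hy0, η, hη, hyη⟩ := C.exists_eta hy hy'
  have he0 : e ≠ 0 := by
    rintro rfl
    rw [zero_mul] at hee
    exact zero_ne_one hee
  have hU : (y' * Y₀) ^ p * W = algebraMap A F e * (1 + algebraMap A F π ^ p * ξ') := by
    rw [← hyz']; ring
  obtain ⟨d, hd0, hd⟩ := C.pow_of_lc he0 hlc hco hU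
  obtain ⟨D, hD⟩ := C.exists_const d
  have hD0 : D ≠ 0 := by
    rintro rfl
    rw [map_zero] at hD
    exact hd0 (HahnSeries.C_injective (by rw [← hD, map_zero]))
  have hDe : D ^ p = algebraMap A F e := Φ.injective (by
    rw [map_pow, hD, C.S.hΦA, ← map_pow, hd])
  have heF : algebraMap A F e ≠ 0 := by rw [← hDe]; exact pow_ne_zero _ hD0
  have hY₁0 : y' * Y₀ / D ≠ 0 := div_ne_zero (mul_ne_zero hy'0 hY₀) hD0
  have hY₁ : (y' * Y₀ / D) ^ p * W = 1 + algebraMap A F π ^ p * ξ' := by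
    rw [div_pow, hDe, div_mul_eq_mul_div, hU, mul_div_cancel_left₀ _ heF]
  -- the relation between the two charts
  have hz0 : Y₀ ^ p * W ≠ 0 := by
    intro h0
    rw [h0, mul_zero] at hyz'
    rcases mul_eq_zero.1 hyz'.symm with h | h
    · exact heF h
    · rw [h0, mul_zero] at hyz
      rw [← hY₁] at h
      have : W = 0 := by
        rcases mul_eq_zero.1 h0 with h' | h'
        · exact absurd h' (pow_ne_zero _ hY₀)
        · exact h'
      rw [this, map_zero, HahnSeries.leadingCoeff_zero] at hlc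
      exact zero_ne_one hlc
  have hrel : (1 + algebraMap A F π * η) ^ p * (1 + algebraMap A F π ^ p * ξ')
      = 1 + algebraMap A F π ^ p * ξ := by
    rw [← hyη, div_pow]
    have h3 : y' ^ p ≠ 0 := pow_ne_zero _ hy'0
    have e1 : 1 + algebraMap A F π ^ p * ξ' = y' ^ p * (Y₀ ^ p * W) / algebraMap A F e := by
      rw [hyz', mul_div_cancel_left₀ _ heF]
    have e2 : 1 + algebraMap A F π ^ p * ξ = y ^ p * (Y₀ ^ p * W) / algebraMap A F e := by
      rw [hyz, mul_div_cancel_left₀ _ heF]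
    rw [e1, e2]
    field_simp
  -- reductions of `ξ'`
  have hξ'O : IsOLx π X ξ' :=
    (isOLx_inv_iff C.irr.prime C.X_ne_zero ξ').1 (IntX.isOLx C.irr hξ')
  obtain ⟨x₁, x₂, hx₁, hx₂⟩ := (C.isOLx_iff ξ').1 hξ'O
  obtain ⟨H, hH, hNH⟩ := hN₁ _ hY₁0
  obtain ⟨c, H', hH', hNH'⟩ := hN₂ _ hY₁0
  rw [hY₁] at hNH hNH'
  obtain ⟨δ₁, hδ₁, rfl⟩ := C.raise₁ hx₁ hx₂ hH hNH
  obtain ⟨a, δ₂, hδ₂, rfl⟩ := C.raise₂ hx₁ hx₂ hH' hNH'
  obtain ⟨g₁, g₂, g₁', g₂', k1, k2, k3, k4, k5, k6, k7, k8⟩ :=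
    C.split hη hξ hξ' hrel hδ₁ hδ₂ hx₁ hx₂
  exact ⟨_, η, ξ', ξ, g₁, g₂, g₁', g₂', hY₁0, hY₁, hξ', hco, hη, hrel, hξ, k1, k2, k3, k4, k5, k6,
    k7, k8⟩

end Fermat.Agent.S44.PL
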