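import Fermat.Agent.SS.GM2.BridgeX
import Fermat.Agent.Crux.G.Lifts
import Fermat.Agent.Wild.ChartP
import Fermat.Agent.S44.PL.Alg

/-!
# S44 / PL / H0bar : (c4) of board #2328, "H0BAR", in the `GM2.Setup` / `QL` language

* `const_of_integral_both` : `s ∈ k((q))` integral over `k[t]` and over `k[t⁻¹]` is a constant.
* `h0bar` : `a ∈ M(X)`, `b ∈ M(X⁻¹)`, `a ≡ b mod π O_F`  ⟹  `a ≡ c mod π O_F` for some `c ∈ A`
  (THE SAME constant on both components: `G.conn_of_lifts`).
* `twoCharts` : the instance of `PL.TwoCharts` on `O = Wild.OFx`.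
-/

set_option autoImplicit false
set_option linter.unusedSectionVars false

open Polynomial ModularCurve

namespace Fermat.Agent.S44.PL

open Fermat.Agent.Crux.G Fermat.Agent.SS.G2 Fermat.Agent.SS.GM2
open Fermat.Agent.S28 (V J evAt)
open Fermat.Agent.Crux.GM (castS)

/-- `(evAt t).IsIntegralElem s` in the language of `Crux/G/Conn`. -/
theorem mem_IC_of_evAt {k : Type*} [Field k] {t s : LaurentSeries k}
    (h : (evAt t).IsIntegralElem s) : s ∈ Conn.IC (Algebra.adjoin k {t}) := by
  obtain ⟨P, hP, hPs⟩ := h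
  let t' : Algebra.adjoin k {t} := ⟨t, Algebra.subset_adjoin rfl⟩
  let φ : k[X] →+* Algebra.adjoin k {t} := ((aeval t' : k[X] →ₐ[k] _) : k[X] →+* _)
  have hcomp : (algebraMap (Algebra.adjoin k {t}) (LaurentSeries k)).comp φ = evAt t := by
    refine Polynomial.ringHom_ext (fun a => ?_) ?_
    · simp only [φ, RingHom.comp_apply, RingHom.coe_coe, aeval_C, evAt, coe_eval₂RingHom, eval₂_C]
      rw [← IsScalarTower.algebraMap_apply, Fermat.Agent.S28.C_eq_algebraMap]
    · simp only [φ, RingHom.comp_apply, RingHom.coe_coe, aeval_X, evAt, coe_eval₂RingHom, eval₂_X]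
      rfl
  refine Conn.mem_IC.2 ⟨P.map φ, hP.map _, ?_⟩
  rw [eval₂_map, hcomp]
  exact hPs

/-- an element of `k((q))` integral over `k[t]` and over `k[t⁻¹]` is a constant. -/
theorem const_of_integral_both {k : Type*} [Field k] {t s : LaurentSeries k}
    (h0 : (evAt t).IsIntegralElem s) (h1 : (evAt t⁻¹).IsIntegralElem s) :
    ∃ c : k, s = HahnSeries.C c :=
  Fermat.Agent.Crux.GM.eq_C_of_isAlgebraic s
    (Conn.isIntegral_of_mem_of_mem (x := t) (mem_IC_of_evAt h0) (mem_IC_of_evAt h1)).isAlgebraic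

variable {M ℓ : ℕ} [NeZero M] [NeZero ℓ]
variable {A K k : Type} [CommRing A] [IsDomain A] [IsDiscreteValuationRing A] [Field K]
  [Algebra A K] [IsFractionRing A K] [Field k] {r : A →+* k} {π : A}
variable {F : Type} [Field F] [Algebra A F] {Φ : F →+* LaurentSeries K} {w : F →+* F}
variable {E : Type} [Field E] [Algebra A E] [Algebra E F] [IsScalarTower A E F]

/-- (H0) for `F` (no `Algebra K Kb`). -/
theorem H0_of_setup (S : Setup M ℓ r π Φ w) (z : F) (hz : IsIntegral A z) :
    z ∈ Set.range (algebraMap A F) := by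
  obtain ⟨P, hP, hPz⟩ := hz
  have hcomp : Φ.comp (algebraMap A F)
      = (HahnSeries.C : K →+* LaurentSeries K).comp (algebraMap A K) := RingHom.ext S.hΦA
  obtain ⟨a, ha⟩ := Fermat.Agent.Crux.GM.eq_C_of_isIntegralElem (A := A) (Φ z) ⟨P, hP, by
    rw [← hcomp, ← Polynomial.hom_eval₂, hPz, map_zero]⟩
  exact ⟨a, Φ.injective (by rw [S.hΦA, ha])⟩

/-- the reduction of an element of `M(X)` which is congruent to an element of `M(X⁻¹)` is a
constant (one embedding). -/
theorem red_const (S : Setup M ℓ r π Φ w) {x : E} {tk : LaurentSeries k}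
    (hxk : RedK r (Φ (algebraMap E F x)) tk) (htk : tk ≠ 0)
    {a b : F} (ha : IntX A x a) (hb : IntX A x⁻¹ b) {ab : LaurentSeries k}
    (h1 : RedK r (Φ a) ab) (h2 : RedK r (Φ b) ab) : ∃ c : k, ab = HahnSeries.C c := by
  have ha' := (S.intX_iff _ _).1 ((intX_algebraMap_iff x a).2 ha)
  have hb' := (S.intX_iff _ _).1 ((intX_algebraMap_iff x⁻¹ b).2 hb)
  have hxk' : RedK r (Φ (algebraMap E F x⁻¹)) tk⁻¹ := by
    rw [map_inv₀, map_inv₀]
    exact hxk.inv htk
  exact const_of_integral_both (RedK.isIntegralElem hxk h1 ha') (RedK.isIntegralElem hxk' h2 hb')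

/-- **H0BAR.** -/
theorem h0bar [CharZero E] [FiniteDimensional E F] (S : Setup M ℓ r π Φ w) {x : E}
    (hx : Transcendental A x)
    (hgen : ∀ c : E, ∃ p q : A[X], q ≠ 0 ∧ c * aeval x q = aeval x p)
    (hwx : w (algebraMap E F x) = algebraMap E F x) {tk : LaurentSeries k}
    (hxk : RedK r (Φ (algebraMap E F x)) tk) (htk : tk ≠ 0)
    (Q : QL M r π Φ w (algebraMap E F x))
    {a b : F} (ha : IntX A x a) (hb : IntX A x⁻¹ b) (hab : IsPiOLx π x (a - b)) :
    ∃ c : A, IsPiOLx π x (a - algebraMap A F c) := by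
  have hπ := S.hπ
  have hx0 : x ≠ 0 := by
    rintro rfl
    exact hx isAlgebraic_zero
  have hwxi : w (algebraMap E F x⁻¹) = algebraMap E F x⁻¹ := by
    rw [map_inv₀, map_inv₀, hwx]
  -- the reductions
  obtain ⟨a₁, a₂, ha₁, ha₂⟩ := Q.red a ((isOLx_algebraMap_iff π x a).2 (IntX.isOLx hπ ha))
  obtain ⟨d₁, d₂⟩ := Q.red0 (a - b) ((isPiOLx_algebraMap_iff π x _).2 hab)
  have hb₁ : RedK r (Φ b) a₁ := by
    have := ha₁.sub d₁
    rwa [← map_sub, sub_sub_cancel, sub_zero] at this
  have hb₂ : RedK r (Φ (w b)) a₂ := by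
    have := ha₂.sub d₂
    rwa [← map_sub, ← map_sub, sub_sub_cancel, sub_zero] at this
  have hwa : IntX A x (w a) :=
    (intX_algebraMap_iff x _).1 (IntX.map w S.hwA hwx ((intX_algebraMap_iff x a).2 ha))
  have hwb : IntX A x⁻¹ (w b) :=
    (intX_algebraMap_iff x⁻¹ _).1 (IntX.map w S.hwA hwxi ((intX_algebraMap_iff x⁻¹ b).2 hb))
  obtain ⟨c₁, rfl⟩ := red_const S hxk htk ha hb ha₁ hb₁
  obtain ⟨c₂, rfl⟩ := red_const S hxk htk hwa hwb ha₂ hb₂
  obtain ⟨C₁, rfl⟩ := S.hr c₁
  obtain ⟨C₂, rfl⟩ := S.hr c₂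
  have redC : ∀ c : A, RedK r (Φ (algebraMap A F c)) (HahnSeries.C (r c)) := fun c => by
    rw [S.hΦA]; exact RedK.of_C c
  have redwC : ∀ c : A, RedK r (Φ (w (algebraMap A F c))) (HahnSeries.C (r c)) := fun c => by
    rw [S.hwA]; exact redC c
  by_cases hcc : r C₁ = r C₂
  · refine ⟨C₁, (isPiOLx_algebraMap_iff π x _).1 (Q.isPiOL _ ?_ ?_)⟩
    · have := ha₁.sub (redC C₁)
      rwa [← map_sub, sub_self] at this
    · have := ha₂.sub (redwC C₁)
      rwa [← map_sub, ← map_sub, hcc, sub_self] at this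
  · exfalso
    -- the unit `d = C₁ - C₂`
    have hd : r (C₁ - C₂) ≠ 0 := by rw [map_sub]; exact sub_ne_zero.2 hcc
    have hdu : IsUnit (C₁ - C₂) := by
      by_contra hnu
      have h1 : π ∣ C₁ - C₂ := by
        have := (IsDiscreteValuationRing.irreducible_iff_uniformizer π).1 hπ
        have h2 : C₁ - C₂ ∈ IsLocalRing.maximalIdeal A := (IsLocalRing.mem_maximalIdeal _).2 hnu
        rw [this] at h2
        exact Ideal.mem_span_singleton.1 h2
      obtain ⟨y, hy⟩ := h1
      rw [hy, map_mul, Fermat.Agent.Crux.GM.map_irreducible_eq_zero r π S.hr hπ, zero_mul] at hd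
      exact hd rfl
    obtain ⟨u, hu⟩ := hdu
    set d' : A := ((u⁻¹ : Aˣ) : A) with hd'
    have hdd : r d' * r (C₁ - C₂) = 1 := by
      rw [← map_mul, ← hu, hd', Units.inv_mul, map_one]
    set e : F := algebraMap A F d' * (a - algebraMap A F C₂) with he
    set e' : F := algebraMap A F d' * (b - algebraMap A F C₂) with he'
    have heM : IntX A x e :=
      (Mx A F x).mul_mem (EndAux.intX_algebraMap x d')
        ((Mx A F x).sub_mem ha (EndAux.intX_algebraMap x C₂))
    have heM' : IntX A x⁻¹ e' :=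
      (Mx A F x⁻¹).mul_mem (EndAux.intX_algebraMap x⁻¹ d')
        ((Mx A F x⁻¹).sub_mem hb (EndAux.intX_algebraMap x⁻¹ C₂))
    have hCC : ∀ c c' : k, (HahnSeries.C c : LaurentSeries k) * HahnSeries.C c' =
        HahnSeries.C (c * c') := fun c c' => (map_mul _ _ _).symm
    have e₁ : RedK r (Φ e) 1 := by
      have := (redC d').mul (ha₁.sub (redC C₂))
      rw [← map_sub, ← map_mul, ← map_sub, hCC, ← map_sub r, hdd, map_one] at this
      exact this
    have e₂ : RedK r (Φ (w e)) 0 := by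
      have := (redwC d').mul (ha₂.sub (redwC C₂))
      rw [← map_sub, ← map_sub, ← map_mul, ← map_mul, sub_self, mul_zero] at this
      exact this
    have hee : IsPiOLx π x (e ^ 2 - e) := by
      refine (isPiOLx_algebraMap_iff π x _).1 (Q.isPiOL _ ?_ ?_)
      · have := (e₁.pow 2).sub e₁
        rwa [← map_pow, ← map_sub, one_pow, sub_self] at this
      · have := (e₂.pow 2).sub e₂
        rw [← map_pow, ← map_pow, ← map_sub, ← map_sub] at this
        simpa using this
    have hbe : IsPiOLx π x (e' - e) := by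
      have h1 : e' - e = -(algebraMap A F d' * (a - b)) := by rw [he, he']; ring
      rw [h1]
      exact IsPiOLx.neg' (IsPiOLx.mul_left hπ (IntX.isOLx hπ (EndAux.intX_algebraMap x d')) hab)
    have hae : IsPiOLx π x (e - e) := by
      have := IsPiOLx.sub hπ hab hab
      rwa [sub_self, ← sub_self e] at this
    rcases conn_of_lifts π hπ x hx hgen (H0_of_setup S) e
      (IntX.isOLx hπ heM) hee e e' heM heM' hae hbe with h | h
    · have := (Q.red0 e ((isPiOLx_algebraMap_iff π x _).2 h)).1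
      exact one_ne_zero (e₁.unique this)
    · have := (Q.red0 (e - 1) ((isPiOLx_algebraMap_iff π x _).2 h)).2
      have h2 := e₂.sub (RedK.one (r := r) (K := K))
      rw [← map_one Φ, ← map_one w, ← map_sub, ← map_sub] at h2
      have h3 := h2.unique this
      simp at h3

end Fermat.Agent.S44.PL
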