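import Fermat.Agent.S44.PL.Ctx
import Fermat.Agent.S44.PL.Gauss

/-!
# S44 / PL / Stage0 : (c1)-(c2)   a representative `z = Y^p W ≡ 1 mod π O_F`

TASKS `S44/PL-Approx` (`Ctx.exists_approx`), `S44/PL-Joint` (`Ctx.joint_lift`, `Ctx.stage0`).
-/

set_option autoImplicit false
set_option linter.unusedSectionVars false
set_option linter.style.haveILetI false

open Polynomial ModularCurve

namespace Fermat.Agent.S44.PL

open Fermat.Agent.Crux.G Fermat.Agent.SS.G2 Fermat.Agent.SS.GM2 Fermat.Agent.Wild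
open Fermat.Agent.S28 (V J evAt)
open Fermat.Agent.Crux.GM (castS)

variable {M p : ℕ} [NeZero M] [NeZero p]
variable {A K k : Type} [CommRing A] [IsDomain A] [IsDiscreteValuationRing A] [Field K]
  [CharZero K] [Algebra A K] [IsFractionRing A K] [Field k] [Finite k]
  {r : A →+* k} {π : A}
variable {F : Type} [Field F] [Algebra A F] {Φ : F →+* LaurentSeries K} {w : F →+* F}
variable {E : Type} [Field E] [CharZero E] [Algebra A E] [Algebra E F] [IsScalarTower A E F]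
  [FiniteDimensional E F]
variable {X : E} {ζ : A}

/-- (task PL-Approx) `π^j y ↦ 0` for `j ≥ 1`. -/
theorem Approx_zpow_mul (hr : Function.Surjective r) (hπ : Irreducible π) {y : LaurentSeries K}
    {b : LaurentSeries k} (h : RedK r y b) {j : ℤ} (hj : 1 ≤ j) :
    RedK r (lam K π ^ j * y) 0 := by
  have hΛ : lam K π ≠ 0 := by
    rw [Ne, map_eq_zero, map_eq_zero_iff _ (IsFractionRing.injective A K)]
    exact hπ.ne_zero
  obtain ⟨m, rfl⟩ : ∃ m : ℕ, j = 1 + m := ⟨(j - 1).toNat, by omega⟩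
  rw [zpow_add₀ hΛ, zpow_one, zpow_natCast, mul_assoc]
  exact RedK.lam_mul hr hπ (((RedK.of_C (r := r) (K := K) π).pow m).mul h)

/-- (task PL-Approx) the computation in the field `K((q))`. -/
theorem Approx_calc {𝕃 : Type*} [Field 𝕃] {Λ e x Dv : 𝕃} (hΛ : Λ ≠ 0) (h : 1 - e = Λ * x)
    (n₁ n₂ : ℤ) (N : ℕ) :
    (Λ ^ n₁ * (e ^ N / Dv) + Λ ^ n₂ * ((1 - e) ^ N / Dv)) * Λ ^ (-n₁)
      = e ^ N / Dv + Λ ^ (n₂ - n₁ + N) * (x ^ N / Dv) := by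
  have h1 : Λ ^ n₁ * Λ ^ (-n₁) = 1 := by rw [← zpow_add₀ hΛ, add_neg_cancel, zpow_zero]
  have h2 : Λ ^ (n₂ - n₁ + N) = Λ ^ n₂ * Λ ^ (-n₁) * Λ ^ N := by
    rw [zpow_add₀ hΛ, sub_eq_add_neg, zpow_add₀ hΛ, zpow_natCast]
  calc (Λ ^ n₁ * (e ^ N / Dv) + Λ ^ n₂ * ((1 - e) ^ N / Dv)) * Λ ^ (-n₁)
      = (Λ ^ n₁ * Λ ^ (-n₁)) * (e ^ N / Dv) + (Λ ^ n₂ * Λ ^ (-n₁) * Λ ^ N) * (x ^ N / Dv) := by
        rw [h, mul_pow]
        ring
    _ = e ^ N / Dv + Λ ^ (n₂ - n₁ + N) * (x ^ N / Dv) := by rw [h1, h2, one_mul]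

/-- (task PL-Approx) one place: `e ↦ 1`. -/
theorem Approx_place (hr : Function.Surjective r) (hπ : Irreducible π) {e : LaurentSeries K}
    (he : RedK r e 1) (n₁ n₂ : ℤ) {N : ℕ} (hN : 1 ≤ n₂ - n₁ + N) (hN0 : N ≠ 0) :
    RedK r ((lam K π ^ n₁ * (e ^ N / (e ^ N + (1 - e) ^ N))
      + lam K π ^ n₂ * ((1 - e) ^ N / (e ^ N + (1 - e) ^ N))) * lam K π ^ (-n₁)) 1 := by
  have hΛ : lam K π ≠ 0 := by
    rw [Ne, map_eq_zero, map_eq_zero_iff _ (IsFractionRing.injective A K)]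
    exact hπ.ne_zero
  have h0 : RedK r (1 - e) 0 := (RedK.one.sub he).congr rfl (sub_self _)
  obtain ⟨x, bx, hx, hxe⟩ := RedK.of_zero hr hπ h0
  have hD : RedK r (e ^ N + (1 - e) ^ N) 1 :=
    ((he.pow N).add (h0.pow N)).congr rfl (by rw [one_pow, zero_pow hN0, add_zero])
  rw [Approx_calc hΛ hxe]
  have h1 : RedK r (e ^ N / (e ^ N + (1 - e) ^ N)) 1 :=
    ((he.pow N).div hD one_ne_zero).congr rfl (by rw [one_pow, div_one])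
  have h2 := Approx_zpow_mul hr hπ ((hx.pow N).div hD one_ne_zero) hN
  exact (h1.add h2).congr rfl (add_zero _)

/-- **weak approximation** (TASK `S44/PL-Approx`): `T ∼ π^n₁` at `v_∞`, `T ∼ π^n₂` at `v_0 = v_∞ ∘ w`.
Proof.  `ε` from `C.S.exists_eps`: `ρ ε = (1, 0)`.  By `RedK.of_zero`: `Φ (1 - ε) = π x`, `Φ (w ε) = π x'`, `x x'` Gauss-integral.  `N := |n₁ - n₂| + 1`,
`D := ε^N + (1 - ε)^N` (`ρ D = (1, 1)`, so `D ≠ 0` and `RedK.inv`), `ε_N := ε^N / D`, `1 - ε_N = (1 - ε)^N / D`.  `l := algebraMap A F π`,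
`T := l^n₁ ε_N + l^n₂ (1 - ε_N)` (`zpow`).  `Φ T π^(-n₁) = Φ ε_N + π^(n₂ - n₁ + N) x^N / Φ D ↦ 1`;
`Φ (w T) π^(-n₂) = π^(n₁ - n₂ + N) x'^N / Φ (w D) + (1 - π^N x'^N / Φ (w D)) ↦ 1`.  (`π^j y ↦ 0` for `j ≥ 1`: `RedK.lam_mul`.) -/
theorem Ctx.exists_approx (C : Ctx M p r π Φ w X ζ) (n₁ n₂ : ℤ) :
    ∃ T : F, T ≠ 0 ∧ RedK r (Φ T * lam K π ^ (-n₁)) 1 ∧ RedK r (Φ (w T) * lam K π ^ (-n₂)) 1 := by
  obtain ⟨ε, hε₁, hε₂, -⟩ := C.S.exists_eps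
  set N : ℕ := (n₁ - n₂).natAbs + 1 with hN
  set l : F := algebraMap A F π with hl
  have hΦl : Φ l = lam K π := C.S.hΦA π
  have hwl : w l = l := C.S.hwA π
  set T : F := l ^ n₁ * (ε ^ N / (ε ^ N + (1 - ε) ^ N))
    + l ^ n₂ * ((1 - ε) ^ N / (ε ^ N + (1 - ε) ^ N)) with hT
  have hΦT : Φ T = lam K π ^ n₁ * (Φ ε ^ N / (Φ ε ^ N + (1 - Φ ε) ^ N))
      + lam K π ^ n₂ * ((1 - Φ ε) ^ N / (Φ ε ^ N + (1 - Φ ε) ^ N)) := by
    simp only [hT, map_add, map_mul, map_zpow₀, map_div₀, map_pow, map_sub, map_one, hΦl]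
  have hΦwT : Φ (w T) = lam K π ^ n₂ * ((1 - Φ (w ε)) ^ N
        / ((1 - Φ (w ε)) ^ N + (1 - (1 - Φ (w ε))) ^ N))
      + lam K π ^ n₁ * ((1 - (1 - Φ (w ε))) ^ N
        / ((1 - Φ (w ε)) ^ N + (1 - (1 - Φ (w ε))) ^ N)) := by
    simp only [hT, map_add, map_mul, map_zpow₀, map_div₀, map_pow, map_sub, map_one, hΦl, hwl,
      sub_sub_cancel]
    rw [add_comm (Φ (w ε) ^ N), add_comm]
  have h1 : RedK r (Φ T * lam K π ^ (-n₁)) 1 := by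
    rw [hΦT]
    exact Approx_place C.S.hr C.S.hπ hε₁ n₁ n₂ (by rw [hN]; omega) (by omega)
  have h2 : RedK r (Φ (w T) * lam K π ^ (-n₂)) 1 := by
    rw [hΦwT]
    exact Approx_place C.S.hr C.S.hπ ((RedK.one.sub hε₂).congr rfl (sub_zero _)) n₂ n₁
      (by rw [hN]; omega) (by omega)
  refine ⟨T, ?_, h1, h2⟩
  intro h0
  rw [h0, map_zero, zero_mul] at h1
  exact zero_ne_one (RedK.zero.unique h1)

/-- TASK `S44/PL-Joint`.  `SS.GM2.exists_redK_of_mem M C.S.hr` gives `e_i ∈ F_K(M) ⊆ F_K(M p)`, `RedK r e_i a_i`; `e_i = Φ c_i` (`C.S.hΦF`; `F_K(M) ≤ F_K(M p)`: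
see how `Setup.lift_X` / `BridgeX_lift_aux` do it), `Φ (w c_i) = V e_i` (`C.S.hwα`), `RedK.map_V`.  `c := c₁ ε + w c₂ (1 - ε)` (`C.S.hww`). -/
theorem Ctx.joint_lift (C : Ctx M p r π Φ w X ζ) {a₁ a₂ : LaurentSeries k}
    (h₁ : a₁ ∈ modularFunctionFieldFullC k M) (h₂ : a₂ ∈ modularFunctionFieldFullC k M) :
    ∃ c : F, RedK r (Φ c) a₁ ∧ RedK r (Φ (w c)) a₂ := by
  obtain ⟨e₁, he₁, hr₁⟩ := exists_redK_of_mem (K := K) M C.S.hr h₁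
  obtain ⟨e₂, he₂, hr₂⟩ := exists_redK_of_mem (K := K) M C.S.hr h₂
  obtain ⟨c₁, rfl⟩ := (C.S.hΦF e₁).1 (full_degeneracyC_le K (Dvd.intro p rfl) he₁)
  obtain ⟨c₂, rfl⟩ := (C.S.hΦF e₂).1 (full_degeneracyC_le K (Dvd.intro p rfl) he₂)
  obtain ⟨ε, hε₁, hε₂, -⟩ := C.S.exists_eps
  have hw₁ : RedK r (Φ (w c₁)) (V k p a₁) := by
    rw [C.S.hwα c₁ he₁]; exact hr₁.map_V p
  have hw₂ : RedK r (Φ (w c₂)) (V k p a₂) := by
    rw [C.S.hwα c₂ he₂]; exact hr₂.map_V p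
  refine ⟨c₁ * ε + w c₂ * (1 - ε), ?_, ?_⟩
  · rw [map_add, map_mul, map_mul, map_sub, map_one]
    exact ((hr₁.mul hε₁).add (hw₂.mul (RedK.one.sub hε₁))).congr rfl (by ring)
  · rw [map_add, map_mul, map_mul, map_sub, map_one, C.S.hww, map_add, map_mul, map_mul, map_sub,
      map_one]
    exact ((hw₁.mul hε₂).add (hr₂.mul (RedK.one.sub hε₂))).congr rfl (by ring)

/-- (Joint helper) bookkeeping of the powers of `π`. -/
theorem Joint_key {L : Type*} [Field L] {l : L} (hl : l ≠ 0) (t c W : L) (p : ℕ) (n : ℤ) :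
    (t * c) ^ p * W = (t * l ^ (-n)) ^ p * c ^ p * (W * l ^ ((p : ℤ) * n)) := by
  have h1 : (l ^ (-n)) ^ p * l ^ ((p : ℤ) * n) = 1 := by
    rw [← zpow_natCast, ← zpow_mul, ← zpow_add₀ hl]
    have : -n * (p : ℤ) + (p : ℤ) * n = 0 := by ring
    rw [this, zpow_zero]
  calc (t * c) ^ p * W = t ^ p * c ^ p * W * ((l ^ (-n)) ^ p * l ^ ((p : ℤ) * n)) := by
        rw [h1, mul_one, mul_pow]
    _ = (t * l ^ (-n)) ^ p * c ^ p * (W * l ^ ((p : ℤ) * n)) := by rw [mul_pow]; ring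

/-- TASK `S44/PL-Joint`.  `Y := T c` with `T` from `exists_approx n₁ n₂`, `c` from `joint_lift` for `ψ₁⁻¹`, `ψ₂⁻¹`:
`Φ (Y^p W) = (Φ c)^p (Φ T π^(-n₁))^p (Φ W π^(p n₁)) ↦ ψ₁^(-p) ψ₁^p = 1`.  `C.isPiOLx_iff`. -/
theorem Ctx.stage0 (C : Ctx M p r π Φ w X ζ) {W : F} (n₁ n₂ : ℤ) {ψ₁ ψ₂ : LaurentSeries k}
    (hψ₁ : ψ₁ ∈ modularFunctionFieldFullC k M) (hψ₂ : ψ₂ ∈ modularFunctionFieldFullC k M)
    (h0₁ : ψ₁ ≠ 0) (h0₂ : ψ₂ ≠ 0)
    (h₁ : RedK r (Φ W * lam K π ^ ((p : ℤ) * n₁)) (ψ₁ ^ p))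
    (h₂ : RedK r (Φ (w W) * lam K π ^ ((p : ℤ) * n₂)) (ψ₂ ^ p)) :
    ∃ Y : F, Y ≠ 0 ∧ IsPiOLx π X (Y ^ p * W - 1) := by
  obtain ⟨T, hT0, hT₁, hT₂⟩ := C.exists_approx n₁ n₂
  obtain ⟨c, hc₁, hc₂⟩ := C.joint_lift (inv_mem hψ₁) (inv_mem hψ₂)
  have hc0 : c ≠ 0 := by
    rintro rfl
    rw [map_zero] at hc₁
    exact inv_ne_zero h0₁ (hc₁.unique RedK.zero)
  have hlam : lam K π ≠ 0 := by
    intro h
    have h3 : algebraMap A K π = 0 := by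
      have := congrArg (fun z : LaurentSeries K => z.coeff 0) h
      simpa using this
    exact C.irr.ne_zero ((map_eq_zero_iff _ (IsFractionRing.injective A K)).mp h3)
  refine ⟨T * c, mul_ne_zero hT0 hc0, (C.isPiOLx_iff _).2 ⟨?_, ?_⟩⟩
  · rw [map_sub, map_mul, map_pow, map_mul, map_one, Joint_key hlam _ _ _ p n₁]
    refine ((((hT₁.pow p).mul (hc₁.pow p)).mul h₁).sub RedK.one).congr rfl ?_
    rw [one_pow, one_mul, ← mul_pow, inv_mul_cancel₀ h0₁, one_pow, sub_self]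
  · rw [map_sub, map_mul, map_pow, map_mul, map_one, map_sub, map_mul, map_pow, map_mul, map_one,
      Joint_key hlam _ _ _ p n₂]
    refine ((((hT₂.pow p).mul (hc₂.pow p)).mul h₂).sub RedK.one).congr rfl ?_
    rw [one_pow, one_mul, ← mul_pow, inv_mul_cancel₀ h0₂, one_pow, sub_self]

end Fermat.Agent.S44.PL
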