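import Fermat.Agent.S44.PL.H0bar
import Fermat.Agent.Crux.G.Emb

/-!
# S44 / PL / Stage1a : (c3)-(c5) of board #2328 in the `GM2.Setup` / `QL` language

* `c0`          : the constant coefficient `K[[q]] → K` as a ring hom on `Emb.ordVal K`.
* `exists_ev`   : `ev : M(X⁻¹) → A`, the constant coefficient of the `q`-expansion.
* `twoCharts`   : the instance of `PL.TwoCharts` on `O = Wild.OFx`.
* `stage1`      : `z ≡ 1 mod π O_F`, `InvKx` in both charts  ⟹
  `y^p z = e (1 + π^p ξ)`, `y'^p z = e (1 + π^p ξ')`, `ξ ∈ M(X)`, `ξ' ∈ M(X⁻¹)`, `e ∈ A^×`, `ξ'(q = 0) = 0`.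
-/

set_option autoImplicit false
set_option linter.unusedSectionVars false

open Polynomial ModularCurve

namespace Fermat.Agent.S44.PL

open Fermat.Agent.Crux.G Fermat.Agent.SS.G2 Fermat.Agent.SS.GM2 Fermat.Agent.Wild
open Fermat.Agent.S28 (V J evAt)
open Fermat.Agent.Crux.GM (castS)

section C0

variable {K : Type*} [Field K]

theorem coeff_zero_of_pos {x : LaurentSeries K} (h : Emb.Pos x) : x.coeff 0 = 0 := by
  rcases h with rfl | h
  · rfl
  · exact HahnSeries.coeff_eq_zero_of_lt_order (by omega)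

theorem pos_sub_C {x : LaurentSeries K} (h : 0 ≤ x.order) :
    Emb.Pos (x - HahnSeries.C (x.coeff 0)) := by
  by_cases h0 : x - HahnSeries.C (x.coeff 0) = 0
  · exact Or.inl h0
  right
  by_contra hlt
  have h1 : (x - HahnSeries.C (x.coeff 0)).coeff (x - HahnSeries.C (x.coeff 0)).order ≠ 0 :=
    fun h => h0 (HahnSeries.coeff_order_eq_zero.1 h)
  set n := (x - HahnSeries.C (x.coeff 0)).order with hn
  have hn1 : n ≤ 0 := by omega
  apply h1
  rw [HahnSeries.coeff_sub, HahnSeries.C_apply]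
  rcases hn1.lt_or_eq with h2 | h2
  · rw [HahnSeries.coeff_eq_zero_of_lt_order (lt_of_lt_of_le h2 h),
      HahnSeries.coeff_single_of_ne h2.ne, sub_zero]
  · rw [h2, HahnSeries.coeff_single_same, sub_self]

theorem coeff_zero_mul {x y : LaurentSeries K} (hx : 0 ≤ x.order) (hy : 0 ≤ y.order) :
    (x * y).coeff 0 = x.coeff 0 * y.coeff 0 := by
  have hx' := pos_sub_C hx
  have hy' := pos_sub_C hy
  set a := x.coeff 0
  set b := y.coeff 0
  have hCa : 0 ≤ (HahnSeries.C a : LaurentSeries K).order := by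
    rw [HahnSeries.order_C]
  have e : x * y = HahnSeries.C (a * b) + (x * (y - HahnSeries.C b) +
      (HahnSeries.C b) * (x - HahnSeries.C a)) := by
    rw [map_mul]; ring
  have hCb : 0 ≤ (HahnSeries.C b : LaurentSeries K).order := by
    rw [HahnSeries.order_C]
  have hpos : Emb.Pos (x * (y - HahnSeries.C b) + (HahnSeries.C b) * (x - HahnSeries.C a)) :=
    (Emb.Pos.mul_left hx hy').add (Emb.Pos.mul_left hCb hx')
  rw [e, HahnSeries.coeff_add, coeff_zero_of_pos hpos, add_zero, HahnSeries.C_apply,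
    HahnSeries.coeff_single_same]

/-- the constant coefficient. -/
noncomputable def c0 (K : Type*) [Field K] : Emb.ordVal K →+* K where
  toFun x := (x : LaurentSeries K).coeff 0
  map_one' := by
    show (1 : LaurentSeries K).coeff 0 = 1
    rw [HahnSeries.coeff_one, if_pos rfl]
  map_mul' x y := coeff_zero_mul x.2 y.2
  map_zero' := rfl
  map_add' _ _ := rfl

theorem c0_apply (x : Emb.ordVal K) : c0 K x = (x : LaurentSeries K).coeff 0 := rfl

end C0

/-- a ring hom through an injective ring hom. -/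
theorem exists_ringHom_of_forall_exists {R S T : Type*} [CommRing R] [CommRing S] [CommRing T]
    (f : R →+* T) (g : S →+* T) (hg : Function.Injective g) (h : ∀ x, ∃ y, g y = f x) :
    ∃ φ : R →+* S, ∀ x, g (φ x) = f x := by
  choose a ha using h
  exact ⟨{ toFun := a
           map_one' := hg (by rw [ha, map_one, map_one])
           map_mul' := fun x y => hg (by rw [ha, map_mul, map_mul, ha, ha])
           map_zero' := hg (by rw [ha, map_zero, map_zero])
           map_add' := fun x y => hg (by rw [ha, map_add, map_add, ha, ha]) }, ha⟩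

variable {M ℓ : ℕ} [NeZero M] [NeZero ℓ]
variable {A K k : Type} [CommRing A] [IsDomain A] [IsDiscreteValuationRing A] [Field K]
  [Algebra A K] [IsFractionRing A K] [Field k] {r : A →+* k} {π : A}
variable {F : Type} [Field F] [Algebra A F] {Φ : F →+* LaurentSeries K} {w : F →+* F}
variable {E : Type} [Field E] [Algebra A E] [Algebra E F] [IsScalarTower A E F]

theorem order_evK_nonneg {t : LaurentSeries K} (ht : 0 ≤ t.order) (P : A[X]) :
    0 ≤ (evK A t P).order := by
  have : evK A t P ∈ Emb.ordVal K := by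
    induction P using Polynomial.induction_on' with
    | add p q hp hq => rw [map_add]; exact (Emb.ordVal K).add_mem _ _ hp hq
    | monomial n a =>
      rw [← C_mul_X_pow_eq_monomial, map_mul, map_pow]
      refine (Emb.ordVal K).mul_mem _ _ ?_ ((Emb.ordVal K).pow_mem ?_ n)
      · simp only [evK, coe_eval₂RingHom, eval₂_C, RingHom.comp_apply]
        show 0 ≤ (HahnSeries.C (algebraMap A K a) : LaurentSeries K).order
        rw [HahnSeries.order_C]
      · simp only [evK, coe_eval₂RingHom, eval₂_X]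
        exact ht
  exact this

/-- elements integral over `A[t]`, `ord_q t > 0`: `q`-expansion in `K[[q]]`, constant term in `A`. -/
theorem order_nonneg_and_coeff_zero (S : Setup M ℓ r π Φ w) {t y : F} (ht : 0 < (Φ t).order)
    (hy : IntX A t y) : 0 ≤ (Φ y).order ∧ ∃ a : A, algebraMap A K a = (Φ y).coeff 0 := by
  have hy' := (S.intX_iff t y).1 hy
  have hf : ∀ P, 0 ≤ (evK A (Φ t) P).order := order_evK_nonneg ht.le
  have h0 := Emb.order_nonneg_of_isIntegralElem _ hf hy'
  refine ⟨h0, ?_⟩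
  obtain ⟨P, hP, hPy⟩ := hy'
  let f' : A[X] →+* Emb.ordVal K := (evK A (Φ t)).codRestrict (Emb.ordVal K).toSubring hf
  have hcomp : (c0 K).comp f' = (algebraMap A K).comp (evalRingHom (0 : A)) := by
    refine Polynomial.ringHom_ext (fun a => ?_) ?_
    · simp only [RingHom.comp_apply, coe_evalRingHom, eval_C]
      show (evK A (Φ t) (C a)).coeff 0 = _
      simp only [evK, coe_eval₂RingHom, eval₂_C, RingHom.comp_apply, HahnSeries.C_apply,
        HahnSeries.coeff_single_same]
    · simp only [RingHom.comp_apply, coe_evalRingHom, eval_X, map_zero]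
      show (evK A (Φ t) X).coeff 0 = _
      simp only [evK, coe_eval₂RingHom, eval₂_X]
      exact HahnSeries.coeff_eq_zero_of_lt_order ht
  have hroot : eval₂ f' (⟨Φ y, h0⟩ : Emb.ordVal K) P = 0 := by
    apply Subtype.ext
    have := Polynomial.hom_eval₂ P f' (Emb.ordVal K).subtype ⟨Φ y, h0⟩
    rw [show ((eval₂ f' (⟨Φ y, h0⟩ : Emb.ordVal K) P : Emb.ordVal K) : LaurentSeries K) =
      (Emb.ordVal K).subtype (eval₂ f' (⟨Φ y, h0⟩ : Emb.ordVal K) P) from rfl, this]
    exact hPy
  have hint : IsIntegral A ((Φ y).coeff 0) := by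
    refine ⟨P.map (evalRingHom (0 : A)), hP.map _, ?_⟩
    rw [eval₂_map, ← hcomp]
    have := congrArg (c0 K) hroot
    rw [Polynomial.hom_eval₂, map_zero] at this
    exact this
  exact IsIntegrallyClosed.isIntegral_iff.1 hint

variable [CharZero E] [FiniteDimensional E F]

/-- `ev : M(X⁻¹) → A`, the constant coefficient of the `q`-expansion. -/
theorem exists_ev (S : Setup M ℓ r π Φ w) (x : E)
    (hord : 0 < (Φ (algebraMap E F x⁻¹)).order) :
    ∃ ev : MOx (F := F) S.hπ x x⁻¹ →+* A,
      ∀ y, algebraMap A K (ev y) = (Φ ((y : OFx S.hπ x F) : F)).coeff 0 := by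
  have h : ∀ y : MOx (F := F) S.hπ x x⁻¹, 0 ≤ (Φ ((y : OFx S.hπ x F) : F)).order ∧
      ∃ a : A, algebraMap A K a = (Φ ((y : OFx S.hπ x F) : F)).coeff 0 := fun y =>
    order_nonneg_and_coeff_zero S hord ((intX_algebraMap_iff x⁻¹ _).2 y.2)
  let f : MOx (F := F) S.hπ x x⁻¹ →+* Emb.ordVal K :=
    ((Φ.comp (OFx S.hπ x F).subtype).comp (MOx (F := F) S.hπ x x⁻¹).subtype).codRestrict
      (Emb.ordVal K).toSubring (fun y => (h y).1)
  exact exists_ringHom_of_forall_exists ((c0 K).comp f) (algebraMap A K)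
    (IsFractionRing.injective A K) (fun y => (h y).2)

/-- saturation of a chart ring in `O_F`. -/
theorem sat_MOx {π : A} (hπ : Irreducible π) (x : E) {x' : E} (hx' : Transcendental A x')
    (hgen' : ∀ c : E, ∃ p q : A[X], q ≠ 0 ∧ c * aeval x' q = aeval x' p)
    (hPi : ∀ y : F, IsPiOLx π x' y ↔ IsPiOLx π x y) (a : OFx hπ x F)
    (ha : iA hπ x π * a ∈ MOx (F := F) hπ x x') : a ∈ MOx (F := F) hπ x x' := by
  have h1 : IntX A x' (algebraMap A F π * (a : F)) := ha
  have h2 : IsPiOLx π x' (algebraMap A F π * (a : F)) := by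
    rw [hPi]
    exact (iA_dvd_iff hπ x (iA hπ x π * a)).1 (dvd_mul_right _ _)
  obtain ⟨z, hz, h⟩ := intX_of_smul hπ hx' hgen' h1 h2
  rw [← IsScalarTower.algebraMap_apply] at h
  have hπF : algebraMap A F π ≠ 0 := by
    rw [IsScalarTower.algebraMap_apply A E F, Ne, map_eq_zero]
    intro h0
    have := (transcendental_iff.1 hx') (C π) (by rw [aeval_C, h0])
    exact hπ.ne_zero (C_eq_zero.1 this)
  have : (a : F) = z := mul_left_cancel₀ hπF h
  rw [mem_MOx, this]
  exact hz

/-- the instance of `TwoCharts`. -/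
theorem twoCharts (S : Setup M ℓ r π Φ w) {x : E} (hx : Transcendental A x)
    (hgen : ∀ c : E, ∃ p q : A[X], q ≠ 0 ∧ c * aeval x q = aeval x p)
    (hwx : w (algebraMap E F x) = algebraMap E F x) {tk : LaurentSeries k}
    (hxk : RedK r (Φ (algebraMap E F x)) tk) (htk : tk ≠ 0)
    (Q : QL M r π Φ w (algebraMap E F x)) :
    TwoCharts (MOx (F := F) S.hπ x x) (MOx (F := F) S.hπ x x⁻¹) (iA (F := F) S.hπ x).range
      (iA S.hπ x π) where
  C_le0 := by
    rintro _ ⟨a, rfl⟩
    exact EndAux.intX_algebraMap x a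
  C_leinf := by
    rintro _ ⟨a, rfl⟩
    exact EndAux.intX_algebraMap x⁻¹ a
  l_mem := ⟨π, rfl⟩
  sat0 := sat_MOx S.hπ x hx hgen (fun _ => Iff.rfl)
  satinf := by
    have hx0 : x ≠ 0 := by
      rintro rfl
      exact hx isAlgebraic_zero
    exact sat_MOx S.hπ x (transcendental_inv hx) (hgen_inv hx hgen)
      (isPiOLx_inv_iff S.hπ.prime hx0)
  h0bar := by
    intro a ha b hb hab
    obtain ⟨c, hc⟩ := h0bar S hx hgen hwx hxk htk Q (a := (a : F)) (b := (b : F)) ha hb
      ((iA_dvd_iff S.hπ x (a - b)).1 hab)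
    exact ⟨iA S.hπ x c, ⟨c, rfl⟩, (iA_dvd_iff S.hπ x _).2 hc⟩

end Fermat.Agent.S44.PL
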